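import Mathlib
import Fermat.Prelude.Def_CuspForm_HeckeLocal
import Fermat.Prelude.Def_CuspForm_HeckeEvalForms
import Fermat.Prelude.Def_HeckeGalois_EichlerShimura
import Fermat.Prelude.Def_ModularCurve_ModularUnit
import Fermat.Prelude.Def_ModularCurve_PeriodHomPair
import Fermat.Agent.S24.AnDefs

/-!
# S16 (Mazur's index of the Eisenstein ideal): common definitions
-/

set_option autoImplicit false

namespace Fermat.Agent.S16

open UpperHalfPlane ModularForm ModularCurve CuspForm CongruenceSubgroup EisensteinSeries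
open Fermat.Agent.S24
open scoped MatrixGroups Manifold

/-- the Eisenstein character `X_ℓ ↦ 1 + ℓ` (`ℓ ≠ p`), `X_p ↦ 1` -/
noncomputable def chi (p : ℕ) : HeckeAlg →ₐ[ℤ] ℤ := MvPolynomial.aeval (eisensteinSystem p)

/-- the action of a Hecke polynomial on `S₂(Γ₀(p))` -/
noncomputable def evP (p : ℕ) [NeZero p] (P : HeckeAlg) :
    Module.End ℂ (CuspForm (Gamma0 p) 2) :=
  ((heckeEvalForms p 2 P : heckeAlgebra p 2 ∅) : Module.End ℂ (CuspForm (Gamma0 p) 2))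

/-- the sum of the divisors of `k` which are prime to `p` -/
def sigP (p k : ℕ) : ℤ := ∑ d ∈ k.divisors with ¬ p ∣ d, (d : ℤ)

/-- `N E₂(N z) - E₂(z)` -/
noncomputable def BN (N : ℕ) [NeZero N] (z : ℍ) : ℂ := (N : ℂ) * E2 (affH N 0 1 z) - E2 z

/-- the standard representatives `(ℓ 0; 0 1)`, `(1 j; 0 ℓ)` of the Hecke operator `T_ℓ` -/
def hkMat (ℓ : ℕ) : Option (Fin ℓ) → Matrix (Fin 2) (Fin 2) ℤ
  | none => !![(ℓ : ℤ), 0; 0, 1]
  | some j => !![1, ((j : ℕ) : ℤ); 0, (ℓ : ℤ)]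

/-- the data of a weight `2` function on `Γ₀(p)` with its expansion at the other cusp:
`F` is invariant under `Γ₀(p)`, `F|S (z) = -p⁻¹ Ft(z/p)`, both `F` and `Ft` are holomorphic,
`1`-periodic, bounded at `i∞`, with integral `q`-expansions `c`, `ct`. -/
structure Wt2Data (p : ℕ) [NeZero p] (F Ft : ℍ → ℂ) (c ct : ℕ → ℤ) : Prop where
  nice : IsNiceH 1 F
  nicet : IsNiceH 1 Ft
  inv : ∀ γ ∈ Gamma0 p, F ∣[(2 : ℤ)] γ = F
  slashS : ∀ z, (F ∣[(2 : ℤ)] ModularGroup.S) z = -(p : ℂ)⁻¹ * Ft (affH 1 0 p z)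
  coeff : ∀ k, (qExpansion 1 F).coeff k = (c k : ℂ)
  coefft : ∀ k, (qExpansion 1 Ft).coeff k = (ct k : ℂ)

end Fermat.Agent.S16
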