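import Mathlib
import Fermat.Agent.S16.Defs
import Fermat.Agent.S23

/-!
# S16 (M1): the final algebra
-/

set_option autoImplicit false
set_option synthInstance.maxHeartbeats 400000
set_option maxHeartbeats 1000000

namespace Fermat.Agent.S16

open ModularCurve CuspForm CongruenceSubgroup

variable (p : ℕ) [Fact p.Prime]

omit [Fact p.Prime] in
lemma alg_chi_C (a : ℤ) : chi p (MvPolynomial.C a) = a := by
  rw [chi, MvPolynomial.aeval_C]; rfl

omit [Fact p.Prime] in
lemma alg_mem_eis (P : HeckeAlg) : P ∈ eisensteinIdeal p ↔ chi p P = 0 := by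
  rw [eisensteinIdeal, mem_eigenIdeal_iff]
  rfl

/-- the evaluation map onto the Hecke algebra is surjective -/
lemma alg_eval_surjective : Function.Surjective (heckeEvalForms p 2) := by
  rintro ⟨t, ht⟩
  suffices h : ∃ P : HeckeAlg, ((heckeEvalForms p 2 P : heckeAlgebra p 2 ∅) :
      Module.End ℂ (CuspForm (Gamma0 p) 2)) = t by
    obtain ⟨P, hP⟩ := h
    exact ⟨P, Subtype.ext hP⟩
  rw [heckeAlgebra] at ht
  induction ht using Algebra.adjoin_induction with
  | mem x hx =>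
    rcases hx with ⟨ℓ, hℓ, hℓN, -, rfl⟩ | ⟨q, hqN, hq, -, rfl⟩
    · refine ⟨heckeGen ⟨ℓ, hℓ⟩, ?_⟩
      rw [heckeEvalForms_heckeGen_of_not_dvd (ℓ := (⟨ℓ, hℓ⟩ : Nat.Primes)) hℓN, heckeAlgebra.coe_T]
    · refine ⟨heckeGen ⟨q, hq⟩, ?_⟩
      rw [heckeEvalForms_heckeGen_of_dvd (q := (⟨q, hq⟩ : Nat.Primes)) hqN, heckeAlgebra.coe_U]
  | algebraMap r =>
    refine ⟨MvPolynomial.C r, ?_⟩
    rw [heckeEvalForms_C]
    rfl
  | add x y _ _ hx hy =>
    obtain ⟨P, rfl⟩ := hx
    obtain ⟨Q, rfl⟩ := hy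
    exact ⟨P + Q, by rw [map_add]; rfl⟩
  | mul x y _ _ hx hy =>
    obtain ⟨P, rfl⟩ := hx
    obtain ⟨Q, rfl⟩ := hy
    exact ⟨P * Q, by rw [map_mul]; rfl⟩

/-- the map `ρ` of the statement -/
noncomputable def algRho : HeckeAlg →+* ↥(heckeLatticeAlgebra p ∅) :=
  (latticeRestrictHom p ∅).toRingHom.comp (heckeEvalForms p 2)

lemma algRho_surjective : Function.Surjective (algRho p) :=
  (latticeRestrictHom_surjective p ∅).comp (alg_eval_surjective p)

lemma algRho_eq_zero_iff (P : HeckeAlg) : algRho p P = 0 ↔ heckeEvalForms p 2 P = 0 := by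
  constructor
  · intro h
    apply (latticeRestrictHom_bijective p ∅ (Fermat.Agent.S23.result p)).1
    rw [map_zero]
    exact h
  · intro h
    rw [algRho, RingHom.comp_apply, h, map_zero]

lemma algRho_C (a : ℤ) : algRho p (MvPolynomial.C a) = (a : ↥(heckeLatticeAlgebra p ∅)) := by
  have : (MvPolynomial.C a : HeckeAlg) = ((a : ℤ) : HeckeAlg) := by
    simp
  rw [this, map_intCast]

theorem index_of (p : ℕ) [Fact p.Prime]
    (hA : ∀ P : HeckeAlg, heckeEvalForms p 2 P = 0 → ((eisensteinNumerator p : ℕ) : ℤ) ∣ chi p P)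
    (hB : ∀ m : ℤ, (∀ P : HeckeAlg, heckeEvalForms p 2 P = 0 → m ∣ chi p P) →
      m ∣ ((eisensteinNumerator p : ℕ) : ℤ)) :
    Nat.card (↥(heckeLatticeAlgebra p ∅) ⧸
        Ideal.map ((latticeRestrictHom p ∅).toRingHom.comp (heckeEvalForms p 2))
          (eisensteinIdeal p)) =
      eisensteinNumerator p := by
  change Nat.card (↥(heckeLatticeAlgebra p ∅) ⧸ Ideal.map (algRho p) (eisensteinIdeal p)) = _
  set J := Ideal.map (algRho p) (eisensteinIdeal p) with hJ
  set n := eisensteinNumerator p with hn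
  let F : ℤ →+* (↥(heckeLatticeAlgebra p ∅) ⧸ J) := Int.castRingHom _
  have hFa : ∀ a : ℤ, F a = Ideal.Quotient.mk J (a : ↥(heckeLatticeAlgebra p ∅)) := by
    intro a
    simp [F]
  have hsurj : Function.Surjective F := by
    intro x
    obtain ⟨t, rfl⟩ := Ideal.Quotient.mk_surjective x
    obtain ⟨P, rfl⟩ := algRho_surjective p t
    refine ⟨chi p P, ?_⟩
    rw [hFa, Ideal.Quotient.eq, ← algRho_C, ← map_sub]
    apply Ideal.mem_map_of_mem
    rw [alg_mem_eis, map_sub, alg_chi_C, sub_self]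
  -- an element of the kernel of `ev` with `χ = n`
  obtain ⟨P₀, hP₀, hχ₀⟩ : ∃ P : HeckeAlg, heckeEvalForms p 2 P = 0 ∧ chi p P = n := by
    have hχs : Function.Surjective ((chi p : HeckeAlg →ₐ[ℤ] ℤ) : HeckeAlg →+* ℤ) :=
      fun a => ⟨MvPolynomial.C a, alg_chi_C p a⟩
    set 𝔞 : Ideal ℤ := (RingHom.ker (heckeEvalForms p 2)).map
      ((chi p : HeckeAlg →ₐ[ℤ] ℤ) : HeckeAlg →+* ℤ) with h𝔞
    obtain ⟨m₀, hm₀⟩ := (IsPrincipalIdealRing.principal 𝔞).principal
    have h1 : m₀ ∣ (n : ℤ) := by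
      apply hB
      intro P hP
      have : chi p P ∈ 𝔞 := Ideal.mem_map_of_mem _ (RingHom.mem_ker.2 hP)
      rw [hm₀] at this
      exact (Ideal.mem_span_singleton (α := ℤ)).1 this
    have h2 : (n : ℤ) ∈ 𝔞 := by
      rw [hm₀]
      exact (Ideal.mem_span_singleton (α := ℤ)).2 h1
    obtain ⟨P, hP, hPn⟩ := (Ideal.mem_map_iff_of_surjective _ hχs).1 h2
    exact ⟨P, RingHom.mem_ker.1 hP, hPn⟩
  have hker : RingHom.ker F = Ideal.span {(n : ℤ)} := by
    ext a
    rw [RingHom.mem_ker, hFa, Ideal.Quotient.eq_zero_iff_mem, Ideal.mem_span_singleton]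
    constructor
    · intro h
      obtain ⟨Q, hQ, hQa⟩ := (Ideal.mem_map_iff_of_surjective _ (algRho_surjective p)).1 h
      have h1 : algRho p (MvPolynomial.C a - Q) = 0 := by
        rw [map_sub, algRho_C, hQa, sub_self]
      have h2 := hA _ ((algRho_eq_zero_iff p _).1 h1)
      rw [map_sub, alg_chi_C, (alg_mem_eis p Q).1 hQ, sub_zero] at h2
      exact h2
    · rintro ⟨b, rfl⟩
      have h1 : ((n : ℤ) : ↥(heckeLatticeAlgebra p ∅)) ∈ J := by
        have e : ((n : ℤ) : ↥(heckeLatticeAlgebra p ∅)) = algRho p (MvPolynomial.C (n : ℤ) - P₀) := by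
          rw [map_sub, algRho_C, (algRho_eq_zero_iff p P₀).2 hP₀, sub_zero]
        rw [e]
        apply Ideal.mem_map_of_mem
        rw [alg_mem_eis, map_sub, alg_chi_C, hχ₀, sub_self]
      push_cast
      exact J.mul_mem_right _ (by exact_mod_cast h1)
  have e1 := RingHom.quotientKerEquivOfSurjective hsurj
  rw [← Nat.card_congr e1.toEquiv, hker,
    Nat.card_congr (Int.quotientSpanEquivZMod (n : ℤ)).toEquiv, Nat.card_zmod]
  simp

end Fermat.Agent.S16
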