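import Mathlib
import Fermat.Agent.S16.Defs

/-!
# S16 (M3): the trace to level one vanishes in weight `< 12`
-/

set_option autoImplicit false

namespace Fermat.Agent.S16

open UpperHalfPlane ModularForm ModularCurve CuspForm CongruenceSubgroup EisensteinSeries
open Fermat.Agent.S24
open scoped MatrixGroups Manifold

/-- a holomorphic level one invariant function of weight `< 12` vanishing at `i∞` is zero -/
theorem tr_eq_zero_of_invariant (k : ℤ) (hk : k < 12) (φ : ℍ → ℂ) (hholo : MDiff φ)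
    (hinv : ∀ γ : SL(2, ℤ), φ ∣[k] γ = φ) (h0 : IsZeroAtImInfty φ) : φ = 0 := by
  let F : CuspForm 𝒮ℒ k :=
    { toFun := φ
      slash_action_eq' := by
        rintro _ ⟨γ, rfl⟩
        exact hinv γ
      holo' := hholo
      zero_at_cusps' := by
        intro c hc
        rw [OnePoint.isZeroAt_iff_forall_SL2Z hc]
        intro γ _
        rw [hinv γ]
        exact h0 }
  have h := rank_zero_iff_forall_zero.mp (CuspForm.rank_eq_zero_of_weight_lt_twelve hk) F
  have h2 : (F : ℍ → ℂ) = 0 := by rw [h]; rfl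
  exact h2

/-- `G|γ` only depends on the coset `Γ₀(p) γ` -/
theorem tr_slash_congr (p : ℕ) (k : ℤ) (G : ℍ → ℂ) (hinv : ∀ γ ∈ Gamma0 p, G ∣[k] γ = G)
    (γ γ' : SL(2, ℤ)) (h : ((γ 1 0 * γ' 1 1 - γ 1 1 * γ' 1 0 : ℤ) : ZMod p) = 0) :
    G ∣[k] γ = G ∣[k] γ' := by
  have e : γ = (γ * γ'⁻¹) * γ' := by group
  have hm : γ * γ'⁻¹ ∈ Gamma0 p := by
    rw [Gamma0_mem]
    rw [← h]
    congr 1
    rw [Matrix.SpecialLinearGroup.coe_mul, Matrix.SpecialLinearGroup.coe_inv,
      Matrix.adjugate_fin_two, Matrix.mul_apply, Fin.sum_univ_two]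
    simp
    ring
  conv_lhs => rw [e, SlashAction.slash_mul, hinv _ hm]

theorem tr_row (b : ℕ) : (ModularGroup.S * ModularGroup.T ^ b) 1 0 = 1 ∧
    (ModularGroup.S * ModularGroup.T ^ b) 1 1 = (b : ℤ) := by
  have h := ModularGroup.coe_T_zpow (b : ℤ)
  rw [zpow_natCast] at h
  rw [Matrix.SpecialLinearGroup.coe_mul, h, ModularGroup.coe_S]
  simp [Matrix.mul_apply, Fin.sum_univ_two]

theorem tr_rowS (b : ℕ) : (ModularGroup.S * ModularGroup.T ^ b * ModularGroup.S) 1 0 = (b : ℤ) ∧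
    (ModularGroup.S * ModularGroup.T ^ b * ModularGroup.S) 1 1 = -1 := by
  have h := ModularGroup.coe_T_zpow (b : ℤ)
  rw [zpow_natCast] at h
  rw [Matrix.SpecialLinearGroup.coe_mul, Matrix.SpecialLinearGroup.coe_mul, h, ModularGroup.coe_S]
  simp [Matrix.mul_apply, Fin.sum_univ_two]

/-- the conjugates `G|S T^b` -/
noncomputable def trG (k : ℤ) (G : ℍ → ℂ) (p : ℕ) (x : ZMod p) : ℍ → ℂ :=
  G ∣[k] (ModularGroup.S * ModularGroup.T ^ x.val)

theorem trG_nat (p : ℕ) [NeZero p] (k : ℤ) (G : ℍ → ℂ) (hinv : ∀ γ ∈ Gamma0 p, G ∣[k] γ = G)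
    (b : ℕ) : G ∣[k] (ModularGroup.S * ModularGroup.T ^ b) = trG k G p (b : ZMod p) := by
  refine tr_slash_congr p k G hinv _ _ ?_
  rw [(tr_row b).1, (tr_row b).2, (tr_row _).1, (tr_row _).2]
  push_cast
  rw [ZMod.natCast_zmod_val]
  ring

theorem trG_slash_T (p : ℕ) [NeZero p] (k : ℤ) (G : ℍ → ℂ)
    (hinv : ∀ γ ∈ Gamma0 p, G ∣[k] γ = G) (x : ZMod p) :
    trG k G p x ∣[k] ModularGroup.T = trG k G p (x + 1) := by
  rw [trG, ← SlashAction.slash_mul, mul_assoc, ← pow_succ, trG_nat p k G hinv]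
  congr 1
  push_cast
  rw [ZMod.natCast_zmod_val]

theorem trG_zero_slash_S (p : ℕ) [NeZero p] (k : ℤ) (G : ℍ → ℂ)
    (hinv : ∀ γ ∈ Gamma0 p, G ∣[k] γ = G) :
    trG k G p 0 ∣[k] ModularGroup.S = G := by
  rw [trG, ← SlashAction.slash_mul]
  have h := tr_slash_congr p k G hinv
    (ModularGroup.S * ModularGroup.T ^ (0 : ZMod p).val * ModularGroup.S) 1 ?_
  · rw [h, SlashAction.slash_one]
  · rw [(tr_rowS _).1, (tr_rowS _).2]
    simp

theorem trG_slash_S (p : ℕ) [Fact p.Prime] (k : ℤ) (G : ℍ → ℂ)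
    (hinv : ∀ γ ∈ Gamma0 p, G ∣[k] γ = G) (x : ZMod p) (hx : x ≠ 0) :
    trG k G p x ∣[k] ModularGroup.S = trG k G p (-x⁻¹) := by
  rw [trG, ← SlashAction.slash_mul]
  refine tr_slash_congr p k G hinv _ _ ?_
  rw [(tr_rowS _).1, (tr_rowS _).2, (tr_row _).1, (tr_row _).2]
  push_cast
  rw [ZMod.natCast_zmod_val, ZMod.natCast_zmod_val]
  field_simp
  ring

theorem trG_zero (p : ℕ) [NeZero p] (k : ℤ) (G : ℍ → ℂ) :
    trG k G p 0 = G ∣[k] ModularGroup.S := by
  rw [trG]; simp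

/-- the trace -/
noncomputable def trH (k : ℤ) (G : ℍ → ℂ) (p : ℕ) [NeZero p] : ℍ → ℂ :=
  G + ∑ x : ZMod p, trG k G p x

theorem trH_slash_T (p : ℕ) [NeZero p] (k : ℤ) (G : ℍ → ℂ)
    (hinv : ∀ γ ∈ Gamma0 p, G ∣[k] γ = G) : trH k G p ∣[k] ModularGroup.T = trH k G p := by
  have hT : ModularGroup.T ∈ Gamma0 p := by
    rw [Gamma0_mem]; simp [ModularGroup.coe_T]
  rw [trH, SlashAction.add_slash, SlashAction.sum_slash, hinv _ hT]
  congr 1
  simp_rw [trG_slash_T p k G hinv]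
  exact Equiv.sum_comp (Equiv.addRight (1 : ZMod p)) (trG k G p)

theorem trH_slash_S (p : ℕ) [Fact p.Prime] (k : ℤ) (G : ℍ → ℂ)
    (hinv : ∀ γ ∈ Gamma0 p, G ∣[k] γ = G) : trH k G p ∣[k] ModularGroup.S = trH k G p := by
  have hinvol : Function.Involutive (fun x : ZMod p => -x⁻¹) := by
    intro x
    simp
  let σ : Equiv.Perm (ZMod p) := Function.Involutive.toPerm _ hinvol
  have hσ : ∀ x, σ x = -x⁻¹ := fun x => rfl
  rw [trH, SlashAction.add_slash, SlashAction.sum_slash]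
  rw [← Equiv.sum_comp σ (trG k G p)]
  rw [← Finset.add_sum_erase _ _ (Finset.mem_univ (0 : ZMod p)),
    ← Finset.add_sum_erase (a := (0 : ZMod p)) Finset.univ
      (fun x => trG k G p (σ x)) (Finset.mem_univ (0 : ZMod p))]
  rw [trG_zero_slash_S p k G hinv]
  have e0 : trG k G p (σ 0) = G ∣[k] ModularGroup.S := by
    rw [← trG_zero p, hσ]
    congr 1
    simp
  rw [e0]
  have e1 : ∑ x ∈ Finset.univ.erase (0 : ZMod p), trG k G p x ∣[k] ModularGroup.S =
      ∑ x ∈ Finset.univ.erase (0 : ZMod p), trG k G p (σ x) := by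
    refine Finset.sum_congr rfl fun x hx => ?_
    rw [trG_slash_S p k G hinv x (Finset.ne_of_mem_erase hx), hσ]
  rw [e1]
  abel

theorem tr_slash_T_pow (k : ℤ) (f : ℍ → ℂ) (b : ℕ) (z : ℍ) :
    (f ∣[k] (ModularGroup.T ^ b)) z = f (affH 1 b 1 z) := by
  have h := ModularGroup.coe_T_zpow (b : ℤ)
  rw [zpow_natCast] at h
  rw [SL_slash_apply]
  have h1 : denom ((ModularGroup.T ^ b : SL(2, ℤ)) : GL (Fin 2) ℝ) z = 1 := by
    simp [denom, h, -map_pow]
  have h2 : (ModularGroup.T ^ b : SL(2, ℤ)) • z = affH 1 b 1 z := by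
    apply UpperHalfPlane.ext
    have h3 := ModularGroup.coe_T_zpow_smul_eq (z := z) (n := (b : ℤ))
    rw [zpow_natCast] at h3
    rw [h3]
    simp
  rw [h1, h2]
  simp

theorem trG_apply (k : ℤ) (G : ℍ → ℂ) (p : ℕ) (x : ZMod p) (z : ℍ) :
    trG k G p x z = (G ∣[k] ModularGroup.S) (affH 1 x.val 1 z) := by
  rw [trG, SlashAction.slash_mul, tr_slash_T_pow]

theorem trace_zero (p : ℕ) [Fact p.Prime] (k : ℤ) (hk : k < 12) (G : ℍ → ℂ) (hG : MDiff G)
    (hinv : ∀ γ ∈ Gamma0 p, G ∣[k] γ = G)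
    (h0 : IsZeroAtImInfty G) (h1 : IsZeroAtImInfty (G ∣[k] ModularGroup.S)) (z : ℍ) :
    G z + ∑ b ∈ Finset.range p, (G ∣[k] ModularGroup.S) (affH 1 b 1 z) = 0 := by
  have hp : p ≠ 0 := (Fact.out : p.Prime).ne_zero
  have hz : trH k G p = 0 := by
    refine tr_eq_zero_of_invariant k hk _ ?_ ?_ ?_
    · rw [trH]
      refine hG.add ?_
      have : ∀ s : Finset (ZMod p), MDiff (∑ x ∈ s, trG k G p x) := by
        intro s
        induction s using Finset.induction_on with
        | empty =>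
          rw [Finset.sum_empty]
          exact (mdifferentiable_const : MDiff (fun _ : ℍ => (0 : ℂ)))
        | insert a s ha ih =>
          rw [Finset.sum_insert ha]
          exact (MDifferentiable.slash hG k _).add ih
      exact this _
    · exact SlashInvariantForm.slash_action_generators_SL2Z (trH_slash_S p k G hinv)
        (trH_slash_T p k G hinv)
    · rw [trH]
      have : ∀ s : Finset (ZMod p), IsZeroAtImInfty (∑ x ∈ s, trG k G p x) := by
        intro s
        induction s using Finset.induction_on with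
        | empty =>
          rw [Finset.sum_empty]
          exact Filter.zero_zeroAtFilter atImInfty
        | insert a s ha ih =>
          rw [Finset.sum_insert ha]
          refine Filter.ZeroAtFilter.add ?_ ih
          rw [trG, SlashAction.slash_mul, SL_slash]
          refine IsZeroAtImInfty.slash k ?_ h1
          have h := ModularGroup.coe_T_zpow (a.val : ℤ)
          rw [zpow_natCast] at h
          simp [h, -map_pow]
      exact Filter.ZeroAtFilter.add h0 (this _)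
  have h2 := congrFun hz z
  rw [trH] at h2
  simp only [Pi.add_apply, Finset.sum_apply, Pi.zero_apply, trG_apply] at h2
  rw [← h2]
  congr 1
  refine Finset.sum_nbij' (fun i => (i : ZMod p)) ZMod.val ?_ ?_ ?_ ?_ ?_
  · intro a _; exact Finset.mem_univ _
  · intro a _; exact Finset.mem_range.mpr (ZMod.val_lt a)
  · intro a ha; exact ZMod.val_cast_of_lt (Finset.mem_range.mp ha)
  · intro a _; exact ZMod.natCast_zmod_val a
  · intro a ha
    rw [ZMod.val_cast_of_lt (Finset.mem_range.mp ha)]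

end Fermat.Agent.S16
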