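import Mathlib
import Fermat.Agent.S16.Defs
import Fermat.Agent.S16.Trace

/-!
# S16 (M4): the expansion of a cusp form of level `Γ₀(p)` at the cusp `0`
-/

set_option autoImplicit false

namespace Fermat.Agent.S16

open UpperHalfPlane ModularForm ModularCurve CuspForm CongruenceSubgroup EisensteinSeries
open Fermat.Agent.S24
open scoped MatrixGroups Manifold

/-- the Fricke transform `f|S|diag(p,1)` -/
noncomputable def alW (p : ℕ) (f : ℍ → ℂ) : ℍ → ℂ :=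
  (f ∣[(2 : ℤ)] ModularGroup.S) ∣[(2 : ℤ)] heckeDiagMatrix p

theorem alW_apply (p : ℕ) (hp : p ≠ 0) (f : ℍ → ℂ) (w : ℍ) :
    alW p f w = (p : ℂ) * (f ∣[(2 : ℤ)] ModularGroup.S) (heckeDiagMatrix p • w) := by
  rw [alW, slash_heckeDiagMatrix_apply 2 hp]
  norm_num

theorem al_inv (p : ℕ) [NeZero p] (f : CuspForm (Gamma0 p) 2) (γ : SL(2, ℤ)) (hγ : γ ∈ Gamma0 p) :
    (f : ℍ → ℂ) ∣[(2 : ℤ)] γ = f := by
  rw [SL_slash]
  exact SlashInvariantForm.slash_action_eqn f _ ⟨γ, hγ, rfl⟩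

/-- the conjugate of `γ ∈ Γ₀(p)` by the Fricke matrix -/
theorem al_conj (p : ℕ) (hp : p ≠ 0) (γ : SL(2, ℤ)) (hγ : γ ∈ Gamma0 p) :
    ∃ γ' ∈ Gamma0 p, ((ModularGroup.S : SL(2, ℤ)) : GL (Fin 2) ℝ) * heckeDiagMatrix p *
      ((γ : SL(2, ℤ)) : GL (Fin 2) ℝ) =
      ((γ' : SL(2, ℤ)) : GL (Fin 2) ℝ) * (((ModularGroup.S : SL(2, ℤ)) : GL (Fin 2) ℝ) *
        heckeDiagMatrix p) := by
  rw [Gamma0_mem, ZMod.intCast_zmod_eq_zero_iff_dvd] at hγ
  obtain ⟨c, hc⟩ := hγ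
  have hdet := Matrix.SpecialLinearGroup.det_coe γ
  rw [Matrix.det_fin_two] at hdet
  obtain ⟨γ', h00, h01, h10, h11⟩ : ∃ γ' : SL(2, ℤ), γ' 0 0 = γ 1 1 ∧ γ' 0 1 = -c ∧
      γ' 1 0 = -(p : ℤ) * γ 0 1 ∧ γ' 1 1 = γ 0 0 := by
    refine ⟨⟨!![γ 1 1, -c; -(p : ℤ) * γ 0 1, γ 0 0], ?_⟩, rfl, rfl, rfl, rfl⟩
    rw [Matrix.det_fin_two_of]
    rw [hc] at hdet
    linarith
  refine ⟨γ', ?_, ?_⟩
  · rw [Gamma0_mem, h10]
    simp
  · apply Matrix.GeneralLinearGroup.ext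
    intro i j
    have hcR : ((γ 1 0 : ℤ) : ℝ) = (p : ℝ) * (c : ℝ) := by rw [hc]; push_cast; ring
    fin_cases i <;> fin_cases j <;>
      simp [Matrix.mul_apply, Fin.sum_univ_two, val_heckeDiagMatrix hp, ModularGroup.coe_S, hcR,
        h00, h01, h10, h11, mul_comm]

theorem alW_inv (p : ℕ) [NeZero p] (f : CuspForm (Gamma0 p) 2) (γ : SL(2, ℤ))
    (hγ : γ ∈ Gamma0 p) : alW p f ∣[(2 : ℤ)] γ = alW p f := by
  obtain ⟨γ', hγ', h⟩ := al_conj p (NeZero.ne p) γ hγ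
  rw [alW, SL_slash, SL_slash, ← SlashAction.slash_mul, ← SlashAction.slash_mul, ← mul_assoc, h,
    SlashAction.slash_mul, ← SL_slash, al_inv p f γ' hγ', SlashAction.slash_mul]

theorem alW_slash_S (p : ℕ) [NeZero p] (f : CuspForm (Gamma0 p) 2) :
    alW p f ∣[(2 : ℤ)] ModularGroup.S = (f : ℍ → ℂ) ∣[(2 : ℤ)] heckeMatrix p 0 := by
  have hp := NeZero.ne p
  have h : ((ModularGroup.S : SL(2, ℤ)) : GL (Fin 2) ℝ) * heckeDiagMatrix p *
      ((ModularGroup.S : SL(2, ℤ)) : GL (Fin 2) ℝ) =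
      (((-1 : SL(2, ℤ)) : SL(2, ℤ)) : GL (Fin 2) ℝ) * heckeMatrix p 0 := by
    apply Matrix.GeneralLinearGroup.ext
    intro i j
    fin_cases i <;> fin_cases j <;>
      simp [Matrix.mul_apply, Fin.sum_univ_two, val_heckeDiagMatrix hp, val_heckeMatrix hp,
        ModularGroup.coe_S]
  have hm : (-1 : SL(2, ℤ)) ∈ Gamma0 p := by
    rw [Gamma0_mem]; simp
  rw [alW, SL_slash, SL_slash, ← SlashAction.slash_mul, ← SlashAction.slash_mul, ← mul_assoc, h,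
    SlashAction.slash_mul, ← SL_slash, al_inv p f _ hm]

theorem al_smul_aff (p : ℕ) [NeZero p] (b : ℕ) (z : ℍ) :
    heckeMatrix p 0 • affH 1 b 1 z = heckeMatrix p b • z := by
  apply UpperHalfPlane.ext
  rw [coe_heckeMatrix_smul (NeZero.ne p), coe_heckeMatrix_smul (NeZero.ne p)]
  simp

theorem al_smul_aff' (p : ℕ) [NeZero p] (z : ℍ) :
    heckeDiagMatrix p • affH 1 0 p z = z := by
  apply UpperHalfPlane.ext
  rw [coe_heckeDiagMatrix_smul (NeZero.ne p)]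
  have hp : (p : ℂ) ≠ 0 := by exact_mod_cast NeZero.ne p
  simp
  field_simp

theorem al_aff_aff (p : ℕ) [NeZero p] (b : ℕ) (z : ℍ) :
    affH 1 0 p (affH 1 b 1 z) = heckeMatrix p b • z := by
  apply UpperHalfPlane.ext
  rw [coe_heckeMatrix_smul (NeZero.ne p)]
  simp

theorem alW_eq (p : ℕ) [Fact p.Prime] (f : CuspForm (Gamma0 p) 2) (z : ℍ) :
    alW p f z = - heckeU 2 p f z := by
  have hp : p ≠ 0 := (Fact.out : p.Prime).ne_zero
  have hholo : MDiff (alW p f) := by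
    rw [alW, SL_slash]
    exact MDifferentiable.slash (MDifferentiable.slash f.holo' _ _) _ _
  have h0 : IsZeroAtImInfty (alW p f) := by
    rw [alW]
    refine IsZeroAtImInfty.slash 2 ?_ (CuspFormClass.zero_at_infty_slash f ModularGroup.S)
    simp [val_heckeDiagMatrix hp]
  have h1 : IsZeroAtImInfty (alW p f ∣[(2 : ℤ)] ModularGroup.S) := by
    rw [alW_slash_S]
    refine IsZeroAtImInfty.slash 2 ?_ (CuspFormClass.zero_at_infty f)
    simp [val_heckeMatrix hp]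
  have h := trace_zero p 2 (by norm_num) (alW p f) hholo (alW_inv p f) h0 h1 z
  rw [alW_slash_S] at h
  rw [eq_neg_iff_add_eq_zero, ← h, heckeU_apply 2 hp, Finset.mul_sum]
  congr 1
  refine Finset.sum_congr rfl fun b _ => ?_
  rw [slash_heckeMatrix_apply 2 hp, al_smul_aff]

theorem AL_slash_S (p : ℕ) [Fact p.Prime] (f : CuspForm (Gamma0 p) 2) (z : ℍ) :
    ((f : ℍ → ℂ) ∣[(2 : ℤ)] ModularGroup.S) z =
      -(p : ℂ)⁻¹ * (CuspForm.heckeULin (N := p) (p := p) 2 (dvd_refl p) f) (affH 1 0 p z) := by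
  have hp : p ≠ 0 := (Fact.out : p.Prime).ne_zero
  have hpC : (p : ℂ) ≠ 0 := by exact_mod_cast hp
  have h := alW_eq p f (affH 1 0 p z)
  rw [alW_apply p hp, al_smul_aff'] at h
  rw [CuspForm.heckeULin_apply_apply]
  have h2 : heckeU 2 p (⇑f) (affH 1 0 p z) =
      -((p : ℂ) * ((f : ℍ → ℂ) ∣[(2 : ℤ)] ModularGroup.S) z) := by rw [h]; ring
  rw [h2]
  field_simp

theorem AL_U_sq (p : ℕ) [Fact p.Prime] (f : CuspForm (Gamma0 p) 2) :
    CuspForm.heckeULin (N := p) (p := p) 2 (dvd_refl p)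
      (CuspForm.heckeULin (N := p) (p := p) 2 (dvd_refl p) f) = f := by
  have hp : p ≠ 0 := (Fact.out : p.Prime).ne_zero
  ext z
  have h := trace_zero p 2 (by norm_num) f f.holo' (al_inv p f) (CuspFormClass.zero_at_infty f)
    (CuspFormClass.zero_at_infty_slash f ModularGroup.S) z
  rw [CuspForm.heckeULin_apply_apply, heckeU_apply 2 hp, Finset.mul_sum]
  have h2 : ∑ b ∈ Finset.range p, ((f : ℍ → ℂ) ∣[(2 : ℤ)] ModularGroup.S) (affH 1 b 1 z) =
      - ∑ b ∈ Finset.range p, (p : ℂ)⁻¹ *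
        (CuspForm.heckeULin (N := p) (p := p) 2 (dvd_refl p) f) (heckeMatrix p b • z) := by
    rw [← Finset.sum_neg_distrib]
    refine Finset.sum_congr rfl fun b _ => ?_
    rw [AL_slash_S, al_aff_aff]
    ring
  rw [h2] at h
  linear_combination -h

end Fermat.Agent.S16
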