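import Mathlib
import Fermat.Agent.S16.Defs

/-!
# S16 (M2), arithmetic part: the Hecke relations for `σ'(k) = ∑_{d ∣ k, p ∤ d} d`
-/

set_option autoImplicit false

namespace Fermat.Agent.S16

/-- `d ↦ d` if `p ∤ d`, `0` otherwise -/
def dualG (p d : ℕ) : ℤ := if p ∣ d then 0 else (d : ℤ)

lemma dual_sigP_eq (p k : ℕ) : sigP p k = ∑ d ∈ k.divisors, dualG p d := by
  rw [sigP, Finset.sum_filter]
  refine Finset.sum_congr rfl fun d _ => ?_
  rw [dualG]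
  split_ifs <;> simp_all

lemma dual_sigP_one (p : ℕ) (hp : p.Prime) : sigP p 1 = 1 := by
  rw [dual_sigP_eq, Nat.divisors_one, Finset.sum_singleton, dualG, if_neg]
  · simp
  · rw [Nat.dvd_one]
    exact hp.ne_one

lemma dual_sigP_self_mul (p : ℕ) (hp : p.Prime) (n : ℕ) : sigP p (p * n) = sigP p n := by
  rcases Nat.eq_zero_or_pos n with rfl | hn
  · simp
  rw [sigP, sigP]
  congr 1
  ext d
  simp only [Finset.mem_filter, Nat.mem_divisors]
  constructor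
  · rintro ⟨⟨h1, -⟩, h2⟩
    refine ⟨⟨?_, hn.ne'⟩, h2⟩
    exact (Nat.Coprime.dvd_of_dvd_mul_left (((Nat.Prime.coprime_iff_not_dvd hp).2 h2).symm) h1)
  · rintro ⟨⟨h1, -⟩, h2⟩
    exact ⟨⟨Dvd.dvd.mul_left h1 p, mul_ne_zero hp.ne_zero hn.ne'⟩, h2⟩

lemma dualG_mul (p ℓ : ℕ) (hp : p.Prime) (hℓ : ℓ.Prime) (hne : ℓ ≠ p) (d : ℕ) :
    dualG p (ℓ * d) = ℓ * dualG p d := by
  have h : p ∣ ℓ * d ↔ p ∣ d := by
    rw [hp.dvd_mul]
    constructor
    · rintro (h | h)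
      · exact absurd ((Nat.prime_dvd_prime_iff_eq hp hℓ).1 h).symm hne
      · exact h
    · exact Or.inr
  rw [dualG, dualG]
  by_cases h1 : p ∣ d
  · rw [if_pos h1, if_pos (h.2 h1), mul_zero]
  · rw [if_neg h1, if_neg (fun h2 => h1 (h.1 h2))]
    push_cast
    ring

lemma dual_sigP_mul (p ℓ : ℕ) (hp : p.Prime) (hℓ : ℓ.Prime) (hne : ℓ ≠ p) (n : ℕ) (hn : 0 < n) :
    sigP p (ℓ * n) + (if ℓ ∣ n then (ℓ : ℤ) * sigP p (n / ℓ) else 0) = (1 + ℓ) * sigP p n := by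
  classical
  have hinj : Function.Injective (fun d : ℕ => ℓ * d) := fun a b h =>
    Nat.eq_of_mul_eq_mul_left hℓ.pos h
  have e1 : (ℓ * n).divisors = n.divisors ∪ n.divisors.image (fun d => ℓ * d) := by
    ext e
    simp only [Nat.mem_divisors, Finset.mem_union, Finset.mem_image]
    constructor
    · rintro ⟨h1, -⟩
      by_cases h2 : ℓ ∣ e
      · obtain ⟨d, rfl⟩ := h2
        exact Or.inr ⟨d, ⟨Nat.dvd_of_mul_dvd_mul_left hℓ.pos h1, hn.ne'⟩, rfl⟩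
      · exact Or.inl ⟨Nat.Coprime.dvd_of_dvd_mul_left
          (((Nat.Prime.coprime_iff_not_dvd hℓ).2 h2).symm) h1, hn.ne'⟩
    · rintro (⟨h1, -⟩ | ⟨d, ⟨h1, -⟩, rfl⟩)
      · exact ⟨Dvd.dvd.mul_left h1 ℓ, mul_ne_zero hℓ.ne_zero hn.ne'⟩
      · exact ⟨Nat.mul_dvd_mul_left ℓ h1, mul_ne_zero hℓ.ne_zero hn.ne'⟩
  have e2 : n.divisors ∩ n.divisors.image (fun d => ℓ * d) =
      if ℓ ∣ n then (n / ℓ).divisors.image (fun d => ℓ * d) else ∅ := by
    split_ifs with h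
    · obtain ⟨n', rfl⟩ := h
      have hn' : 0 < n' := Nat.pos_of_mul_pos_left hn
      rw [Nat.mul_div_cancel_left _ hℓ.pos]
      ext e
      simp only [Finset.mem_inter, Nat.mem_divisors, Finset.mem_image]
      constructor
      · rintro ⟨⟨h1, -⟩, d, -, rfl⟩
        exact ⟨d, ⟨Nat.dvd_of_mul_dvd_mul_left hℓ.pos h1, hn'.ne'⟩, rfl⟩
      · rintro ⟨d, ⟨h1, -⟩, rfl⟩
        exact ⟨⟨Nat.mul_dvd_mul_left ℓ h1, hn.ne'⟩, d, ⟨Dvd.dvd.mul_left h1 ℓ, hn.ne'⟩, rfl⟩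
    · ext e
      simp only [Finset.mem_inter, Nat.mem_divisors, Finset.mem_image, Finset.notMem_empty,
        iff_false]
      rintro ⟨⟨h1, -⟩, d, -, rfl⟩
      exact h (dvd_of_mul_right_dvd h1)
  have key := Finset.sum_union_inter (s₁ := n.divisors)
    (s₂ := n.divisors.image (fun d => ℓ * d)) (f := dualG p)
  rw [← e1, e2, Finset.sum_image (fun a _ b _ h => hinj h)] at key
  simp only [dualG_mul p ℓ hp hℓ hne] at key
  rw [← Finset.mul_sum, ← dual_sigP_eq, ← dual_sigP_eq] at key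
  have e3 : ∑ x ∈ (if ℓ ∣ n then (n / ℓ).divisors.image (fun d => ℓ * d) else ∅), dualG p x =
      if ℓ ∣ n then (ℓ : ℤ) * sigP p (n / ℓ) else 0 := by
    split_ifs with h
    · rw [Finset.sum_image (fun a _ b _ h => hinj h)]
      simp only [dualG_mul p ℓ hp hℓ hne]
      rw [← Finset.mul_sum, ← dual_sigP_eq]
    · simp
  rw [e3] at key
  rw [key]
  ring

end Fermat.Agent.S16
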