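import Mathlib
import Fermat.Agent.S16.Defs
import Fermat.Agent.S24.RelInf
import Fermat.Agent.S24.Mat
import Fermat.Agent.S28.ExpAff

/-!
# S16 (M5): the Eisenstein series `N E₂(N z) - E₂(z)`
-/

set_option autoImplicit false

namespace Fermat.Agent.S16

open UpperHalfPlane ModularForm ModularCurve CuspForm CongruenceSubgroup EisensteinSeries
open Fermat.Agent.S24 Fermat.Agent.S28
open scoped MatrixGroups Manifold Real

theorem eis_E2_add_one (z : ℍ) : E2 (ModularGroup.T • z) = E2 z := by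
  have h := congrFun (E2_slash_action ModularGroup.T) z
  rw [D2_T, smul_zero, sub_zero, ModularForm.SL_slash_apply] at h
  have hd : denom (ModularGroup.T : SL(2, ℤ)) z = 1 := by
    rw [ModularGroup.denom_apply]
    simp [ModularGroup.T]
  rw [hd] at h
  simpa using h

theorem eis_E2_nice : IsNiceH 1 E2 := by
  refine ⟨?_, E2_mdifferentiable, isBoundedAtImInfty_E2⟩
  intro w
  by_cases hw : 0 < w.im
  · have hw' : 0 < (w + ((1 : ℝ) : ℂ)).im := by simpa using hw
    simp only [Function.comp_apply]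
    rw [← eis_E2_add_one (ofComplex w)]
    congr 1
    ext
    rw [UpperHalfPlane.modular_T_smul, ofComplex_apply_of_im_pos hw',
      UpperHalfPlane.coe_vadd, ofComplex_apply_of_im_pos hw]
    simp [add_comm]
  · have hw1 : w.im ≤ 0 := not_lt.1 hw
    have hw' : (w + ((1 : ℝ) : ℂ)).im ≤ 0 := by simpa using hw1
    simp only [Function.comp_apply]
    rw [ofComplex_apply_of_im_nonpos hw1, ofComplex_apply_of_im_nonpos hw']

theorem eis_E2_coeff (m : ℕ) :
    (qExpansion 1 E2).coeff m = if m = 0 then 1 else -24 * (ArithmeticFunction.sigma 1 m : ℂ) := by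
  refine qexp_unique one_pos eis_E2_nice
    (c := fun m => if m = 0 then 1 else -24 * (ArithmeticFunction.sigma 1 m : ℂ)) (fun τ => ?_) m
  simpa only [Function.Periodic.qParam, Complex.ofReal_one, div_one] using
    hasSum_qExpansion_E2 (z := τ)

theorem eis_E2V_nice (N : ℕ) [NeZero N] : IsNiceH 1 (fun z => E2 (affH N 0 1 z)) := by
  have := isNiceH_comp_affH E2 eis_E2_nice N 0 1 1 (dvd_refl 1)
  simpa using this

theorem eis_E2V_coeff (N : ℕ) [NeZero N] (n : ℕ) :
    (qExpansion 1 (fun z => E2 (affH N 0 1 z))).coeff n =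
      if N ∣ n then (qExpansion 1 E2).coeff (n / N) else 0 := by
  have := expAff_coeff E2 eis_E2_nice N 0 1 1 (dvd_refl 1) n
  simpa using this

theorem eis_BN_eq (N : ℕ) [NeZero N] :
    BN N = (N : ℂ) • (fun z => E2 (affH N 0 1 z)) - E2 := by
  ext z
  simp [BN]

theorem eis_nice_smul {h : ℝ} {f : ℍ → ℂ} (hf : IsNiceH h f) (a : ℂ) : IsNiceH h (a • f) := by
  have e : a • f = (fun _ => a) * f := by
    ext z
    simp
  rw [e]
  exact (isNiceH_const a).mul hf

theorem eis_nice_sub {h : ℝ} {f g : ℍ → ℂ} (hf : IsNiceH h f) (hg : IsNiceH h g) :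
    IsNiceH h (f - g) := by
  have e : f - g = f + (-1 : ℂ) • g := by
    ext z
    simp [sub_eq_add_neg]
  rw [e]
  exact hf.add (eis_nice_smul hg _)

theorem BN_nice (N : ℕ) [NeZero N] : IsNiceH 1 (BN N) := by
  rw [eis_BN_eq]
  exact eis_nice_sub (eis_nice_smul (eis_E2V_nice N) _) eis_E2_nice

theorem eis_BN_coeff (N : ℕ) [NeZero N] (n : ℕ) :
    (qExpansion 1 (BN N)).coeff n =
      (N : ℂ) * (if N ∣ n then (qExpansion 1 E2).coeff (n / N) else 0) -
        (qExpansion 1 E2).coeff n := by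
  rw [eis_BN_eq, qExpansion_sub ((eis_nice_smul (eis_E2V_nice N) _).analyticAt one_pos)
    (eis_E2_nice.analyticAt one_pos), qExpansion_smul ((eis_E2V_nice N).analyticAt one_pos),
    map_sub, PowerSeries.coeff_smul, eis_E2V_coeff, smul_eq_mul]

theorem BN_coeff_zero (N : ℕ) [NeZero N] : (qExpansion 1 (BN N)).coeff 0 = (N : ℂ) - 1 := by
  rw [eis_BN_coeff, eis_E2_coeff]
  simp [eis_E2_coeff]

theorem eis_sigP (p : ℕ) [Fact p.Prime] (k : ℕ) (hk : 1 ≤ k) :
    sigP p k = (ArithmeticFunction.sigma 1 k : ℤ) -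
      (if p ∣ k then (p : ℤ) * (ArithmeticFunction.sigma 1 (k / p) : ℤ) else 0) := by
  have hp : p.Prime := Fact.out
  have h1 : (ArithmeticFunction.sigma 1 k : ℤ) = ∑ d ∈ k.divisors, (d : ℤ) := by
    rw [ArithmeticFunction.sigma_one_apply]
    push_cast
    rfl
  have h2 : ∑ d ∈ k.divisors, (d : ℤ) =
      ∑ d ∈ k.divisors with ¬ p ∣ d, (d : ℤ) + ∑ d ∈ k.divisors with p ∣ d, (d : ℤ) := by
    rw [add_comm]
    exact (Finset.sum_filter_add_sum_filter_not _ _ _).symm
  have h3 : ∑ d ∈ k.divisors with p ∣ d, (d : ℤ) =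
      if p ∣ k then (p : ℤ) * (ArithmeticFunction.sigma 1 (k / p) : ℤ) else 0 := by
    split_ifs with hpk
    · obtain ⟨k', rfl⟩ := hpk
      have hk' : k' ≠ 0 := by rintro rfl; simp at hk
      rw [Nat.mul_div_cancel_left _ hp.pos, ArithmeticFunction.sigma_one_apply]
      push_cast
      rw [Finset.mul_sum]
      symm
      refine Finset.sum_bij (fun d _ => p * d) ?_ ?_ ?_ ?_
      · intro d hd
        rw [Finset.mem_filter, Nat.mem_divisors]
        exact ⟨⟨Nat.mul_dvd_mul_left p (Nat.dvd_of_mem_divisors hd), by omega⟩, dvd_mul_right p d⟩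
      · intro a _ b _ hab
        exact Nat.eq_of_mul_eq_mul_left hp.pos hab
      · intro d hd
        rw [Finset.mem_filter, Nat.mem_divisors] at hd
        obtain ⟨⟨hd1, _⟩, d', rfl⟩ := hd
        exact ⟨d', Nat.mem_divisors.2 ⟨Nat.dvd_of_mul_dvd_mul_left hp.pos hd1, hk'⟩, rfl⟩
      · intro d _
        push_cast
        rfl
    · refine Finset.sum_eq_zero fun d hd => ?_
      rw [Finset.mem_filter] at hd
      exact absurd (hd.2.trans (Nat.dvd_of_mem_divisors hd.1)) hpk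
  rw [sigP, h1, h2, h3]
  ring

theorem BN_coeff (p : ℕ) [Fact p.Prime] (k : ℕ) (hk : 1 ≤ k) :
    (qExpansion 1 (BN p)).coeff k = 24 * (sigP p k : ℂ) := by
  have hp : p.Prime := Fact.out
  have hk0 : k ≠ 0 := by omega
  rw [eis_BN_coeff, eis_E2_coeff k, eis_sigP p k hk, if_neg hk0]
  by_cases hpk : p ∣ k
  · rw [if_pos hpk, if_pos hpk]
    obtain ⟨k', rfl⟩ := hpk
    have hk' : k' ≠ 0 := by rintro rfl; simp at hk
    rw [Nat.mul_div_cancel_left _ hp.pos, eis_E2_coeff, if_neg hk']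
    push_cast
    ring
  · rw [if_neg hpk, if_neg hpk]
    push_cast
    ring

theorem sigP_mul_self (p : ℕ) [Fact p.Prime] (k : ℕ) : sigP p (k * p) = sigP p k := by
  have hp : p.Prime := Fact.out
  rcases Nat.eq_zero_or_pos k with rfl | hk
  · simp
  rw [sigP, sigP]
  refine Finset.sum_congr ?_ fun _ _ => rfl
  ext d
  simp only [Finset.mem_filter, Nat.mem_divisors]
  constructor
  · rintro ⟨⟨h1, _⟩, h2⟩
    refine ⟨⟨?_, by omega⟩, h2⟩
    exact (Nat.Coprime.dvd_of_dvd_mul_right ((Nat.Prime.coprime_iff_not_dvd hp).2 h2).symm h1)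
  · rintro ⟨⟨h1, _⟩, h2⟩
    exact ⟨⟨h1.mul_right p, Nat.mul_ne_zero (by omega) hp.ne_zero⟩, h2⟩

/-- the transformation law of `E₂` -/
theorem eis_E2_smul (γ : SL(2, ℤ)) (w : ℍ) :
    E2 (γ • w) = denom γ w ^ 2 * E2 w -
      (1 / (2 * riemannZeta 2)) * (2 * π * Complex.I * γ 1 0) * denom γ w := by
  have h := congrFun (E2_slash_action γ) w
  rw [ModularForm.SL_slash_apply] at h
  simp only [Pi.sub_apply, Pi.smul_apply, D2, smul_eq_mul] at h
  have hd : denom γ w ≠ 0 := denom_ne_zero γ w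
  have h2 : E2 (γ • w) = (E2 (γ • w) * denom γ w ^ (-(2 : ℤ))) * denom γ w ^ 2 := by
    rw [zpow_neg, mul_assoc]
    have : ((denom γ w) ^ (2 : ℤ))⁻¹ * denom γ w ^ 2 = 1 := by
      rw [zpow_ofNat]
      exact inv_mul_cancel₀ (pow_ne_zero 2 hd)
    rw [this, mul_one]
  rw [h2, h]
  field_simp

theorem BN_slash (N : ℕ) [NeZero N] (γ : SL(2, ℤ)) (hγ : γ ∈ Gamma0 N) :
    BN N ∣[(2 : ℤ)] γ = BN N := by
  ext z
  rw [Gamma0_mem, ZMod.intCast_zmod_eq_zero_iff_dvd] at hγ
  obtain ⟨c', hc'⟩ := hγ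
  have hdet := mat_det γ
  let γ' : SL(2, ℤ) := ⟨!![γ 0 0, (N : ℤ) * γ 0 1; c', γ 1 1], by
    rw [Matrix.det_fin_two_of]; rw [hc'] at hdet; linear_combination hdet⟩
  have g00 : γ' 0 0 = γ 0 0 := rfl
  have g01 : γ' 0 1 = (N : ℤ) * γ 0 1 := rfl
  have g10 : γ' 1 0 = c' := rfl
  have g11 : γ' 1 1 = γ 1 1 := rfl
  have e1 : affH N 0 1 (γ • z) = γ' • affH N 0 1 z := by
    refine affH_smul_eq N N 1 0 γ γ' ?_ ?_ ?_ ?_ z
    · rw [g00]; ring
    · rw [g10, hc']; ring
    · rw [g00, g01]; simp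
    · rw [g10, g11]; simp
  have hd : denom γ z ≠ 0 := denom_ne_zero γ z
  have e2 : denom γ' (affH N 0 1 z) = denom γ z := by
    rw [ModularGroup.denom_apply, ModularGroup.denom_apply, g10, g11, coe_affH, hc']
    push_cast
    ring
  rw [ModularForm.SL_slash_apply, BN, e1, eis_E2_smul γ', eis_E2_smul γ, e2, g10, hc', BN,
    zpow_neg, zpow_ofNat]
  push_cast
  field_simp
  ring

theorem BN_slash_S (N : ℕ) [NeZero N] (z : ℍ) :
    (BN N ∣[(2 : ℤ)] ModularGroup.S) z = -(N : ℂ)⁻¹ * BN N (affH 1 0 N z) := by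
  have hN : (N : ℂ) ≠ 0 := Nat.cast_ne_zero.mpr (NeZero.ne N)
  have hz : (z : ℂ) ≠ 0 := UpperHalfPlane.ne_zero z
  have e1 : affH N 0 1 (ModularGroup.S • z) = ModularGroup.S • affH 1 0 N z := by
    refine affH_smul_eq N 1 N 0 ModularGroup.S ModularGroup.S ?_ ?_ ?_ ?_ z <;>
      simp [ModularGroup.S]
  have e2 : affH N 0 1 (affH 1 0 N z) = z := by
    apply UpperHalfPlane.ext
    rw [coe_affH, coe_affH]
    push_cast
    field_simp
    simp
  have s10 : (ModularGroup.S : SL(2, ℤ)) 1 0 = 1 := by simp [ModularGroup.S]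
  rw [ModularForm.SL_slash_apply, BN, e1, eis_E2_smul ModularGroup.S, eis_E2_smul ModularGroup.S,
    ModularGroup.denom_S, ModularGroup.denom_S, s10, BN, e2, coe_affH, zpow_neg, zpow_ofNat]
  push_cast
  field_simp
  ring

end Fermat.Agent.S16
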