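import Mathlib
import Fermat.Agent.S16.Defs
import Fermat.Agent.S16.Eis
import Fermat.Agent.S24.RelInf
import Fermat.Agent.S24.Mat
import Fermat.Agent.S28.Defs
import Fermat.Agent.S28.Heart
import Fermat.Agent.S28.Tw
import Fermat.Agent.S28.AnExp
import Fermat.Agent.S28.Exp
import Fermat.Agent.S28.SymInt
import Fermat.Agent.S28.HData
import Fermat.Agent.S28.Data
import Fermat.Agent.S28.Unit
import Fermat.Agent.X0.Cosets
import Fermat.Prelude.Def_FLTPrelim_ModularRep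

/-!
# S16 (M7): the resultant with `r E₂(r z) - E₂(z)`
-/

set_option autoImplicit false

namespace Fermat.Agent.S16

open UpperHalfPlane ModularForm ModularCurve CuspForm CongruenceSubgroup EisensteinSeries HahnSeries
open Fermat.Agent.X0 Fermat.Agent.S24 Fermat.Agent.S28
open scoped MatrixGroups Manifold Real

/-! ### cosets of `Γ₀(p)` -/

theorem res_decomp (p : ℕ) [Fact p.Prime] (g : SL(2, ℤ)) (hg : g ∉ Gamma0 p) :
    ∃ γ ∈ Gamma0 p, ∃ b : ℤ, g = γ * ModularGroup.S * ModularGroup.T ^ b := by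
  have hp : p.Prime := Fact.out
  rw [Gamma0_mem, ZMod.intCast_zmod_eq_zero_iff_dvd] at hg
  have hcop : IsCoprime (g 1 0) (p : ℤ) :=
    ((Nat.prime_iff_prime_int.1 hp).coprime_iff_not_dvd.2 hg).symm
  obtain ⟨u, v, huv⟩ := hcop
  -- `b = u * d`
  refine ⟨g * (ModularGroup.T ^ (u * g 1 1))⁻¹ * ModularGroup.S⁻¹, ?_, u * g 1 1, by group⟩
  rw [Gamma0_mem, ZMod.intCast_zmod_eq_zero_iff_dvd, ← zpow_neg]
  have e : (g * ModularGroup.T ^ (-(u * g 1 1)) * ModularGroup.S⁻¹) 1 0 =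
      -(g 1 1 - g 1 0 * (u * g 1 1)) := by
    have h1 : ((g * ModularGroup.T ^ (-(u * g 1 1)) * ModularGroup.S⁻¹ : SL(2, ℤ)) :
        Matrix (Fin 2) (Fin 2) ℤ) = (g : Matrix (Fin 2) (Fin 2) ℤ) * !![1, -(u * g 1 1); 0, 1] *
          !![0, 1; -1, 0] := by
      rw [Matrix.SpecialLinearGroup.coe_mul, Matrix.SpecialLinearGroup.coe_mul,
        ModularGroup.coe_T_zpow, Matrix.SpecialLinearGroup.coe_inv, ModularGroup.coe_S,
        Matrix.adjugate_fin_two_of]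
      simp
    have h2 := congrFun (congrFun h1 1) 0
    rw [h2]
    simp [Matrix.mul_apply, Fin.sum_univ_two]
    ring
  rw [e]
  refine ⟨-(v * g 1 1), ?_⟩
  linear_combination (g 1 1) * huv

theorem res_affH_T (p : ℕ) [NeZero p] (b : ℤ) (z : ℍ) :
    affH 1 0 p (ModularGroup.T ^ b • z) = affH 1 b p z := by
  apply UpperHalfPlane.ext
  rw [coe_affH, coe_affH, ModularGroup.coe_T_zpow_smul_eq]
  push_cast
  ring

/-- the slash action of an arbitrary element of `SL(2,ℤ)` on a weight `2` function for `Γ₀(p)`. -/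
theorem res_slash (p : ℕ) [Fact p.Prime] (G Gt : ℍ → ℂ)
    (hinv : ∀ γ ∈ Gamma0 p, G ∣[(2 : ℤ)] γ = G)
    (hS : ∀ z, (G ∣[(2 : ℤ)] ModularGroup.S) z = -(p : ℂ)⁻¹ * Gt (affH 1 0 p z))
    (g : SL(2, ℤ)) (hg : g ∉ Gamma0 p) :
    ∃ b : ℤ, ∀ z, (G ∣[(2 : ℤ)] g) z = -(p : ℂ)⁻¹ * Gt (affH 1 b p z) := by
  obtain ⟨γ, hγ, b, rfl⟩ := res_decomp p g hg
  refine ⟨b, fun z => ?_⟩
  rw [SlashAction.slash_mul, SlashAction.slash_mul, hinv γ hγ, ModularForm.SL_slash_apply, hS,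
    res_affH_T]
  have hd : denom (ModularGroup.T ^ b : SL(2, ℤ)) z = 1 := by
    rw [ModularGroup.denom_apply, ModularGroup.coe_T_zpow]
    simp
  rw [hd]
  simp

/-! ### series with integer coefficients -/

/-- the Laurent series `∑ a_k q^k` with integer coefficients, over any ring -/
noncomputable def intS (R : Type*) [CommRing R] (a : ℕ → ℤ) : LaurentSeries R :=
  HahnSeries.ofPowerSeries ℤ R (PowerSeries.mk fun k => ((a k : ℤ) : R))

theorem res_coeffMap_intS {R S : Type*} [CommRing R] [CommRing S] (f : R →+* S) (a : ℕ → ℤ) :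
    coeffMap f (intS R a) = intS S a := by
  rw [intS, coeffMap_ofPowerSeries, intS]
  congr 1
  ext k
  simp

theorem res_intS_coeff (R : Type*) [CommRing R] (a : ℕ → ℤ) (k : ℕ) :
    (intS R a).coeff (k : ℤ) = ((a k : ℤ) : R) := by
  rw [intS, HahnSeries.ofPowerSeries_apply_coeff, PowerSeries.coeff_mk]

theorem res_intS_coeff_neg (R : Type*) [CommRing R] (a : ℕ → ℤ) (i : ℤ) (hi : i < 0) :
    (intS R a).coeff i = 0 := by
  rw [intS, HahnSeries.ofPowerSeries_apply]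
  refine HahnSeries.embDomain_of_notMem_range ?_
  rintro ⟨n, hn⟩
  have : (n : ℤ) = i := hn
  omega

theorem res_intS_split (R : Type*) [CommRing R] (a a' : ℕ → ℤ) (u M : ℤ)
    (h0 : a 0 = u + M * a' 0) (hk : ∀ k, 1 ≤ k → a k = M * a' k) :
    intS R a = HahnSeries.C ((u : ℤ) : R) + HahnSeries.C ((M : ℤ) : R) * intS R a' := by
  have e : (PowerSeries.mk fun k => ((a k : ℤ) : R)) =
      PowerSeries.C ((u : ℤ) : R) + PowerSeries.C ((M : ℤ) : R) *
        PowerSeries.mk fun k => ((a' k : ℤ) : R) := by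
    ext k
    rw [map_add, PowerSeries.coeff_C_mul, PowerSeries.coeff_mk, PowerSeries.coeff_mk,
      PowerSeries.coeff_C]
    rcases Nat.eq_zero_or_pos k with rfl | hk0
    · rw [if_pos rfl, h0]
      push_cast
      ring
    · rw [if_neg (by omega), hk k hk0]
      push_cast
      ring
  rw [intS, e, map_add, map_mul, HahnSeries.ofPowerSeries_C, HahnSeries.ofPowerSeries_C, intS]

theorem res_relInf_intS {G : ℍ → ℂ} (hG : IsNiceH 1 G) (a : ℕ → ℤ)
    (ha : ∀ k, (qExpansion 1 G).coeff k = (a k : ℂ)) : RelInf 1 G (iotaZ (intS Zb a)) := by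
  have h := exp_relInf_nice one_pos hG
  have e : qL 1 G = iotaZ (intS Zb a) := by
    rw [iotaZ, res_coeffMap_intS, qL, intS]
    congr 1
    ext k
    simp [ha]
  rwa [e] at h

theorem res_tw_C {R : Type*} [CommRing R] (u : Rˣ) (m : ℕ) [NeZero m] (a : R) :
    tw u m (HahnSeries.C a) = HahnSeries.C a := by
  have e : scaleHom u (HahnSeries.C a) = HahnSeries.C a := by
    ext n
    rw [scaleHom_coeff, HahnSeries.C_apply]
    rcases eq_or_ne n 0 with rfl | h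
    · simp
    · rw [HahnSeries.coeff_single_of_ne h, mul_zero]
  rw [tw, RingHom.comp_apply, e, qExpand_C]

theorem res_iotaZ_C (n : ℤ) : iotaZ (HahnSeries.C ((n : ℤ) : Zb)) = HahnSeries.C ((n : ℤ) : ℂ) := by
  rw [exp_iotaZ_C]
  simp

theorem res_iotaZ_qExpand (N : ℕ) [NeZero N] (s : LaurentSeries Zb) :
    iotaZ (qExpand Zb N s) = qExpand ℂ N (iotaZ s) := by
  rw [iotaZ, coeffMap_qExpand]

/-! ### the two parts -/

theorem res_Fpart (p N r' : ℕ) [Fact p.Prime] [NeZero N] [NeZero r'] (hN : N = p * r')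
    (F Ft : ℍ → ℂ) (c ct : ℕ → ℤ) (hF : Wt2Data p F Ft c ct)
    (M u₀ v : ℤ) (hp1 : (p : ℤ) + 1 = M * v) (c' ct' : ℕ → ℤ)
    (hc0 : c 0 = u₀ + M * c' 0) (hck : ∀ k, 1 ≤ k → c k = M * c' k)
    (hct0 : ct 0 = u₀ + M * ct' 0) (hctk : ∀ k, 1 ≤ k → ct k = M * ct' k) (g : SL(2, ℤ)) :
    ∃ h : LaurentSeries Zb, RelInf (N : ℝ) (F ∣[(2 : ℤ)] g)
      (HahnSeries.C ((p : ℂ)⁻¹) *
        (-HahnSeries.C ((u₀ : ℤ) : ℂ) + HahnSeries.C ((M : ℤ) : ℂ) * iotaZ h)) := by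
  have hp : p.Prime := Fact.out
  have hN0 : (0 : ℝ) < N := by exact_mod_cast Nat.pos_of_ne_zero (NeZero.ne N)
  have E := expRel_relInf (N : ℝ) hN0
  have hpC : (p : ℂ) ≠ 0 := Nat.cast_ne_zero.mpr hp.ne_zero
  have hpp : (HahnSeries.C ((p : ℂ)⁻¹) : LaurentSeries ℂ) * HahnSeries.C ((p : ℤ) : ℂ) = 1 := by
    rw [← map_mul]
    push_cast
    rw [inv_mul_cancel₀ hpC, map_one]
  have h1 : (HahnSeries.C (((p : ℤ) : ℤ) : ℂ) : LaurentSeries ℂ) + 1 =
      HahnSeries.C ((M : ℤ) : ℂ) * HahnSeries.C ((v : ℤ) : ℂ) := by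
    rw [← map_mul, ← map_one (HahnSeries.C : ℂ →+* LaurentSeries ℂ), ← map_add]
    congr 1
    exact_mod_cast hp1
  by_cases hg : g ∈ Gamma0 p
  · refine ⟨HahnSeries.C ((v : ℤ) : Zb) * HahnSeries.C ((u₀ : ℤ) : Zb) +
      HahnSeries.C (((p : ℤ) : ℤ) : Zb) * qExpand Zb N (intS Zb c'), ?_⟩
    rw [hF.inv g hg]
    have h := relInf_period N (res_relInf_intS hF.nice c hF.coeff)
    rw [← res_iotaZ_qExpand, res_intS_split Zb c c' u₀ M hc0 hck, map_add, map_mul, qExpand_C,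
      qExpand_C, map_add, map_mul, res_iotaZ_C, res_iotaZ_C] at h
    rw [map_add, map_mul, map_mul, res_iotaZ_C, res_iotaZ_C, res_iotaZ_C]
    convert h using 1
    set X := iotaZ (qExpand Zb N (intS Zb c'))
    linear_combination (HahnSeries.C ((M : ℤ) : ℂ) * X + HahnSeries.C ((u₀ : ℤ) : ℂ)) * hpp -
      (HahnSeries.C ((p : ℂ)⁻¹) * HahnSeries.C ((u₀ : ℤ) : ℂ)) * h1
  · obtain ⟨b, hb⟩ := res_slash p F Ft hF.inv hF.slashS g hg
    refine ⟨-tw (zetaZ p b) r' (intS Zb ct'), ?_⟩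
    have h := relInf_comp_affH (res_relInf_intS hF.nicet ct hF.coefft) 1 b p N r'
      (Dvd.intro _ hN.symm) (by rw [hN, Nat.mul_div_cancel_left _ hp.pos, one_mul])
    rw [← exp_iotaZ_tw, res_intS_split Zb ct ct' u₀ M hct0 hctk, map_add, map_mul, res_tw_C,
      res_tw_C, map_add, map_mul, res_iotaZ_C, res_iotaZ_C] at h
    have h2 := E.mul (E.const (-(p : ℂ)⁻¹)) h
    rw [map_neg]
    convert h2 using 1
    · ext z
      rw [hb z]
      rfl
    · rw [map_neg]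
      ring

theorem res_relInf_BN (r : ℕ) [Fact r.Prime] :
    RelInf 1 (BN r) (iotaZ (HahnSeries.C (((r : ℤ) - 1 : ℤ) : Zb) +
      HahnSeries.C ((24 : ℤ) : Zb) * intS Zb (sigP r))) := by
  have h := res_relInf_intS (BN_nice r) (fun k => if k = 0 then (r : ℤ) - 1 else 24 * sigP r k)
    (fun k => by
      rcases Nat.eq_zero_or_pos k with rfl | hk
      · rw [BN_coeff_zero, if_pos rfl]
        push_cast
        ring
      · rw [BN_coeff r k hk, if_neg (by omega)]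
        push_cast
        ring)
  rwa [res_intS_split Zb _ (sigP r) ((r : ℤ) - 1) 24 (by simp [sigP])
    (fun k hk => by rw [if_neg (by omega)])] at h

theorem res_Bpart_mem (r N : ℕ) [Fact r.Prime] [NeZero N] (g : SL(2, ℤ)) (hg : g ∈ Gamma0 r) :
    RelInf (N : ℝ) (BN r ∣[(2 : ℤ)] g) (HahnSeries.C (((r : ℤ) - 1 : ℤ) : ℂ) +
      HahnSeries.C ((24 : ℤ) : ℂ) * iotaZ (qExpand Zb N (intS Zb (sigP r)))) := by
  rw [BN_slash r g hg]
  have h := relInf_period N (res_relInf_BN r)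
  rwa [← res_iotaZ_qExpand, map_add, map_mul, qExpand_C, qExpand_C, map_add, map_mul, res_iotaZ_C,
    res_iotaZ_C] at h

theorem res_Bpart_not (r N p' : ℕ) [Fact r.Prime] [NeZero N] [NeZero p'] (hN : N = r * p')
    (g : SL(2, ℤ)) (hg : g ∉ Gamma0 r) :
    ∃ b : ℤ, RelInf (N : ℝ) (BN r ∣[(2 : ℤ)] g) (HahnSeries.C (-(r : ℂ)⁻¹) *
      (HahnSeries.C (((r : ℤ) - 1 : ℤ) : ℂ) +
        HahnSeries.C ((24 : ℤ) : ℂ) * iotaZ (tw (zetaZ r b) p' (intS Zb (sigP r))))) := by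
  have hr : r.Prime := Fact.out
  have hN0 : (0 : ℝ) < N := by exact_mod_cast Nat.pos_of_ne_zero (NeZero.ne N)
  have E := expRel_relInf (N : ℝ) hN0
  obtain ⟨b, hb⟩ := res_slash r (BN r) (BN r) (BN_slash r) (BN_slash_S r) g hg
  refine ⟨b, ?_⟩
  have h := relInf_comp_affH (res_relInf_BN r) 1 b r N p'
    (Dvd.intro _ hN.symm) (by rw [hN, Nat.mul_div_cancel_left _ hr.pos, one_mul])
  rw [← exp_iotaZ_tw, map_add, map_mul, res_tw_C, res_tw_C, map_add, map_mul, res_iotaZ_C,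
    res_iotaZ_C] at h
  have h2 := E.mul (E.const (-(r : ℂ)⁻¹)) h
  convert h2 using 1
  ext z
  rw [hb z]
  rfl

/-! ### orders -/

theorem res_sig_ne (k : Type*) [Field k] (r : ℕ) [Fact r.Prime] :
    intS k (sigP r) ≠ 0 ∧ (intS k (sigP r)).order = 1 := by
  have h1 : (intS k (sigP r)).coeff 1 ≠ 0 := by
    have := res_intS_coeff k (sigP r) 1
    rw [Nat.cast_one] at this
    rw [this]
    have hr : ¬ r ∣ 1 := (Fact.out : r.Prime).one_lt.ne' ∘ Nat.dvd_one.1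
    simp [sigP, Finset.filter_singleton, hr]
  refine ⟨fun h0 => h1 (by rw [h0]; rfl), tw_order_eq h1 fun i hi => ?_⟩
  rcases lt_or_eq_of_le (show i ≤ 0 by omega) with h | rfl
  · exact res_intS_coeff_neg k _ i h
  · have := res_intS_coeff k (sigP r) 0
    rw [Nat.cast_zero] at this
    rw [this]
    simp [sigP]

theorem res_C_ne {k : Type*} [Field k] {a : k} (ha : a ≠ 0) :
    (HahnSeries.C a : LaurentSeries k) ≠ 0 := by
  rw [HahnSeries.C_apply]
  exact HahnSeries.single_ne_zero ha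

theorem res_order_C_mul {k : Type*} [Field k] {a : k} (ha : a ≠ 0) {X : LaurentSeries k}
    (hX : X ≠ 0) : HahnSeries.C a * X ≠ 0 ∧ (HahnSeries.C a * X).order = X.order := by
  refine ⟨mul_ne_zero (res_C_ne ha) hX, ?_⟩
  rw [HahnSeries.order_mul (res_C_ne ha) hX, HahnSeries.order_C, zero_add]

theorem res_order_C_add {k : Type*} [Field k] {a : k} (ha : a ≠ 0) {X : LaurentSeries k}
    (hX : 0 < X.order) : HahnSeries.C a + X ≠ 0 ∧ (HahnSeries.C a + X).order = 0 := by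
  have h1 : (HahnSeries.C a + X).coeff 0 ≠ 0 := by
    rw [HahnSeries.coeff_add, HahnSeries.coeff_eq_zero_of_lt_order hX, add_zero,
      HahnSeries.C_apply, HahnSeries.coeff_single_same]
    exact ha
  refine ⟨fun h0 => h1 (by rw [h0]; rfl), tw_order_eq h1 fun i hi => ?_⟩
  rw [HahnSeries.coeff_add, HahnSeries.coeff_eq_zero_of_lt_order (hi.trans hX), add_zero,
    HahnSeries.C_apply, HahnSeries.coeff_single_of_ne hi.ne]

theorem res_coeffMap_C {k : Type*} [Field k] (f : Zb →+* k) (n : ℤ) :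
    coeffMap f (HahnSeries.C ((n : ℤ) : Zb)) = HahnSeries.C ((n : ℤ) : k) := by
  rw [HahnSeries.C_apply, coeffMap_single, map_intCast, HahnSeries.C_apply]

/-! ### the combination -/

theorem res_comb (p r N : ℕ) [Fact p.Prime] [Fact r.Prime] [NeZero N] (hN : N = p * r)
    (F Ft : ℍ → ℂ) (c ct : ℕ → ℤ) (hF : Wt2Data p F Ft c ct)
    (L M ll w v A A2 u₀ : ℤ) (hL : L ≠ 0)
    (R1 : ((r : ℤ) - 1) * M = L * (ll * w)) (R2 : (p : ℤ) + 1 = M * v) (R3 : (24 : ℤ) = L * A)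
    (R4 : ((r : ℤ) - 1) * ((r : ℤ) + 1) = L * A2) (c' ct' : ℕ → ℤ)
    (hc0 : c 0 = u₀ + M * c' 0) (hck : ∀ k, 1 ≤ k → c k = M * c' k)
    (hct0 : ct 0 = u₀ + M * ct' 0) (hctk : ∀ k, 1 ≤ k → ct k = M * ct' k) (g : SL(2, ℤ)) :
    ∃ s : LaurentSeries Zb,
      RelInf (N : ℝ) (fun z => ((p : ℂ) * r / L) *
        (((r : ℂ) - 1) * (F ∣[(2 : ℤ)] g) z - u₀ * (BN r ∣[(2 : ℤ)] g) z)) (iotaZ s) ∧
      ∀ (k : Type) [Field k] (f : Zb →+* k), ((ll : ℤ) : k) = 0 → ((p : ℤ) : k) ≠ 0 →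
        ((r : ℤ) : k) ≠ 0 → ((A : ℤ) : k) ≠ 0 → ((A2 : ℤ) : k) ≠ 0 → ((u₀ : ℤ) : k) ≠ 0 →
        coeffMap f s ≠ 0 ∧ (g ∈ Gamma0 r → (coeffMap f s).order = N) ∧
          (g ∉ Gamma0 r → (coeffMap f s).order = 0) := by
  have hp : p.Prime := Fact.out
  have hr : r.Prime := Fact.out
  have hN0 : (0 : ℝ) < N := by exact_mod_cast Nat.pos_of_ne_zero (NeZero.ne N)
  have E := expRel_relInf (N : ℝ) hN0
  have hpC : (p : ℂ) ≠ 0 := Nat.cast_ne_zero.mpr hp.ne_zero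
  have hrC : (r : ℂ) ≠ 0 := Nat.cast_ne_zero.mpr hr.ne_zero
  have hLC : ((L : ℤ) : ℂ) ≠ 0 := Int.cast_ne_zero.mpr hL
  have cast : ∀ {a b : ℤ}, a = b → (HahnSeries.C ((a : ℤ) : ℂ) : LaurentSeries ℂ) =
      HahnSeries.C ((b : ℤ) : ℂ) := fun h => by rw [h]
  have hpp : (HahnSeries.C ((p : ℂ)⁻¹) : LaurentSeries ℂ) * HahnSeries.C (((p : ℤ) : ℤ) : ℂ) = 1 := by
    rw [← map_mul]
    push_cast
    rw [inv_mul_cancel₀ hpC, map_one]
  have hrr : (HahnSeries.C ((r : ℂ)⁻¹) : LaurentSeries ℂ) * HahnSeries.C (((r : ℤ) : ℤ) : ℂ) = 1 := by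
    rw [← map_mul]
    push_cast
    rw [inv_mul_cancel₀ hrC, map_one]
  have hκ : (HahnSeries.C ((p : ℂ) * r / L) : LaurentSeries ℂ) * HahnSeries.C ((L : ℤ) : ℂ) =
      HahnSeries.C (((p : ℤ) : ℤ) : ℂ) * HahnSeries.C (((r : ℤ) : ℤ) : ℂ) := by
    rw [← map_mul, ← map_mul]
    congr 1
    push_cast
    field_simp
  push_cast at hpp hrr hκ
  have R1' := cast R1
  have R2' := cast R2
  have R3' := cast R3
  have R4' := cast R4
  push_cast at R1' R2' R3' R4'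
  simp only [map_mul, map_add, map_sub, map_one] at R1' R2' R3' R4'
  obtain ⟨h, hh⟩ := res_Fpart p N r hN F Ft c ct hF M u₀ v R2 c' ct' hc0 hck hct0 hctk g
  have hLne : (HahnSeries.C ((L : ℤ) : ℂ) : LaurentSeries ℂ) ≠ 0 := res_C_ne hLC
  by_cases hg : g ∈ Gamma0 r
  · have hB := res_Bpart_mem r N g hg
    refine ⟨HahnSeries.C (((r : ℤ) : ℤ) : Zb) * (HahnSeries.C ((ll : ℤ) : Zb) *
      HahnSeries.C ((w : ℤ) : Zb) * (h - HahnSeries.C ((v : ℤ) : Zb) * HahnSeries.C ((u₀ : ℤ) : Zb)) -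
      HahnSeries.C ((A : ℤ) : Zb) * HahnSeries.C (((p : ℤ) : ℤ) : Zb) * HahnSeries.C ((u₀ : ℤ) : Zb) *
        qExpand Zb N (intS Zb (sigP r))), ?_, ?_⟩
    · have h2 := E.mul (E.const ((p : ℂ) * r / L)) (E.add (E.mul (E.const ((r : ℂ) - 1)) hh)
        (E.mul (E.const (-(u₀ : ℂ))) hB))
      convert h2 using 1
      · ext z
        simp only [Pi.mul_apply, Pi.add_apply]
        ring
      · simp only [map_mul, map_sub, res_iotaZ_C]
        apply mul_left_cancel₀ hLne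
        push_cast
        simp only [map_mul, map_add, map_sub, map_one, map_neg]
        set H := iotaZ h
        set Y := iotaZ (qExpand Zb N (intS Zb (sigP r)))
        linear_combination
          (-(((HahnSeries.C (r : ℂ) : LaurentSeries ℂ) - 1) * (HahnSeries.C ((p : ℂ)⁻¹) *
            (-HahnSeries.C (u₀ : ℂ) + HahnSeries.C (M : ℂ) * H)) +
            -HahnSeries.C (u₀ : ℂ) * (HahnSeries.C (r : ℂ) - 1 + HahnSeries.C 24 * Y))) * hκ -
          (HahnSeries.C (r : ℂ) * (HahnSeries.C (r : ℂ) - 1) *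
            (-HahnSeries.C (u₀ : ℂ) + HahnSeries.C (M : ℂ) * H)) * hpp -
          (HahnSeries.C (r : ℂ) * H - HahnSeries.C (r : ℂ) * HahnSeries.C (v : ℂ) *
            HahnSeries.C (u₀ : ℂ)) * R1' +
          (HahnSeries.C (r : ℂ) * HahnSeries.C (p : ℂ) * HahnSeries.C (u₀ : ℂ) * Y) * R3' +
          (HahnSeries.C (r : ℂ) * (HahnSeries.C (r : ℂ) - 1) * HahnSeries.C (u₀ : ℂ)) * R2'
    · intro k _ f hll hpk hrk hAk _ huk
      have e : coeffMap f (HahnSeries.C (((r : ℤ) : ℤ) : Zb) * (HahnSeries.C ((ll : ℤ) : Zb) *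
          HahnSeries.C ((w : ℤ) : Zb) *
            (h - HahnSeries.C ((v : ℤ) : Zb) * HahnSeries.C ((u₀ : ℤ) : Zb)) -
          HahnSeries.C ((A : ℤ) : Zb) * HahnSeries.C (((p : ℤ) : ℤ) : Zb) *
            HahnSeries.C ((u₀ : ℤ) : Zb) * qExpand Zb N (intS Zb (sigP r)))) =
          HahnSeries.C (-(((r : ℤ) : k) * ((A : ℤ) : k) * ((p : ℤ) : k) * ((u₀ : ℤ) : k))) *
            qExpand k N (intS k (sigP r)) := by
        simp only [map_mul, map_sub, res_coeffMap_C, coeffMap_qExpand, res_coeffMap_intS, hll,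
          map_zero, zero_mul, zero_sub, map_neg]
        ring
      rw [e]
      have hX : qExpand k N (intS k (sigP r)) ≠ 0 := by
        intro h0
        have := order_qExpand (k := k) N (intS k (sigP r))
        rw [h0, HahnSeries.order_zero, (res_sig_ne k r).2, mul_one] at this
        exact NeZero.ne N (by exact_mod_cast this.symm)
      have ha : -(((r : ℤ) : k) * ((A : ℤ) : k) * ((p : ℤ) : k) * ((u₀ : ℤ) : k)) ≠ 0 :=
        neg_ne_zero.2 (mul_ne_zero (mul_ne_zero (mul_ne_zero hrk hAk) hpk) huk)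
      obtain ⟨h1, h2⟩ := res_order_C_mul ha hX
      refine ⟨h1, fun _ => ?_, fun h => absurd hg h⟩
      rw [h2, order_qExpand, (res_sig_ne k r).2, mul_one]
  · obtain ⟨b, hB⟩ := res_Bpart_not r N p (by rw [hN, mul_comm]) g hg
    refine ⟨HahnSeries.C ((u₀ : ℤ) : Zb) * (HahnSeries.C ((ll : ℤ) : Zb) *
      HahnSeries.C ((w : ℤ) : Zb) * HahnSeries.C ((v : ℤ) : Zb) - HahnSeries.C ((A2 : ℤ) : Zb)) +
      HahnSeries.C (((r : ℤ) : ℤ) : Zb) * HahnSeries.C ((ll : ℤ) : Zb) *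
        HahnSeries.C ((w : ℤ) : Zb) * h +
      HahnSeries.C ((A : ℤ) : Zb) * HahnSeries.C (((p : ℤ) : ℤ) : Zb) * HahnSeries.C ((u₀ : ℤ) : Zb) *
        tw (zetaZ r b) p (intS Zb (sigP r)), ?_, ?_⟩
    · have h2 := E.mul (E.const ((p : ℂ) * r / L)) (E.add (E.mul (E.const ((r : ℂ) - 1)) hh)
        (E.mul (E.const (-(u₀ : ℂ))) hB))
      convert h2 using 1
      · ext z
        simp only [Pi.mul_apply, Pi.add_apply]
        ring
      · simp only [map_mul, map_sub, map_add, res_iotaZ_C]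
        apply mul_left_cancel₀ hLne
        push_cast
        simp only [map_sub, map_one, map_neg]
        set H := iotaZ h
        set Y := iotaZ (tw (zetaZ r b) p (intS Zb (sigP r)))
        linear_combination
          (-(((HahnSeries.C (r : ℂ) : LaurentSeries ℂ) - 1) * (HahnSeries.C ((p : ℂ)⁻¹) *
            (-HahnSeries.C (u₀ : ℂ) + HahnSeries.C (M : ℂ) * H)) +
            -HahnSeries.C (u₀ : ℂ) * (-HahnSeries.C ((r : ℂ)⁻¹) *
              (HahnSeries.C (r : ℂ) - 1 + HahnSeries.C 24 * Y)))) * hκ -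
          (HahnSeries.C (r : ℂ) * (HahnSeries.C (r : ℂ) - 1) *
            (-HahnSeries.C (u₀ : ℂ) + HahnSeries.C (M : ℂ) * H)) * hpp -
          (HahnSeries.C (p : ℂ) * HahnSeries.C (u₀ : ℂ) *
            (HahnSeries.C (r : ℂ) - 1 + HahnSeries.C 24 * Y)) * hrr -
          (HahnSeries.C (r : ℂ) * H + HahnSeries.C (u₀ : ℂ) * HahnSeries.C (v : ℂ)) * R1' -
          (HahnSeries.C (p : ℂ) * HahnSeries.C (u₀ : ℂ) * Y) * R3' -
          (HahnSeries.C (u₀ : ℂ) * (HahnSeries.C (r : ℂ) - 1)) * R2' +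
          HahnSeries.C (u₀ : ℂ) * R4'
    · intro k _ f hll hpk hrk hAk hA2k huk
      have e : coeffMap f (HahnSeries.C ((u₀ : ℤ) : Zb) * (HahnSeries.C ((ll : ℤ) : Zb) *
          HahnSeries.C ((w : ℤ) : Zb) * HahnSeries.C ((v : ℤ) : Zb) -
            HahnSeries.C ((A2 : ℤ) : Zb)) +
          HahnSeries.C (((r : ℤ) : ℤ) : Zb) * HahnSeries.C ((ll : ℤ) : Zb) *
            HahnSeries.C ((w : ℤ) : Zb) * h +
          HahnSeries.C ((A : ℤ) : Zb) * HahnSeries.C (((p : ℤ) : ℤ) : Zb) *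
            HahnSeries.C ((u₀ : ℤ) : Zb) * tw (zetaZ r b) p (intS Zb (sigP r))) =
          HahnSeries.C (-(((u₀ : ℤ) : k) * ((A2 : ℤ) : k))) +
            HahnSeries.C (((A : ℤ) : k) * ((p : ℤ) : k) * ((u₀ : ℤ) : k)) *
              tw (Units.map f.toMonoidHom (zetaZ r b)) p (intS k (sigP r)) := by
        simp only [map_mul, map_sub, map_add, res_coeffMap_C, coeffMap_tw, res_coeffMap_intS, hll,
          map_zero, zero_mul, mul_zero, zero_sub, map_neg, add_zero]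
        ring
      rw [e]
      have ho : (tw (Units.map f.toMonoidHom (zetaZ r b)) p (intS k (sigP r))).order = p := by
        rw [order_tw, (res_sig_ne k r).2, mul_one]
      have hX : tw (Units.map f.toMonoidHom (zetaZ r b)) p (intS k (sigP r)) ≠ 0 := by
        intro h0
        rw [h0, HahnSeries.order_zero] at ho
        exact hp.ne_zero (by exact_mod_cast ho.symm)
      have ha : -(((u₀ : ℤ) : k) * ((A2 : ℤ) : k)) ≠ 0 := neg_ne_zero.2 (mul_ne_zero huk hA2k)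
      obtain ⟨-, h2⟩ := res_order_C_mul (mul_ne_zero (mul_ne_zero hAk hpk) huk) hX
      have h3 : 0 < (HahnSeries.C (((A : ℤ) : k) * ((p : ℤ) : k) * ((u₀ : ℤ) : k)) *
          tw (Units.map f.toMonoidHom (zetaZ r b)) p (intS k (sigP r))).order := by
        rw [h2, ho]
        exact_mod_cast hp.pos
      obtain ⟨h4, h5⟩ := res_order_C_add ha h3
      exact ⟨h4, fun h => absurd h hg, fun _ => h5⟩

/-! ### counting cosets -/

theorem res_Gamma0_le {r N : ℕ} (h : r ∣ N) : Gamma0 N ≤ Gamma0 r := by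
  intro g hg
  rw [Gamma0_mem, ZMod.intCast_zmod_eq_zero_iff_dvd] at hg ⊢
  exact (Int.natCast_dvd_natCast.mpr h).trans hg

theorem res_count (N r : ℕ) [NeZero N] [NeZero r] (hrN : r ∣ N) :
    Nat.card (Cos N) = Nat.card (Cos r) *
      Nat.card {c : Cos N // (Quotient.out c : SL(2, ℤ))⁻¹ ∈ Gamma0 r} := by
  classical
  set pr : Cos N → Cos r := Subgroup.quotientMapOfLE (res_Gamma0_le hrN) with hprd
  have hsmul : ∀ (g : SL(2, ℤ)) (c : Cos N), pr (g • c) = g • pr c := by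
    intro g c
    obtain ⟨x, rfl⟩ := QuotientGroup.mk_surjective c
    rfl
  have h1 : ∀ c : Cos N, (Quotient.out c : SL(2, ℤ))⁻¹ ∈ Gamma0 r ↔
      pr c = (QuotientGroup.mk 1 : Cos r) := by
    intro c
    have e1 : (QuotientGroup.mk (Quotient.out c : SL(2, ℤ)) : Cos N) = c := Quotient.out_eq c
    conv_rhs => rw [← e1]
    rw [hprd, Subgroup.quotientMapOfLE_apply_mk, QuotientGroup.eq, mul_one]
  have hfib : ∀ y : Cos r, Nat.card {c : Cos N // pr c = y} =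
      Nat.card {c : Cos N // (Quotient.out c : SL(2, ℤ))⁻¹ ∈ Gamma0 r} := by
    intro y
    obtain ⟨g, rfl⟩ := QuotientGroup.mk_surjective y
    refine Nat.card_congr (Equiv.subtypeEquiv (MulAction.toPerm g⁻¹) fun c => ?_)
    rw [h1, MulAction.toPerm_apply, hsmul]
    constructor
    · intro h
      rw [h]
      change (QuotientGroup.mk (g⁻¹ * g) : Cos r) = _
      rw [inv_mul_cancel]
    · intro h
      have := congrArg (fun y => g • y) h
      simp only [smul_inv_smul] at this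
      rw [this]
      change (QuotientGroup.mk (g * 1) : Cos r) = _
      rw [mul_one]
  rw [Nat.card_congr (Equiv.sigmaFiberEquiv pr).symm, Nat.card_sigma]
  simp_rw [hfib]
  rw [Finset.sum_const, Finset.card_univ, smul_eq_mul, ← Nat.card_eq_fintype_card]

/-! ### the core -/

theorem res_order_prod {k : Type*} [Field k] {ι : Type*} (t : Finset ι) (y : ι → LaurentSeries k)
    (hy : ∀ i ∈ t, y i ≠ 0) : (∏ i ∈ t, y i).order = ∑ i ∈ t, (y i).order := by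
  classical
  induction t using Finset.induction_on with
  | empty => simp
  | insert a t ha ih =>
    rw [Finset.prod_insert ha, Finset.sum_insert ha,
      HahnSeries.order_mul (hy a (Finset.mem_insert_self a t))
        (Finset.prod_ne_zero_iff.2 fun i hi => hy i (Finset.mem_insert_of_mem hi)),
      ih fun i hi => hy i (Finset.mem_insert_of_mem hi)]

theorem res_theta_smul (φ : ℍ → ℂ) (g : SL(2, ℤ)) (z : ℍ) :
    φ (g • z) ^ 6 / ModularForm.discriminant (g • z) = ((φ ∣[(2 : ℤ)] g) z) ^ 6 / ModularForm.discriminant z := by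
  have hd : denom g z ≠ 0 := denom_ne_zero g z
  rw [unit_disc_smul, ModularForm.SL_slash_apply, ← ModularGroup.denom_apply, zpow_neg,
    zpow_ofNat]
  have hΔ := discriminant_ne_zero z
  field_simp

theorem res_core (N r : ℕ) [NeZero N] [NeZero r] (hrN : r ∣ N) (hcard : Nat.card (Cos r) < 6)
    (φ : ℍ → ℂ) (hφd : MDiff φ) (hφ : ∀ γ ∈ Gamma0 N, φ ∣[(2 : ℤ)] γ = φ)
    (k : Type) [Field k] (f : Zb →+* k)
    (hs : ∀ g : SL(2, ℤ), ∃ s : LaurentSeries Zb, RelInf (N : ℝ) (φ ∣[(2 : ℤ)] g) (iotaZ s) ∧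
      coeffMap f s ≠ 0 ∧ (g ∈ Gamma0 r → (coeffMap f s).order = N) ∧
        (g ∉ Gamma0 r → (coeffMap f s).order = 0)) : False := by
  classical
  have hN0 : (0 : ℝ) < N := by exact_mod_cast Nat.pos_of_ne_zero (NeZero.ne N)
  have hN : (0 : ℤ) < N := by exact_mod_cast Nat.pos_of_ne_zero (NeZero.ne N)
  have E := expRel_relInf (N : ℝ) hN0
  set θ : ℍ → ℂ := fun z => φ z ^ 6 / ModularForm.discriminant z with hθdef
  have hθ : ∀ γ ∈ Gamma0 N, ∀ z, θ (γ • z) = θ z := by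
    intro γ hγ z
    rw [hθdef]
    simp only
    rw [res_theta_smul, hφ γ hγ]
  have hθd : MDiff θ := (hφd.pow 6).div jf_disc_mdiff discriminant_ne_zero
  choose s hs1 hs2 hs3 hs4 using fun c : Cos N => hs (Quotient.out c : SL(2, ℤ))⁻¹
  set x : Cos N → LaurentSeries Zb := fun c => s c ^ 6 * qExpand Zb N (dqInv Zb) with hxdef
  have hx : ∀ c, RelInf (N : ℝ) (conjF N θ c) (iotaZ (x c)) := by
    intro c
    have h := E.mul (hd_expRel_pow E (hs1 c) 6) (relInf_period N exp_relInf_disc_inv)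
    rw [hxdef]
    simp only
    have edq : iotaZ (dqInv Zb) = dqInv ℂ := by rw [iotaZ, coeffMap_dqInv]
    rw [map_mul, map_pow, res_iotaZ_qExpand, edq]
    convert h using 1
    ext z
    rw [conjF, hθdef]
    simp only
    rw [res_theta_smul, div_eq_mul_inv]
    rfl
  obtain ⟨P, hP⟩ := sym_S1 N θ hθ hθd x hx 0
  rw [Polynomial.coeff_zero_eq_eval_zero, Polynomial.eval_prod] at hP
  simp only [Polynomial.eval_sub, Polynomial.eval_X, Polynomial.eval_C, zero_sub] at hP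
  have hP2 := congrArg (coeffMap f) hP
  rw [data_coeffMap_aeval, coeffMap_JJ, map_prod] at hP2
  set y : Cos N → LaurentSeries k := fun c => coeffMap f (-x c) with hydef
  have hdq : qExpand k N (dqInv k) ≠ 0 ∧ (qExpand k N (dqInv k)).order = -(N : ℤ) := by
    have h1 : (qExpand k N (dqInv k)).order = -(N : ℤ) := by
      rw [order_qExpand, order_dqInv]
      ring
    refine ⟨fun h0 => ?_, h1⟩
    rw [h0, HahnSeries.order_zero] at h1
    omega
  have hy : ∀ c, y c ≠ 0 ∧ (y c).order = 6 * (coeffMap f (s c)).order - N := by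
    intro c
    have e : y c = -(coeffMap f (s c) ^ 6 * qExpand k N (dqInv k)) := by
      rw [hydef, hxdef]
      simp only
      rw [map_neg, map_mul, map_pow, coeffMap_qExpand, coeffMap_dqInv]
    have h6 : coeffMap f (s c) ^ 6 ≠ 0 := pow_ne_zero 6 (hs2 c)
    refine ⟨by rw [e]; exact neg_ne_zero.2 (mul_ne_zero h6 hdq.1), ?_⟩
    rw [e, HahnSeries.order_neg, HahnSeries.order_mul h6 hdq.1, hdq.2, HahnSeries.order_pow]
    simp
    ring
  have hprod0 : ∏ c, y c ≠ 0 := Finset.prod_ne_zero_iff.2 fun c _ => (hy c).1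
  have hord : (∏ c, y c).order = ∑ c, (y c).order := res_order_prod _ _ fun c _ => (hy c).1
  have hcount := res_count N r hrN
  rw [Nat.card_eq_fintype_card (α := Cos N), Nat.card_eq_fintype_card
    (α := {c : Cos N // (Quotient.out c : SL(2, ℤ))⁻¹ ∈ Gamma0 r}), Fintype.card_subtype] at hcount
  set a := (Finset.univ.filter fun c : Cos N => (Quotient.out c : SL(2, ℤ))⁻¹ ∈ Gamma0 r).card
    with ha
  have hT : 0 < Fintype.card (Cos N) := Fintype.card_pos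
  have hsum : ∑ c, (y c).order = (N : ℤ) * (6 * a - Fintype.card (Cos N)) := by
    have e1 : ∀ c, (y c).order =
        6 * (N : ℤ) * (if (Quotient.out c : SL(2, ℤ))⁻¹ ∈ Gamma0 r then 1 else 0) - N := by
      intro c
      rw [(hy c).2]
      split_ifs with h
      · rw [hs3 c h]; ring
      · rw [hs4 c h]; ring
    simp_rw [e1]
    rw [Finset.sum_sub_distrib, ← Finset.mul_sum, Finset.sum_boole, Finset.sum_const,
      Finset.card_univ, ← ha]
    simp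
    ring
  have hpos : 0 < (∏ c, y c).order := by
    rw [hord, hsum]
    apply mul_pos hN
    have h1 : 0 < a := by
      rcases Nat.eq_zero_or_pos a with h0 | h0
      · rw [h0, mul_zero] at hcount
        omega
      · exact h0
    have h2 : Fintype.card (Cos N) < 6 * a := by
      rw [hcount]
      exact Nat.mul_lt_mul_of_pos_right hcard h1
    have : (Fintype.card (Cos N) : ℤ) < 6 * a := by exact_mod_cast h2
    omega
  have hJ0 : JJ k N ≠ 0 := by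
    intro h1
    have := order_JJ (k := k) N
    rw [h1, HahnSeries.order_zero] at this
    omega
  have hzero : P.map f = 0 := by
    refine heart_eq_zero_of_pos (k := k) (HahnSeries.addVal ℤ k) (fun c hc => ?_) (JJ k N) ?_
      (P.map f) ?_
    · rw [HahnSeries.addVal_apply, algebraMap_laurentSeries_eq_single,
        HahnSeries.orderTop_single hc]
      rfl
    · rw [HahnSeries.addVal_apply, ← HahnSeries.order_eq_orderTop_of_ne_zero hJ0, order_JJ]
      exact_mod_cast (by omega : -(N : ℤ) < 0)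
    · rw [← hP2, HahnSeries.addVal_apply]
      exact HahnSeries.zero_lt_orderTop_of_order hpos
  rw [hzero, map_zero] at hP2
  exact hprod0 hP2

/-! ### the final statement -/

theorem res_split (c : ℕ → ℤ) (M u₀ : ℤ) (hc0 : M ∣ c 0 - u₀) (hck : ∀ k, 1 ≤ k → M ∣ c k) :
    ∃ c' : ℕ → ℤ, c 0 = u₀ + M * c' 0 ∧ ∀ k, 1 ≤ k → c k = M * c' k := by
  have h : ∀ k, ∃ d : ℤ, (k = 0 → c 0 = u₀ + M * d) ∧ (1 ≤ k → c k = M * d) := by
    intro k
    rcases Nat.eq_zero_or_pos k with rfl | hk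
    · obtain ⟨d, hd⟩ := hc0
      exact ⟨d, fun _ => by linarith, fun h => by omega⟩
    · obtain ⟨d, hd⟩ := hck k hk
      exact ⟨d, fun h => by omega, fun _ => hd⟩
  choose c' h1 h2 using h
  exact ⟨c', h1 0 rfl, fun k hk => h2 k hk⟩

theorem res_A2 (r ℓ μ A : ℕ) [Fact r.Prime] [Fact ℓ.Prime] (hr : r = 2 ∨ r = 3) (hℓr : ℓ ≠ r)
    (h24 : 24 = ℓ ^ μ * A) (hA : ¬ ℓ ∣ A) :
    ∃ A2 : ℕ, (r - 1) * (r + 1) = ℓ ^ μ * A2 ∧ ¬ ℓ ∣ A2 := by
  have hℓ : ℓ.Prime := Fact.out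
  have hrp : r.Prime := Fact.out
  obtain ⟨j, hj⟩ : ∃ j : ℕ, (r - 1) * (r + 1) * r ^ j = 24 := by
    rcases hr with rfl | rfl
    · exact ⟨3, by norm_num⟩
    · exact ⟨1, by norm_num⟩
  have hcop : Nat.Coprime (ℓ ^ μ) (r ^ j) :=
    Nat.Coprime.pow _ _ ((Nat.coprime_primes hℓ hrp).2 hℓr)
  have hdvd : ℓ ^ μ ∣ (r - 1) * (r + 1) := by
    apply hcop.dvd_of_dvd_mul_right
    rw [hj, h24]
    exact dvd_mul_right _ _
  obtain ⟨A2, hA2⟩ := hdvd
  refine ⟨A2, hA2, fun h => hA ?_⟩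
  have : ℓ ^ μ * A = ℓ ^ μ * (A2 * r ^ j) := by
    rw [← h24, ← hj, hA2]
    ring
  rw [Nat.eq_of_mul_eq_mul_left (pow_pos hℓ.pos μ) this]
  exact h.mul_right _

theorem res_false (p r ℓ : ℕ) [Fact p.Prime] [Fact r.Prime] [Fact ℓ.Prime]
    (hr : r = 2 ∨ r = 3) (hpr : p ≠ r) (hℓp : ℓ ≠ p) (hℓr : ℓ ≠ r)
    (F Ft : ℍ → ℂ) (c ct : ℕ → ℤ) (hF : Wt2Data p F Ft c ct)
    (e μ A : ℕ) (h24 : 24 = ℓ ^ μ * A) (hA : ¬ ℓ ∣ A) (he : ℓ ^ (μ + 1) ∣ (r - 1) * ℓ ^ e)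
    (hp1 : ℓ ^ e ∣ p + 1) (u₀ : ℤ) (hu : ¬ (ℓ : ℤ) ∣ u₀)
    (hc0 : (ℓ : ℤ) ^ e ∣ c 0 - u₀) (hck : ∀ k, 1 ≤ k → (ℓ : ℤ) ^ e ∣ c k)
    (hct0 : (ℓ : ℤ) ^ e ∣ ct 0 - u₀) (hctk : ∀ k, 1 ≤ k → (ℓ : ℤ) ^ e ∣ ct k) : False := by
  have hp : p.Prime := Fact.out
  have hrp : r.Prime := Fact.out
  have hℓ : ℓ.Prime := Fact.out
  have : NeZero (p * r) := ⟨Nat.mul_ne_zero hp.ne_zero hrp.ne_zero⟩
  obtain ⟨c', hc0', hck'⟩ := res_split c _ u₀ hc0 hck
  obtain ⟨ct', hct0', hctk'⟩ := res_split ct _ u₀ hct0 hctk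
  obtain ⟨A2, hA2, hA2'⟩ := res_A2 r ℓ μ A hr hℓr h24 hA
  obtain ⟨w, hw⟩ := he
  obtain ⟨v, hv⟩ := hp1
  have hr1 : ((r - 1 : ℕ) : ℤ) = (r : ℤ) - 1 := by
    rw [Nat.cast_sub hrp.one_le]
    simp
  have R1 : ((r : ℤ) - 1) * (ℓ : ℤ) ^ e = (ℓ : ℤ) ^ μ * ((ℓ : ℤ) * w) := by
    rw [← hr1]
    have := congrArg (Nat.cast : ℕ → ℤ) hw
    push_cast at this ⊢
    rw [this]
    ring
  have R2 : (p : ℤ) + 1 = (ℓ : ℤ) ^ e * v := by exact_mod_cast hv
  have R3 : (24 : ℤ) = (ℓ : ℤ) ^ μ * A := by exact_mod_cast h24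
  have R4 : ((r : ℤ) - 1) * ((r : ℤ) + 1) = (ℓ : ℤ) ^ μ * A2 := by
    rw [← hr1]
    exact_mod_cast hA2
  have hL : ((ℓ : ℤ) ^ μ) ≠ 0 := pow_ne_zero _ (by exact_mod_cast hℓ.ne_zero)
  -- the residue field
  obtain ⟨𝔪, hmax, hmem⟩ := FLTPrelim.exists_maximalIdeal_natCast_prime_mem hℓ
  letI : Field (Zb ⧸ 𝔪) := Ideal.Quotient.field 𝔪
  let f : Zb →+* (Zb ⧸ 𝔪) := Ideal.Quotient.mk 𝔪
  have hℓ0 : ((ℓ : ℕ) : Zb ⧸ 𝔪) = 0 := by
    have : f (ℓ : Zb) = 0 := Ideal.Quotient.eq_zero_iff_mem.2 hmem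
    simpa using this
  have hchar : CharP (Zb ⧸ 𝔪) ℓ := by
    have h1 : ringChar (Zb ⧸ 𝔪) ∣ ℓ := ringChar.dvd hℓ0
    have h2 : ringChar (Zb ⧸ 𝔪) = ℓ :=
      ((Nat.dvd_prime hℓ).1 h1).resolve_left (CharP.ringChar_ne_one)
    exact ringChar.of_eq h2
  have hne : ∀ n : ℤ, ¬ (ℓ : ℤ) ∣ n → ((n : ℤ) : Zb ⧸ 𝔪) ≠ 0 := fun n hn h0 =>
    hn ((CharP.intCast_eq_zero_iff (Zb ⧸ 𝔪) ℓ n).1 h0)
  have hneN : ∀ n : ℕ, ¬ ℓ ∣ n → (((n : ℤ) : ℤ) : Zb ⧸ 𝔪) ≠ 0 := fun n hn =>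
    hne n fun h => hn (Int.natCast_dvd_natCast.1 h)
  set φ : ℍ → ℂ := fun z => ((p : ℂ) * r / (((ℓ : ℤ) ^ μ : ℤ) : ℂ)) *
    (((r : ℂ) - 1) * F z - u₀ * BN r z) with hφdef
  have hslash : ∀ g : SL(2, ℤ), φ ∣[(2 : ℤ)] g = fun z => ((p : ℂ) * r / (((ℓ : ℤ) ^ μ : ℤ) : ℂ)) *
      (((r : ℂ) - 1) * (F ∣[(2 : ℤ)] g) z - u₀ * (BN r ∣[(2 : ℤ)] g) z) := by
    intro g
    ext z
    rw [ModularForm.SL_slash_apply, ModularForm.SL_slash_apply, ModularForm.SL_slash_apply, hφdef]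
    ring
  refine res_core (p * r) r (Dvd.intro_left p rfl) ?_ φ ?_ ?_ (Zb ⧸ 𝔪) f ?_
  · rw [card_cos]
    have h1 : dedekindPsi r ≤ r + 1 := by
      rw [dedekindPsi, hrp.divisors]
      refine (Finset.sum_le_sum_of_subset (Finset.filter_subset _ _)).trans ?_
      rw [Finset.sum_pair hrp.one_lt.ne, Nat.div_one, Nat.div_self hrp.pos]
    rcases hr with rfl | rfl <;> omega
  · exact mdifferentiable_const.mul ((mdifferentiable_const.mul hF.nice.2.1).sub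
      (mdifferentiable_const.mul (BN_nice r).2.1))
  · intro γ hγ
    rw [hslash, hF.inv γ (res_Gamma0_le (Dvd.intro r rfl) hγ),
      BN_slash r γ (res_Gamma0_le (Dvd.intro_left p rfl) hγ)]
  · intro g
    obtain ⟨s, hs1, hs2⟩ := res_comb p r (p * r) rfl F Ft c ct hF ((ℓ : ℤ) ^ μ) ((ℓ : ℤ) ^ e) ℓ w v
      A A2 u₀ hL R1 R2 R3 R4 c' ct' hc0' hck' hct0' hctk' g
    refine ⟨s, ?_, hs2 (Zb ⧸ 𝔪) f (by exact_mod_cast hℓ0)
      (hneN p fun h => hℓp ((Nat.prime_dvd_prime_iff_eq hℓ hp).1 h))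
      (hneN r fun h => hℓr ((Nat.prime_dvd_prime_iff_eq hℓ hrp).1 h))
      (hneN A hA) (hneN A2 hA2') (hne u₀ hu)⟩
    rw [hslash]
    exact hs1

end Fermat.Agent.S16
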