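import Mathlib
import Fermat.Agent.S16.Defs
import Fermat.Agent.S28.ExpAff
import Fermat.Agent.S24.RelInf
import Fermat.Prelude.Thm_ModularFormClass_qCoeff_heckeU

/-!
# S16 (M6): the trace in weight `4`

`dvd_succ_mul_of` is `dvd_succ_mul` of the skeleton with (M3) `trace_zero` (weight 4), (M4)
`AL_slash_S`, `AL_U_sq` as explicit hypotheses.
-/

set_option autoImplicit false

namespace Fermat.Agent.S16

open UpperHalfPlane ModularForm ModularCurve CuspForm CongruenceSubgroup EisensteinSeries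
open Fermat.Agent.S24 Fermat.Agent.S28
open scoped MatrixGroups Manifold Real

lemma tr4_inv (p : ℕ) (f : CuspForm (Gamma0 p) 2) (γ : SL(2, ℤ)) (hγ : γ ∈ Gamma0 p) :
    (f : ℍ → ℂ) ∣[(2 : ℤ)] γ = f :=
  SlashInvariantFormClass.slash_action_eq f _
    (Subgroup.mem_map_of_mem (Matrix.SpecialLinearGroup.mapGL ℝ) hγ)

lemma tr4_one_mem (p : ℕ) :
    (1 : ℝ) ∈ (Gamma0 p : Subgroup (GL (Fin 2) ℝ)).strictPeriods := by
  rw [CongruenceSubgroup.strictPeriods_Gamma0]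
  exact AddSubgroup.mem_zmultiples 1

lemma tr4_nice (p : ℕ) (f : CuspForm (Gamma0 p) 2) : IsNiceH 1 f := by
  have h1 := tr4_one_mem p
  have : Fact (IsCusp OnePoint.infty (Gamma0 p : Subgroup (GL (Fin 2) ℝ))) :=
    ⟨Subgroup.isCusp_of_mem_strictPeriods one_pos h1⟩
  exact ⟨SlashInvariantFormClass.periodic_comp_ofComplex f h1, CuspFormClass.holo f,
    (CuspFormClass.zero_at_infty f).boundedAtFilter⟩

lemma tr4_zero (p : ℕ) (f : CuspForm (Gamma0 p) 2) : IsZeroAtImInfty f := by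
  have h1 := tr4_one_mem p
  have : Fact (IsCusp OnePoint.infty (Gamma0 p : Subgroup (GL (Fin 2) ℝ))) :=
    ⟨Subgroup.isCusp_of_mem_strictPeriods one_pos h1⟩
  exact CuspFormClass.zero_at_infty f

lemma tr4_coeff_U (p : ℕ) [NeZero p] (f : CuspForm (Gamma0 p) 2) (n : ℕ) :
    (qExpansion 1 (CuspForm.heckeULin (N := p) (p := p) 2 (dvd_refl p) f)).coeff n =
      (qExpansion 1 f).coeff (n * p) :=
  ModularFormClass.qCoeff_heckeU f (tr4_one_mem p) (NeZero.ne p) n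

lemma tr4_nice_sum {h : ℝ} {ι : Type*} (s : Finset ι) (φ : ι → ℍ → ℂ)
    (hφ : ∀ i ∈ s, IsNiceH h (φ i)) : IsNiceH h (∑ i ∈ s, φ i) := by
  classical
  induction s using Finset.induction_on with
  | empty => exact isNiceH_const (h := h) 0
  | insert a s ha ih =>
    rw [Finset.sum_insert ha]
    exact (hφ a (Finset.mem_insert_self a s)).add
      (ih fun i hi => hφ i (Finset.mem_insert_of_mem hi))

lemma tr4_qexp_sum {h : ℝ} (hh : 0 < h) {ι : Type*} (s : Finset ι) (φ : ι → ℍ → ℂ)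
    (hφ : ∀ i ∈ s, IsNiceH h (φ i)) :
    qExpansion h (∑ i ∈ s, φ i) = ∑ i ∈ s, qExpansion h (φ i) := by
  classical
  induction s using Finset.induction_on with
  | empty =>
    simp only [Finset.sum_empty]
    exact (qExpansion_eq_zero_iff hh (isNiceH_const (h := h) 0).1 (isNiceH_const (h := h) 0).2.1
      (isNiceH_const (h := h) 0).2.2).2 rfl
  | insert a s ha ih =>
    rw [Finset.sum_insert ha, Finset.sum_insert ha,
      qExpansion_add ((hφ a (Finset.mem_insert_self a s)).analyticAt hh)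
        ((tr4_nice_sum s φ fun i hi => hφ i (Finset.mem_insert_of_mem hi)).analyticAt hh),
      ih fun i hi => hφ i (Finset.mem_insert_of_mem hi)]

/-- the coefficients of a trace relation -/
theorem tr4_coeff (p : ℕ) [NeZero p] (G H : ℍ → ℂ) (hG : IsNiceH 1 G) (hH : IsNiceH 1 H) (κ : ℂ)
    (h : ∀ z, G z + ∑ b ∈ Finset.range p, κ * H (affH 1 b p z) = 0) (k : ℕ) :
    (qExpansion 1 G).coeff k + κ * p * (qExpansion 1 H).coeff (p * k) = 0 := by
  have hp0 : 0 < p := Nat.pos_of_ne_zero (NeZero.ne p)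
  have hp : (0 : ℝ) < p := by exact_mod_cast hp0
  have hHb : ∀ b : ℕ, IsNiceH (p : ℝ) (fun z => H (affH 1 b p z)) := fun b =>
    jexp_nice_affH H hH 1 b p p (dvd_refl p)
  have hHb' : ∀ b ∈ Finset.range p, IsNiceH (p : ℝ) (κ • fun z => H (affH 1 b p z)) := by
    intro b _
    have := (isNiceH_const (h := (p : ℝ)) κ).mul (hHb b)
    exact this
  have hfun : G + ∑ b ∈ Finset.range p, (κ • fun z => H (affH 1 b p z)) = 0 := by
    ext z
    simpa using h z
  have h1 : qExpansion (p : ℝ) (G + ∑ b ∈ Finset.range p, (κ • fun z => H (affH 1 b p z))) = 0 := by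
    rw [hfun]
    exact (qExpansion_eq_zero_iff hp (isNiceH_const (h := (p : ℝ)) 0).1
      (isNiceH_const (h := (p : ℝ)) 0).2.1 (isNiceH_const (h := (p : ℝ)) 0).2.2).2 rfl
  rw [qExpansion_add ((hG.period p).analyticAt hp) ((tr4_nice_sum _ _ hHb').analyticAt hp),
    tr4_qexp_sum hp _ _ hHb'] at h1
  have h2 := congrArg (fun P => PowerSeries.coeff (p * k) P) h1
  simp only [map_add, map_sum, map_zero] at h2
  have h3 : (qExpansion (p : ℝ) G).coeff (p * k) = (qExpansion 1 G).coeff k := by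
    have := UpperHalfPlane.qExpansion_coeff_nat_mul one_pos hG.1 hG.2.1 hG.2.2 hp0 (p * k)
    rw [mul_one] at this
    rw [this, if_pos (dvd_mul_right p k), Nat.mul_div_cancel_left k hp0]
  have h4 : ∀ b ∈ Finset.range p,
      (qExpansion (p : ℝ) (κ • fun z => H (affH 1 b p z))).coeff (p * k) =
        κ * (qExpansion 1 H).coeff (p * k) := by
    intro b _
    rw [qExpansion_smul ((hHb b).analyticAt hp)]
    have := expAff_coeff H hH 1 b p p (dvd_refl p) (p * k)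
    rw [Nat.div_self hp0, mul_one, if_pos (one_dvd _), Nat.div_one] at this
    simp only [PowerSeries.coeff_smul, smul_eq_mul]
    rw [this]
    have e : Complex.exp (2 * π * Complex.I * ((b : ℕ) : ℤ) / p) ^ (p * k) = 1 := by
      rw [← Complex.exp_nat_mul]
      have hpc : (p : ℂ) ≠ 0 := by exact_mod_cast NeZero.ne p
      have : ((p * k : ℕ) : ℂ) * (2 * π * Complex.I * ((b : ℕ) : ℤ) / p) =
          ((k * b : ℕ) : ℂ) * (2 * π * Complex.I) := by
        push_cast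
        field_simp
      rw [this]
      exact Complex.exp_nat_mul_two_pi_mul_I _
    rw [e, one_mul]
  rw [h3, Finset.sum_congr rfl h4, Finset.sum_const, Finset.card_range, nsmul_eq_mul] at h2
  linear_combination h2


lemma tr4_zero_mul {f g : ℍ → ℂ} (hf : IsZeroAtImInfty f) (hg : IsBoundedAtImInfty g) :
    IsZeroAtImInfty (f * g) := by
  have h1 : f =o[atImInfty] (fun _ => (1 : ℝ)) := (Asymptotics.isLittleO_one_iff ℝ).2 hf
  have h2 : g =O[atImInfty] (fun _ => (1 : ℝ)) := hg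
  have h3 := h1.mul_isBigO h2
  simp only [one_mul] at h3
  exact (Asymptotics.isLittleO_one_iff ℝ).1 h3

lemma tr4_tendsto_affH (A : ℕ) (B : ℤ) (D : ℕ) [NeZero A] [NeZero D] :
    Filter.Tendsto (affH A B D) atImInfty atImInfty := by
  rw [atImInfty, Filter.tendsto_comap_iff]
  have e : (im ∘ affH A B D) = fun z : ℍ => (A : ℝ) / D * z.im := by
    ext z
    rw [Function.comp_apply, im_affH]
    ring
  rw [e]
  have hA : (0 : ℝ) < A := by exact_mod_cast Nat.pos_of_ne_zero (NeZero.ne A)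
  have hD : (0 : ℝ) < D := by exact_mod_cast Nat.pos_of_ne_zero (NeZero.ne D)
  exact Filter.Tendsto.const_mul_atTop (div_pos hA hD) Filter.tendsto_comap

lemma tr4_affH_affH (p : ℕ) [NeZero p] (b : ℕ) (z : ℍ) :
    affH 1 0 p (affH 1 b 1 z) = affH 1 b p z := by
  apply UpperHalfPlane.ext
  simp


/-- coefficients of a product with a series congruent to a constant -/
lemma tr4_conv (M u₀ : ℤ) (a c : ℕ → ℤ) (hc0 : M ∣ c 0 - u₀) (hck : ∀ k, 1 ≤ k → M ∣ c k) (n : ℕ) :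
    M ∣ (∑ x ∈ Finset.HasAntidiagonal.antidiagonal n, a x.1 * c x.2) - u₀ * a n := by
  have h1 : (∑ x ∈ Finset.HasAntidiagonal.antidiagonal n, a x.1 * c x.2) - u₀ * a n =
      ∑ x ∈ Finset.HasAntidiagonal.antidiagonal n, (a x.1 * c x.2 - if x = (n, 0) then u₀ * a n else 0) := by
    rw [Finset.sum_sub_distrib, Finset.sum_ite_eq' (Finset.HasAntidiagonal.antidiagonal n) (n, 0),
      if_pos (by simp)]
  rw [h1]
  refine Finset.dvd_sum fun x hx => ?_
  split_ifs with hx0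
  · subst hx0
    have : a n * c 0 - u₀ * a n = a n * (c 0 - u₀) := by ring
    simp only
    rw [this]
    exact Dvd.dvd.mul_left hc0 _
  · rw [sub_zero]
    refine Dvd.dvd.mul_left (hck _ ?_) _
    rw [Finset.HasAntidiagonal.mem_antidiagonal] at hx
    by_contra hlt
    have h0 : x.2 = 0 := by omega
    apply hx0
    ext
    · simp only; omega
    · exact h0

lemma tr4_coeff_mul {f g : ℍ → ℂ} (hf : IsNiceH 1 f) (hg : IsNiceH 1 g) (a c : ℕ → ℤ)
    (ha : ∀ k, (qExpansion 1 f).coeff k = (a k : ℂ))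
    (hc : ∀ k, (qExpansion 1 g).coeff k = (c k : ℂ)) (n : ℕ) :
    (qExpansion 1 (f * g)).coeff n =
      ((∑ x ∈ Finset.HasAntidiagonal.antidiagonal n, a x.1 * c x.2 : ℤ) : ℂ) := by
  rw [qExpansion_mul (hf.analyticAt one_pos) (hg.analyticAt one_pos), PowerSeries.coeff_mul]
  push_cast
  exact Finset.sum_congr rfl fun x _ => by rw [ha, hc]

theorem dvd_succ_mul_of (p : ℕ) [Fact p.Prime]
    (hTr : ∀ G : ℍ → ℂ, MDiff G → (∀ γ ∈ Gamma0 p, G ∣[(4 : ℤ)] γ = G) → IsZeroAtImInfty G →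
      IsZeroAtImInfty (G ∣[(4 : ℤ)] ModularGroup.S) → ∀ z : ℍ,
      G z + ∑ b ∈ Finset.range p, (G ∣[(4 : ℤ)] ModularGroup.S) (affH 1 b 1 z) = 0)
    (hAL : ∀ (f : CuspForm (Gamma0 p) 2) (z : ℍ),
      ((f : ℍ → ℂ) ∣[(2 : ℤ)] ModularGroup.S) z =
        -(p : ℂ)⁻¹ * (CuspForm.heckeULin (N := p) (p := p) 2 (dvd_refl p) f) (affH 1 0 p z))
    (hUU : ∀ f : CuspForm (Gamma0 p) 2, CuspForm.heckeULin (N := p) (p := p) 2 (dvd_refl p)
      (CuspForm.heckeULin (N := p) (p := p) 2 (dvd_refl p) f) = f)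
    (F Ft : ℍ → ℂ) (c ct : ℕ → ℤ)
    (hF : Wt2Data p F Ft c ct) (M u₀ : ℤ)
    (hc0 : M ∣ c 0 - u₀) (hck : ∀ k, 1 ≤ k → M ∣ c k)
    (hct0 : M ∣ ct 0 - u₀) (hctk : ∀ k, 1 ≤ k → M ∣ ct k)
    (f : CuspForm (Gamma0 p) 2) (a : ℕ → ℤ) (ha : ∀ k, (qExpansion 1 f).coeff k = (a k : ℂ))
    (k : ℕ) : M ∣ ((p : ℤ) + 1) * u₀ * a k := by
  have hpc : (p : ℂ) ≠ 0 := by exact_mod_cast NeZero.ne p
  set g := CuspForm.heckeULin (N := p) (p := p) 2 (dvd_refl p) f with hg
  have hga : ∀ n, (qExpansion 1 g).coeff n = ((a (n * p) : ℤ) : ℂ) := fun n => by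
    rw [hg, tr4_coeff_U, ha]
  have haa : ∀ n, a (n * p * p) = a n := by
    intro n
    have h1 := tr4_coeff_U p g n
    rw [hUU f, hga, ha] at h1
    exact_mod_cast h1.symm
  have hGS : ∀ w, (((f : ℍ → ℂ) * F) ∣[(4 : ℤ)] ModularGroup.S) w =
      ((p : ℂ)⁻¹) ^ 2 * ((g : ℍ → ℂ) * Ft) (affH 1 0 p w) := by
    intro w
    rw [show (4 : ℤ) = 2 + 2 by norm_num, mul_slash_SL2, Pi.mul_apply, hAL f w, hF.slashS w,
      Pi.mul_apply]
    ring
  have hH0 : IsZeroAtImInfty ((g : ℍ → ℂ) * Ft) := tr4_zero_mul (tr4_zero p g) hF.nicet.2.2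
  have h1 := hTr ((f : ℍ → ℂ) * F) ((tr4_nice p f).mul hF.nice).2.1
    (fun γ hγ => by
      rw [show (4 : ℤ) = 2 + 2 by norm_num, mul_slash_SL2, tr4_inv p f γ hγ, hF.inv γ hγ])
    (tr4_zero_mul (tr4_zero p f) hF.nice.2.2)
    (by
      have e : (((f : ℍ → ℂ) * F) ∣[(4 : ℤ)] ModularGroup.S) =
          fun w => ((p : ℂ)⁻¹) ^ 2 * ((g : ℍ → ℂ) * Ft) (affH 1 0 p w) := funext hGS
      rw [e]
      have h2 : Filter.Tendsto (fun w => ((g : ℍ → ℂ) * Ft) (affH 1 0 p w)) atImInfty (nhds 0) :=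
        Filter.Tendsto.comp hH0 (tr4_tendsto_affH 1 0 p)
      have h3 := h2.const_mul (((p : ℂ)⁻¹) ^ 2)
      rw [mul_zero] at h3
      exact h3)
  have h2 := tr4_coeff p ((f : ℍ → ℂ) * F) ((g : ℍ → ℂ) * Ft) ((tr4_nice p f).mul hF.nice)
    ((tr4_nice p g).mul hF.nicet) (((p : ℂ)⁻¹) ^ 2)
    (fun z => by
      rw [← h1 z]
      congr 1
      exact Finset.sum_congr rfl fun b _ => by rw [hGS, tr4_affH_affH])
    k
  rw [tr4_coeff_mul (tr4_nice p f) hF.nice a c ha hF.coeff,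
    tr4_coeff_mul (tr4_nice p g) hF.nicet (fun n => a (n * p)) ct hga hF.coefft] at h2
  set A : ℤ := ∑ x ∈ Finset.HasAntidiagonal.antidiagonal k, a x.1 * c x.2 with hA
  set B : ℤ := ∑ x ∈ Finset.HasAntidiagonal.antidiagonal (p * k), a (x.1 * p) * ct x.2 with hB
  have h3 : (p : ℤ) * A + B = 0 := by
    have : ((p : ℂ)) * (A : ℂ) + (B : ℂ) = 0 := by
      have e : ((p : ℂ)) * (A : ℂ) + (B : ℂ) = p * ((A : ℂ) + ((p : ℂ)⁻¹) ^ 2 * p * (B : ℂ)) := by
        field_simp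
      rw [e, h2, mul_zero]
    exact_mod_cast this
  have h4 := tr4_conv M u₀ a c hc0 hck k
  have h5 := tr4_conv M u₀ (fun n => a (n * p)) ct hct0 hctk (p * k)
  rw [← hA] at h4
  rw [← hB, mul_comm p k, haa k] at h5
  have e : ((p : ℤ) + 1) * u₀ * a k = -((p : ℤ) * (A - u₀ * a k) + (B - u₀ * a k)) +
      ((p : ℤ) * A + B) := by ring
  rw [e, h3, add_zero]
  exact (dvd_add (Dvd.dvd.mul_left h4 _) h5).neg_right

end Fermat.Agent.S16
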