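import Mathlib
import Fermat.Agent.S16.Defs
import Fermat.Agent.S16.Eis
import Fermat.Agent.S16.Tr4
import Fermat.Agent.S16.Trace
import Fermat.Agent.S16.DualArith
import Fermat.Agent.S16.AL
import Fermat.Agent.S16.Res

/-!
# S16 (M8): a cusp form congruent to the Eisenstein series mod `m`
-/

set_option autoImplicit false

namespace Fermat.Agent.S16

open UpperHalfPlane ModularForm ModularCurve CuspForm CongruenceSubgroup EisensteinSeries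
open Fermat.Agent.S24 Fermat.Agent.S28
open scoped MatrixGroups Manifold Real

/-- `D⁻¹ (B - 24 f)` -/
noncomputable def arF (D : ℂ) (B f : ℍ → ℂ) : ℍ → ℂ := D⁻¹ • (B - (24 : ℂ) • f)

lemma arF_apply (D : ℂ) (B f : ℍ → ℂ) (z : ℍ) : arF D B f z = D⁻¹ * (B z - 24 * f z) := by
  simp [arF]

lemma arF_slash (D : ℂ) (B f : ℍ → ℂ) (γ : SL(2, ℤ)) (z : ℍ) :
    (arF D B f ∣[(2 : ℤ)] γ) z = D⁻¹ * ((B ∣[(2 : ℤ)] γ) z - 24 * (f ∣[(2 : ℤ)] γ) z) := by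
  simp only [ModularForm.SL_slash_apply, arF_apply]
  ring

lemma arF_nice (D : ℂ) {B f : ℍ → ℂ} (hB : IsNiceH 1 B) (hf : IsNiceH 1 f) :
    IsNiceH 1 (arF D B f) :=
  eis_nice_smul (eis_nice_sub hB (eis_nice_smul hf _)) _

lemma arF_coeff (D : ℂ) {B f : ℍ → ℂ} (hB : IsNiceH 1 B) (hf : IsNiceH 1 f) (n : ℕ) :
    (qExpansion 1 (arF D B f)).coeff n =
      D⁻¹ * ((qExpansion 1 B).coeff n - 24 * (qExpansion 1 f).coeff n) := by
  rw [arF, qExpansion_smul ((eis_nice_sub hB (eis_nice_smul hf _)).analyticAt one_pos),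
    qExpansion_sub (hB.analyticAt one_pos) ((eis_nice_smul hf _).analyticAt one_pos),
    qExpansion_smul (hf.analyticAt one_pos)]
  simp

theorem arith_data (p : ℕ) [Fact p.Prime]
    (hAL : ∀ (f : CuspForm (Gamma0 p) 2) (z : ℍ),
      ((f : ℍ → ℂ) ∣[(2 : ℤ)] ModularGroup.S) z =
        -(p : ℂ)⁻¹ * (CuspForm.heckeULin (N := p) (p := p) 2 (dvd_refl p) f) (affH 1 0 p z))
    (f : CuspForm (Gamma0 p) 2) (a : ℕ → ℤ) (ha : ∀ k, (qExpansion 1 f).coeff k = (a k : ℂ))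
    (D : ℤ) (hD : D ≠ 0) (c ct : ℕ → ℤ) (hc0 : D * c 0 = p - 1)
    (hck : ∀ k, 1 ≤ k → D * c k = 24 * (sigP p k - a k)) (hct0 : D * ct 0 = p - 1)
    (hctk : ∀ k, 1 ≤ k → D * ct k = 24 * (sigP p k - a (k * p))) :
    Wt2Data p (arF D (BN p) f)
      (arF D (BN p) (CuspForm.heckeULin (N := p) (p := p) 2 (dvd_refl p) f)) c ct := by
  have hD' : (D : ℂ) ≠ 0 := Int.cast_ne_zero.2 hD
  have ha0 : a 0 = 0 := by
    have h1 : (qExpansion 1 f).coeff 0 = 0 :=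
      CuspFormClass.qExpansion_coeff_zero f one_pos (tr4_one_mem p)
    rw [ha] at h1
    exact_mod_cast h1
  refine ⟨arF_nice _ (BN_nice p) (tr4_nice p f), arF_nice _ (BN_nice p) (tr4_nice p _), ?_, ?_,
    ?_, ?_⟩
  · intro γ hγ
    ext z
    rw [arF_slash, BN_slash p γ hγ, tr4_inv p f γ hγ, arF_apply]
  · intro z
    rw [arF_slash, BN_slash_S, hAL, arF_apply]
    ring
  · intro k
    rw [arF_coeff _ (BN_nice p) (tr4_nice p f), ha]
    rcases Nat.eq_zero_or_pos k with rfl | hk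
    · rw [BN_coeff_zero, ha0]
      have : ((D * c 0 : ℤ) : ℂ) = ((p - 1 : ℤ) : ℂ) := by rw [hc0]
      push_cast at this
      field_simp
      linear_combination -this
    · rw [BN_coeff p k hk]
      have : ((D * c k : ℤ) : ℂ) = ((24 * (sigP p k - a k) : ℤ) : ℂ) := by rw [hck k hk]
      push_cast at this
      field_simp
      linear_combination -this
  · intro k
    rw [arF_coeff _ (BN_nice p) (tr4_nice p _), tr4_coeff_U, ha]
    rcases Nat.eq_zero_or_pos k with rfl | hk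
    · rw [BN_coeff_zero, zero_mul, ha0]
      have : ((D * ct 0 : ℤ) : ℂ) = ((p - 1 : ℤ) : ℂ) := by rw [hct0]
      push_cast at this
      field_simp
      linear_combination -this
    · rw [BN_coeff p k hk]
      have : ((D * ct k : ℤ) : ℂ) = ((24 * (sigP p k - a (k * p)) : ℤ) : ℂ) := by rw [hctk k hk]
      push_cast at this
      field_simp
      linear_combination -this

theorem arith_key (p : ℕ) [Fact p.Prime]
    (hAL : ∀ (f : CuspForm (Gamma0 p) 2) (z : ℍ),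
      ((f : ℍ → ℂ) ∣[(2 : ℤ)] ModularGroup.S) z =
        -(p : ℂ)⁻¹ * (CuspForm.heckeULin (N := p) (p := p) 2 (dvd_refl p) f) (affH 1 0 p z))
    (hUU : ∀ f : CuspForm (Gamma0 p) 2, CuspForm.heckeULin (N := p) (p := p) 2 (dvd_refl p)
      (CuspForm.heckeULin (N := p) (p := p) 2 (dvd_refl p) f) = f)
    (m : ℤ) (f : CuspForm (Gamma0 p) 2) (a : ℕ → ℤ)
    (ha : ∀ k, (qExpansion 1 f).coeff k = (a k : ℂ)) (hcong : ∀ k, 1 ≤ k → m ∣ a k - sigP p k)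
    (ℓ : ℕ) (hℓ : ℓ.Prime) (s e : ℕ) (u₀ : ℤ) (hu : (p : ℤ) - 1 = (ℓ : ℤ) ^ s * u₀)
    (hu0 : ¬ (ℓ : ℤ) ∣ u₀) (hℓm : (ℓ : ℤ) ∣ m) (hdiv : (ℓ : ℤ) ^ (s + e) ∣ 24 * m) :
    ∃ (F Ft : ℍ → ℂ) (c ct : ℕ → ℤ), Wt2Data p F Ft c ct ∧ (ℓ : ℤ) ^ e ∣ c 0 - u₀ ∧
      (∀ k, 1 ≤ k → (ℓ : ℤ) ^ e ∣ c k) ∧ (ℓ : ℤ) ^ e ∣ ct 0 - u₀ ∧
      (∀ k, 1 ≤ k → (ℓ : ℤ) ^ e ∣ ct k) ∧ (ℓ : ℤ) ^ e ∣ (p : ℤ) + 1 := by
  have hp : p.Prime := Fact.out
  have hℓ' : Prime (ℓ : ℤ) := Nat.prime_iff_prime_int.1 hℓ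
  have h1 : ∀ k, 1 ≤ k → (ℓ : ℤ) ^ (s + e) ∣ 24 * (sigP p k - a k) := fun k hk =>
    hdiv.trans (mul_dvd_mul_left 24 ((dvd_sub_comm).1 (hcong k hk)))
  have h2 : ∀ k, 1 ≤ k → (ℓ : ℤ) ^ (s + e) ∣ 24 * (sigP p k - a (k * p)) := fun k hk => by
    have := hcong (k * p) (Nat.mul_pos hk hp.pos)
    rw [sigP_mul_self] at this
    exact hdiv.trans (mul_dvd_mul_left 24 ((dvd_sub_comm).1 this))
  choose! w hw using h1
  choose! wt hwt using h2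
  have hF := arith_data p hAL f a ha ((ℓ : ℤ) ^ s) (pow_ne_zero _ hℓ'.ne_zero)
    (fun k => if k = 0 then u₀ else (ℓ : ℤ) ^ e * w k)
    (fun k => if k = 0 then u₀ else (ℓ : ℤ) ^ e * wt k)
    (by rw [if_pos rfl, hu])
    (fun k hk => by rw [if_neg (by omega), hw k hk, pow_add]; ring)
    (by rw [if_pos rfl, hu])
    (fun k hk => by rw [if_neg (by omega), hwt k hk, pow_add]; ring)
  have c0 : (ℓ : ℤ) ^ e ∣ (fun k => if k = 0 then u₀ else (ℓ : ℤ) ^ e * w k) 0 - u₀ := by simp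
  have ck : ∀ k, 1 ≤ k → (ℓ : ℤ) ^ e ∣ (fun k => if k = 0 then u₀ else (ℓ : ℤ) ^ e * w k) k := by
    intro k hk
    simp only
    rw [if_neg (by omega)]
    exact dvd_mul_right _ _
  have ct0 : (ℓ : ℤ) ^ e ∣ (fun k => if k = 0 then u₀ else (ℓ : ℤ) ^ e * wt k) 0 - u₀ := by simp
  have ctk : ∀ k, 1 ≤ k →
      (ℓ : ℤ) ^ e ∣ (fun k => if k = 0 then u₀ else (ℓ : ℤ) ^ e * wt k) k := by
    intro k hk
    simp only
    rw [if_neg (by omega)]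
    exact dvd_mul_right _ _
  refine ⟨_, _, _, _, hF, c0, ck, ct0, ctk, ?_⟩
  have h3 := dvd_succ_mul_of p
    (fun G hG hinv h0 h1 z => trace_zero p 4 (by norm_num) G hG hinv h0 h1 z) hAL hUU _ _ _ _ hF
    ((ℓ : ℤ) ^ e) u₀ c0 ck ct0 ctk f a ha 1
  have ha1 : ¬ (ℓ : ℤ) ∣ a 1 := by
    intro h
    have h4 := hℓm.trans (hcong 1 le_rfl)
    rw [dual_sigP_one p hp] at h4
    have := (dvd_sub_right h).1 h4
    exact hℓ'.not_isUnit (isUnit_of_dvd_one this)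
  have hcop : IsCoprime ((ℓ : ℤ) ^ e) (u₀ * a 1) := by
    apply IsCoprime.pow_left
    rw [Prime.coprime_iff_not_dvd hℓ']
    intro h
    rcases hℓ'.dvd_or_dvd h with h | h
    · exact hu0 h
    · exact ha1 h
  rw [mul_assoc] at h3
  exact hcop.dvd_of_dvd_mul_right h3

lemma arith_dvd_twelve (p : ℕ) : p - 1 ∣ 12 * eisensteinNumerator p := by
  rw [eisensteinNumerator]
  obtain ⟨t, ht⟩ := Nat.gcd_dvd_right (p - 1) 12
  have h1 : Nat.gcd (p - 1) 12 * ((p - 1) / Nat.gcd (p - 1) 12) = p - 1 :=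
    Nat.mul_div_cancel' (Nat.gcd_dvd_left _ _)
  refine ⟨t, ?_⟩
  calc 12 * ((p - 1) / Nat.gcd (p - 1) 12)
      = (Nat.gcd (p - 1) 12 * t) * ((p - 1) / Nat.gcd (p - 1) 12) := by rw [← ht]
    _ = (Nat.gcd (p - 1) 12 * ((p - 1) / Nat.gcd (p - 1) 12)) * t := by ring
    _ = (p - 1) * t := by rw [h1]

theorem dvd_of_congruent_of (p : ℕ) [Fact p.Prime]
    (hAL : ∀ (f : CuspForm (Gamma0 p) 2) (z : ℍ),
      ((f : ℍ → ℂ) ∣[(2 : ℤ)] ModularGroup.S) z =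
        -(p : ℂ)⁻¹ * (CuspForm.heckeULin (N := p) (p := p) 2 (dvd_refl p) f) (affH 1 0 p z))
    (hUU : ∀ f : CuspForm (Gamma0 p) 2, CuspForm.heckeULin (N := p) (p := p) 2 (dvd_refl p)
      (CuspForm.heckeULin (N := p) (p := p) 2 (dvd_refl p) f) = f)
    (hRes : ∀ (r ℓ : ℕ) [Fact r.Prime] [Fact ℓ.Prime]
      (_ : r = 2 ∨ r = 3) (_ : p ≠ r) (_ : ℓ ≠ p) (_ : ℓ ≠ r)
      (F Ft : ℍ → ℂ) (c ct : ℕ → ℤ) (_ : Wt2Data p F Ft c ct)
      (e μ A : ℕ) (_ : 24 = ℓ ^ μ * A) (_ : ¬ ℓ ∣ A) (_ : ℓ ^ (μ + 1) ∣ (r - 1) * ℓ ^ e)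
      (_ : ℓ ^ e ∣ p + 1) (u₀ : ℤ) (_ : ¬ (ℓ : ℤ) ∣ u₀)
      (_ : (ℓ : ℤ) ^ e ∣ c 0 - u₀) (_ : ∀ k, 1 ≤ k → (ℓ : ℤ) ^ e ∣ c k)
      (_ : (ℓ : ℤ) ^ e ∣ ct 0 - u₀) (_ : ∀ k, 1 ≤ k → (ℓ : ℤ) ^ e ∣ ct k), False)
    (m : ℤ) (f : CuspForm (Gamma0 p) 2) (a : ℕ → ℤ)
    (ha : ∀ k, (qExpansion 1 f).coeff k = (a k : ℂ)) (hcong : ∀ k, 1 ≤ k → m ∣ a k - sigP p k) :
    m ∣ ((eisensteinNumerator p : ℕ) : ℤ) := by
  have hp : p.Prime := Fact.out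
  have hp2 := hp.two_le
  have h12 := arith_dvd_twelve p
  set n := eisensteinNumerator p with hn
  rw [← Int.natAbs_dvd_natAbs, Int.natAbs_natCast, Nat.dvd_iff_prime_pow_dvd_dvd]
  intro ℓ j hℓ hj
  have hjm : (ℓ : ℤ) ^ j ∣ m := by
    rw [← Int.natAbs_dvd_natAbs, Int.natAbs_pow, Int.natAbs_natCast]
    exact hj
  rcases Nat.eq_zero_or_pos j with rfl | hj0
  · simp
  have hℓm : (ℓ : ℤ) ∣ m := (dvd_pow_self _ hj0.ne').trans hjm
  obtain ⟨s, u₀, hu0, hu⟩ := Nat.exists_eq_pow_mul_and_not_dvd (n := p - 1) (by omega) ℓ hℓ.ne_one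
  have hu' : (p : ℤ) - 1 = (ℓ : ℤ) ^ s * (u₀ : ℤ) := by
    have : p = ℓ ^ s * u₀ + 1 := by omega
    rw [this]
    push_cast
    ring
  have hu0' : ¬ (ℓ : ℤ) ∣ (u₀ : ℤ) := fun h => hu0 (Int.natCast_dvd_natCast.1 h)
  have key := fun e he => arith_key p hAL hUU m f a ha hcong ℓ hℓ s e u₀ hu' hu0' hℓm he
  have hs : ℓ ^ s ∣ p - 1 := ⟨u₀, hu⟩
  have _ : Fact ℓ.Prime := ⟨hℓ⟩
  have _ : Fact (Nat.Prime 2) := ⟨Nat.prime_two⟩
  have _ : Fact (Nat.Prime 3) := ⟨Nat.prime_three⟩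
  have cast : ∀ e, (ℓ : ℤ) ^ e ∣ (p : ℤ) + 1 → ℓ ^ e ∣ p + 1 := fun e h =>
    Int.natCast_dvd_natCast.1 (by exact_mod_cast h)
  by_cases h2 : ℓ = 2
  · subst h2
    obtain ⟨m', rfl⟩ := hℓm
    rcases Nat.lt_or_ge s 2 with hs2 | hs2
    · exfalso
      interval_cases s
      · obtain ⟨F, Ft, c, ct, hF, c0, ck, ct0, ctk, hp1⟩ := key 1 ⟨12 * ((2 : ℕ) * m'), by
          push_cast; ring⟩
        have := cast 1 hp1
        rw [pow_zero, one_mul] at hu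
        omega
      · obtain ⟨F, Ft, c, ct, hF, c0, ck, ct0, ctk, hp1⟩ := key 3 ⟨3 * m', by push_cast; ring⟩
        have h8 := cast 3 hp1
        refine hRes 3 2 (Or.inr rfl) ?_ ?_ (by norm_num) F Ft c ct hF 3 3 3 (by norm_num)
          (by norm_num) (by norm_num) h8 u₀ hu0' c0 ck ct0 ctk
        · rintro rfl
          norm_num at h8
        · rintro rfl
          norm_num at h8
    · have hjs : j + 2 ≤ s := by
        by_contra hcon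
        have h1 : ((2 : ℕ) : ℤ) ^ (s - 1) ∣ ((2 : ℕ) : ℤ) * m' :=
          (pow_dvd_pow _ (by omega)).trans hjm
        obtain ⟨t, ht⟩ := h1
        obtain ⟨F, Ft, c, ct, hF, c0, ck, ct0, ctk, hp1⟩ := key 2 ⟨3 * t, by
          rw [ht, show s + 2 = (s - 1) + 3 by omega, pow_add]
          push_cast
          ring⟩
        have h4 := cast 2 hp1
        have h4' : 2 ^ 2 ∣ p - 1 := (pow_dvd_pow _ hs2).trans hs
        omega
      have h1 : 2 ^ (j + 2) ∣ 12 * n := ((pow_dvd_pow _ hjs).trans hs).trans h12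
      have h3 : 2 ^ j ∣ 3 * n := by
        rw [pow_add, show 12 * n = (3 * n) * 2 ^ 2 by ring] at h1
        exact Nat.dvd_of_mul_dvd_mul_right (by norm_num) h1
      exact (Nat.Coprime.pow_left j (by norm_num : Nat.Coprime 2 3)).dvd_of_dvd_mul_left h3
  by_cases h3 : ℓ = 3
  · subst h3
    obtain ⟨m', rfl⟩ := hℓm
    rcases Nat.lt_or_ge s 1 with hs1 | hs1
    · exfalso
      interval_cases s
      obtain ⟨F, Ft, c, ct, hF, c0, ck, ct0, ctk, hp1⟩ := key 2 ⟨8 * m', by push_cast; ring⟩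
      have h9 := cast 2 hp1
      refine hRes 2 3 (Or.inl rfl) ?_ ?_ (by norm_num) F Ft c ct hF 2 1 8 (by norm_num)
        (by norm_num) (by norm_num) h9 u₀ hu0' c0 ck ct0 ctk
      · rintro rfl
        norm_num at h9
      · rintro rfl
        norm_num at h9
    · have hjs : j + 1 ≤ s := by
        by_contra hcon
        have h1 : ((3 : ℕ) : ℤ) ^ s ∣ ((3 : ℕ) : ℤ) * m' :=
          (pow_dvd_pow _ (by omega)).trans hjm
        obtain ⟨t, ht⟩ := h1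
        obtain ⟨F, Ft, c, ct, hF, c0, ck, ct0, ctk, hp1⟩ := key 1 ⟨8 * t, by
          rw [ht, pow_add]
          push_cast
          ring⟩
        have h4 := cast 1 hp1
        have h4' : 3 ^ 1 ∣ p - 1 := (pow_dvd_pow _ hs1).trans hs
        omega
      have h1 : 3 ^ (j + 1) ∣ 12 * n := ((pow_dvd_pow _ hjs).trans hs).trans h12
      have h3 : 3 ^ j ∣ 4 * n := by
        rw [pow_add, show 12 * n = (4 * n) * 3 ^ 1 by ring] at h1
        exact Nat.dvd_of_mul_dvd_mul_right (by norm_num) h1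
      exact (Nat.Coprime.pow_left j (by norm_num : Nat.Coprime 3 4)).dvd_of_dvd_mul_left h3
  · have h24 : ¬ ℓ ∣ 24 := by
      intro h
      have : ℓ ∣ 2 ^ 3 * 3 := by norm_num; exact h
      rcases (Nat.Prime.dvd_mul hℓ).1 this with h | h
      · exact h2 ((Nat.prime_dvd_prime_iff_eq hℓ Nat.prime_two).1 (hℓ.dvd_of_dvd_pow h))
      · exact h3 ((Nat.prime_dvd_prime_iff_eq hℓ Nat.prime_three).1 h)
    have hjs : j ≤ s := by
      by_contra hcon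
      have h1 : (ℓ : ℤ) ^ (s + 1) ∣ m := (pow_dvd_pow _ (by omega)).trans hjm
      obtain ⟨F, Ft, c, ct, hF, c0, ck, ct0, ctk, hp1⟩ := key 1 (h1.trans (dvd_mul_left _ _))
      have hℓ1 := cast 1 hp1
      refine hRes 2 ℓ (Or.inl rfl) ?_ ?_ h2 F Ft c ct hF 1 0 24 (by norm_num) h24 (by norm_num)
        hℓ1 u₀ hu0' c0 ck ct0 ctk
      · rintro rfl
        rw [pow_one] at hℓ1
        exact h3 ((Nat.prime_dvd_prime_iff_eq hℓ Nat.prime_three).1 hℓ1)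
      · rintro rfl
        rw [pow_one] at hℓ1
        exact hℓ.one_lt.ne' (Nat.dvd_one.1 ((Nat.dvd_add_right (dvd_refl ℓ)).1 hℓ1))
    have h1 : ℓ ^ j ∣ 12 * n := ((pow_dvd_pow _ hjs).trans hs).trans h12
    have hc : Nat.Coprime ℓ 12 := by
      rw [Nat.Prime.coprime_iff_not_dvd hℓ]
      exact fun h => h24 (h.trans (by norm_num))
    exact (Nat.Coprime.pow_left j hc).dvd_of_dvd_mul_left h1

theorem dvd_of_congruent (p : ℕ) [Fact p.Prime] (m : ℤ) (f : CuspForm (Gamma0 p) 2) (a : ℕ → ℤ)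
    (ha : ∀ k, (qExpansion 1 f).coeff k = (a k : ℂ)) (hcong : ∀ k, 1 ≤ k → m ∣ a k - sigP p k) :
    m ∣ ((eisensteinNumerator p : ℕ) : ℤ) :=
  dvd_of_congruent_of p (AL_slash_S p) (AL_U_sq p)
    (fun r ℓ _ _ hr hpr hℓp hℓr F Ft c ct hF e μ A h24 hA he hp1 u₀ hu hc0 hck hct0 hctk =>
      res_false p r ℓ hr hpr hℓp hℓr F Ft c ct hF e μ A h24 hA he hp1 u₀ hu hc0 hck hct0 hctk)
    m f a ha hcong

end Fermat.Agent.S16
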