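import Mathlib

/-!
# S16 (M2), abstract part: a duality lemma for lattices
-/

set_option autoImplicit false

namespace Fermat.Agent.S16

open Module

theorem dual_finrank_dual (Λ : Type*) [AddCommGroup Λ] [Module.Free ℤ Λ] [Module.Finite ℤ Λ] :
    finrank ℤ (Dual ℤ Λ) = finrank ℤ Λ := by
  have := Module.finrank_linearMap ℤ ℤ Λ ℤ
  rw [finrank_self, mul_one] at this
  exact this

theorem dual_abstract {Λ R : Type*} [AddCommGroup Λ] [Module.Free ℤ Λ] [Module.Finite ℤ Λ]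
    [AddCommGroup R] (Ψ : R →ₗ[ℤ] Dual ℤ Λ)
    (h1 : ∀ f : Λ, (∀ P, Ψ P f = 0) → f = 0)
    (h2 : ∀ (f : Λ) (N : ℤ), N ≠ 0 → (∀ P, N ∣ Ψ P f) → ∃ f₁ : Λ, f = N • f₁)
    (χ : R →ₗ[ℤ] ℤ) (m : ℤ) (h3 : ∀ P, Ψ P = 0 → m ∣ χ P) :
    ∃ f : Λ, ∀ P, m ∣ Ψ P f - χ P := by
  classical
  set M : Submodule ℤ (Dual ℤ Λ) := LinearMap.range Ψ with hM
  let b := Module.Free.chooseBasis ℤ M
  have hP : ∀ i, ∃ P, Ψ P = (b i : Dual ℤ Λ) := fun i => (b i).2
  choose Pi hPi using hP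
  let μ : M →ₗ[ℤ] ℤ := b.constr ℤ (fun i => χ (Pi i))
  have hμ : ∀ i, μ (b i) = χ (Pi i) := fun i => b.constr_basis ℤ _ i
  -- first claim
  have c1 : ∀ P, m ∣ μ ⟨Ψ P, LinearMap.mem_range_self Ψ P⟩ - χ P := by
    intro P
    set x : M := ⟨Ψ P, LinearMap.mem_range_self Ψ P⟩ with hx
    have e1 : x = ∑ i, b.repr x i • b i := (b.sum_repr x).symm
    have e2 : Ψ (∑ i, b.repr x i • Pi i) = Ψ P := by
      rw [map_sum]
      have e3 := congrArg (Subtype.val) e1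
      rw [AddSubmonoidClass.coe_finsetSum] at e3
      simp only [map_smul, hPi]
      exact e3.symm
    have e4 := h3 (P - ∑ i, b.repr x i • Pi i) (by rw [map_sub, e2, sub_self])
    have e5 : μ x = ∑ i, b.repr x i • χ (Pi i) := by
      conv_lhs => rw [e1]
      rw [map_sum]
      simp only [map_smul, hμ]
    rw [map_sub, map_sum] at e4
    simp only [map_smul] at e4
    rw [e5, ← dvd_neg, neg_sub]
    exact e4
  -- second claim
  let ι : Λ →ₗ[ℤ] Dual ℤ M := M.subtype.dualMap ∘ₗ Dual.eval ℤ Λ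
  have hι : ∀ (f : Λ) (x : M), ι f x = (x : Dual ℤ Λ) f := fun f x => rfl
  have hinj : Function.Injective ι := by
    rw [injective_iff_map_eq_zero]
    intro f hf
    apply h1
    intro P
    have := hι f ⟨Ψ P, LinearMap.mem_range_self Ψ P⟩
    rw [hf] at this
    exact this.symm
  have r1 : finrank ℤ (Dual ℤ M) ≤ finrank ℤ (LinearMap.range ι) := by
    rw [LinearMap.finrank_range_of_inj hinj, dual_finrank_dual, ← dual_finrank_dual Λ]
    exact Submodule.finrank_le M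
  have r2 := Submodule.finrank_quotient_add_finrank (LinearMap.range ι)
  have r3 : finrank ℤ (Dual ℤ M ⧸ LinearMap.range ι) = 0 := by omega
  rw [Module.finrank_eq_zero_iff_isTorsion] at r3
  obtain ⟨⟨N, hN⟩, hNμ⟩ := @r3 (Submodule.Quotient.mk μ)
  have hN0 : N ≠ 0 := nonZeroDivisors.ne_zero hN
  change N • (Submodule.Quotient.mk μ : Dual ℤ M ⧸ LinearMap.range ι) = 0 at hNμ
  rw [← Submodule.Quotient.mk_smul, Submodule.Quotient.mk_eq_zero] at hNμ
  obtain ⟨f₀, hf₀⟩ := hNμ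
  have d1 : ∀ x : M, (x : Dual ℤ Λ) f₀ = N * μ x := by
    intro x
    rw [← hι, hf₀]
    rfl
  obtain ⟨f₁, rfl⟩ := h2 f₀ N hN0 fun P => ⟨_, d1 ⟨Ψ P, LinearMap.mem_range_self Ψ P⟩⟩
  refine ⟨f₁, fun P => ?_⟩
  have d2 := d1 ⟨Ψ P, LinearMap.mem_range_self Ψ P⟩
  rw [map_smul, smul_eq_mul] at d2
  have d3 := mul_left_cancel₀ hN0 d2
  change Ψ P f₁ = _ at d3
  rw [d3]
  exact c1 P

end Fermat.Agent.S16
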