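import Mathlib
import Fermat.Agent.S16.Defs
import Fermat.Agent.S16.DualAbs
import Fermat.Agent.S16.DualArith
import Fermat.Agent.S49.Forms
import Fermat.Agent.S23

/-!
# S16 (M2): duality between the Hecke algebra and the cusp forms
-/

set_option autoImplicit false

namespace Fermat.Agent.S16

open UpperHalfPlane ModularForm ModularCurve CuspForm CongruenceSubgroup EisensteinSeries
open ModularFormClass
open Fermat.Agent.S24
open scoped MatrixGroups Manifold

open P2MW.S_CuspForm_intLattice_fg.W3WsD (hΓ qCoeff_add qCoeff_zsmul mem_intLattice_iff)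

/-- the `n`-th coefficient of an element of the integral lattice, as an integer -/
noncomputable def dualC0 (p : ℕ) (f : ↥(intLattice p 2)) (n : ℕ) : ℤ :=
  ((mem_intLattice_iff (f : CuspForm (Gamma0 p) 2)).1 f.2 n).choose

lemma dualC0_spec (p : ℕ) (f : ↥(intLattice p 2)) (n : ℕ) :
    qCoeff ⇑(f : CuspForm (Gamma0 p) 2) n = (dualC0 p f n : ℂ) :=
  ((mem_intLattice_iff (f : CuspForm (Gamma0 p) 2)).1 f.2 n).choose_spec

/-- the `n`-th coefficient, as a linear form on the integral lattice -/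
noncomputable def dualC (p : ℕ) (n : ℕ) : ↥(intLattice p 2) →ₗ[ℤ] ℤ where
  toFun f := dualC0 p f n
  map_add' f g := by
    have : ((dualC0 p (f + g) n : ℤ) : ℂ) = ((dualC0 p f n + dualC0 p g n : ℤ) : ℂ) := by
      rw [Int.cast_add, ← dualC0_spec, ← dualC0_spec, ← dualC0_spec, Submodule.coe_add,
        qCoeff_add]
    exact_mod_cast this
  map_smul' c f := by
    have : ((dualC0 p (c • f) n : ℤ) : ℂ) = ((c * dualC0 p f n : ℤ) : ℂ) := by
      rw [Int.cast_mul, ← dualC0_spec, ← dualC0_spec, Submodule.coe_smul, qCoeff_zsmul]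
    simpa using (by exact_mod_cast this : dualC0 p (c • f) n = c * dualC0 p f n)

lemma dualC_spec (p : ℕ) (f : ↥(intLattice p 2)) (n : ℕ) :
    qCoeff ⇑(f : CuspForm (Gamma0 p) 2) n = (dualC p n f : ℂ) := dualC0_spec p f n

/-- the action of the Hecke polynomials on the integral lattice -/
noncomputable def dualAct (p : ℕ) [NeZero p] : HeckeAlg →+* Module.End ℤ ↥(intLattice p 2) :=
  (latticeActionHom p ∅).comp (heckeEvalForms p 2)

lemma dualAct_coe (p : ℕ) [NeZero p] (P : HeckeAlg) (f : ↥(intLattice p 2)) :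
    ((dualAct p P f : ↥(intLattice p 2)) : CuspForm (Gamma0 p) 2) =
      ((heckeEvalForms p 2 P : heckeAlgebra p 2 ∅) : Module.End ℂ (CuspForm (Gamma0 p) 2))
        (f : CuspForm (Gamma0 p) 2) := rfl

lemma dualC_act_self (p : ℕ) [Fact p.Prime] (f : ↥(intLattice p 2)) (n : ℕ) :
    dualC p n (dualAct p (heckeGen ⟨p, Fact.out⟩) f) = dualC p (p * n) f := by
  have : ((dualC p n (dualAct p (heckeGen ⟨p, Fact.out⟩) f) : ℤ) : ℂ) = (dualC p (p * n) f : ℂ) := by
    rw [← dualC_spec, ← dualC_spec, dualAct_coe,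
      heckeEvalForms_heckeGen_of_dvd (q := ⟨p, Fact.out⟩) (dvd_refl p), heckeAlgebra.coe_U,
      Fermat.Agent.S49.qCoeff_heckeULin Fact.out]
  exact_mod_cast this

lemma dualC_act_of_ne (p : ℕ) [Fact p.Prime] (ℓ : ℕ) (hℓ : ℓ.Prime) (hne : ℓ ≠ p)
    (f : ↥(intLattice p 2)) (n : ℕ) :
    dualC p n (dualAct p (heckeGen ⟨ℓ, hℓ⟩) f) =
      dualC p (ℓ * n) f + ℓ * (if ℓ ∣ n then dualC p (n / ℓ) f else 0) := by
  have hnd : ¬ ℓ ∣ p := fun h => hne ((Nat.prime_dvd_prime_iff_eq hℓ Fact.out).1 h)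
  have : ((dualC p n (dualAct p (heckeGen ⟨ℓ, hℓ⟩) f) : ℤ) : ℂ) =
      ((dualC p (ℓ * n) f + ℓ * (if ℓ ∣ n then dualC p (n / ℓ) f else 0) : ℤ) : ℂ) := by
    rw [← dualC_spec, dualAct_coe,
      heckeEvalForms_heckeGen_of_not_dvd (ℓ := ⟨ℓ, hℓ⟩) hnd, heckeAlgebra.coe_T,
      Fermat.Agent.S49.qCoeff_heckeTLin hℓ hnd]
    push_cast
    rw [← dualC_spec, ← dualC_spec]
    norm_num
  exact_mod_cast this

lemma dual_chi_heckeGen_self (p : ℕ) [Fact p.Prime] : chi p (heckeGen ⟨p, Fact.out⟩) = 1 := by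
  exact (aeval_heckeGen _ _).trans (eisensteinSystem_of_dvd (ℓ := ⟨p, Fact.out⟩) (dvd_refl p))

lemma dual_chi_heckeGen_of_ne (p : ℕ) [Fact p.Prime] (ℓ : ℕ) (hℓ : ℓ.Prime) (hne : ℓ ≠ p) :
    chi p (heckeGen ⟨ℓ, hℓ⟩) = 1 + ℓ := by
  have hnd : ¬ ℓ ∣ p := fun h => hne ((Nat.prime_dvd_prime_iff_eq hℓ Fact.out).1 h)
  exact (aeval_heckeGen _ _).trans (eisensteinSystem_of_not_dvd (ℓ := ⟨ℓ, hℓ⟩) hnd)

lemma dual_exists_P (p : ℕ) [Fact p.Prime] (n : ℕ) (hn : 1 ≤ n) :
    ∃ P : HeckeAlg, (∀ f : ↥(intLattice p 2), dualC p 1 (dualAct p P f) = dualC p n f) ∧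
      chi p P = sigP p n := by
  have hp : p.Prime := Fact.out
  induction n using Nat.strong_induction_on with
  | _ n ih =>
    rcases Nat.eq_or_lt_of_le hn with rfl | hn1
    · refine ⟨1, fun f => ?_, ?_⟩
      · rw [map_one, Module.End.one_apply]
      · rw [map_one, dual_sigP_one p hp]
    have hℓ : n.minFac.Prime := Nat.minFac_prime hn1.ne'
    obtain ⟨n', hn'⟩ := Nat.minFac_dvd n
    set ℓ := n.minFac with hℓdef
    have hn'0 : 0 < n' := by
      rcases Nat.eq_zero_or_pos n' with h | h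
      · rw [h, mul_zero] at hn'
        omega
      · exact h
    have hn'lt : n' < n := by
      rw [hn']
      exact lt_mul_of_one_lt_left hn'0 hℓ.one_lt
    obtain ⟨P', hP', hχ'⟩ := ih n' hn'lt hn'0
    by_cases hne : ℓ = p
    · refine ⟨P' * heckeGen ⟨p, Fact.out⟩, fun f => ?_, ?_⟩
      · rw [map_mul, Module.End.mul_apply, hP', dualC_act_self, hn', hne]
      · rw [map_mul, hχ', dual_chi_heckeGen_self, mul_one, hn', hne, dual_sigP_self_mul p hp]
    · have key := dual_sigP_mul p ℓ hp hℓ hne n' hn'0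
      by_cases hd : ℓ ∣ n'
      · have h2 : n' / ℓ < n := lt_of_le_of_lt (Nat.div_le_self _ _) hn'lt
        have h3 : 1 ≤ n' / ℓ := Nat.div_pos (Nat.le_of_dvd hn'0 hd) hℓ.pos
        obtain ⟨P'', hP'', hχ''⟩ := ih (n' / ℓ) h2 h3
        refine ⟨P' * heckeGen ⟨ℓ, hℓ⟩ - (ℓ : HeckeAlg) * P'', fun f => ?_, ?_⟩
        · rw [map_sub, map_mul, map_mul, LinearMap.sub_apply, Module.End.mul_apply,
            Module.End.mul_apply, map_sub, hP', dualC_act_of_ne p ℓ hℓ hne, if_pos hd, map_natCast,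
            Module.End.natCast_apply, map_nsmul, hP'', ← hn']
          simp
        · rw [if_pos hd] at key
          rw [map_sub, map_mul, map_mul, hχ', hχ'', dual_chi_heckeGen_of_ne p ℓ hℓ hne, map_natCast,
            hn']
          linarith
      · refine ⟨P' * heckeGen ⟨ℓ, hℓ⟩, fun f => ?_, ?_⟩
        · rw [map_mul, Module.End.mul_apply, hP', dualC_act_of_ne p ℓ hℓ hne, if_neg hd, ← hn']
          simp
        · rw [if_neg hd] at key
          rw [map_mul, hχ', dual_chi_heckeGen_of_ne p ℓ hℓ hne, hn']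
          linarith

/-- the pairing `(P, f) ↦ a₁(P f)` -/
noncomputable def dualPsi (p : ℕ) [NeZero p] :
    HeckeAlg →ₗ[ℤ] Module.Dual ℤ ↥(intLattice p 2) where
  toFun P := (dualC p 1).comp (dualAct p P)
  map_add' P Q := by
    ext f
    simp
  map_smul' c P := by
    ext f
    simp

lemma dualPsi_apply (p : ℕ) [NeZero p] (P : HeckeAlg) (f : ↥(intLattice p 2)) :
    dualPsi p P f = dualC p 1 (dualAct p P f) := rfl

lemma dual_eq_zero (p : ℕ) [NeZero p] (f : ↥(intLattice p 2))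
    (h : ∀ n, 1 ≤ n → dualC p n f = 0) : f = 0 := by
  apply Subtype.ext
  rw [Submodule.coe_zero]
  apply Fermat.Agent.S49.eq_zero_of_qCoeff
  intro n
  rcases Nat.eq_zero_or_pos n with rfl | hn
  · exact Fermat.Agent.S49.qCoeff_zero_eq_zero _
  · rw [dualC_spec, h n hn, Int.cast_zero]

lemma dual_exists_smul (p : ℕ) [NeZero p] (f : ↥(intLattice p 2)) (N : ℤ) (hN : N ≠ 0)
    (h : ∀ n, 1 ≤ n → N ∣ dualC p n f) : ∃ f₁ : ↥(intLattice p 2), f = N • f₁ := by
  have hN' : (N : ℂ) ≠ 0 := Int.cast_ne_zero.2 hN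
  refine ⟨⟨((N : ℂ)⁻¹) • (f : CuspForm (Gamma0 p) 2), ?_⟩, ?_⟩
  · rw [mem_intLattice_iff]
    intro n
    rcases Nat.eq_zero_or_pos n with rfl | hn
    · exact ⟨0, by rw [Fermat.Agent.S49.qCoeff_zero_eq_zero, Int.cast_zero]⟩
    · obtain ⟨m, hm⟩ := h n hn
      refine ⟨m, ?_⟩
      rw [Fermat.Agent.S49.qCoeff_smul', dualC_spec, hm]
      push_cast
      field_simp
  · apply Subtype.ext
    rw [Submodule.coe_smul]
    change (f : CuspForm (Gamma0 p) 2) = N • (((N : ℂ)⁻¹) • (f : CuspForm (Gamma0 p) 2))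
    rw [← Int.cast_smul_eq_zsmul ℂ, smul_smul, mul_inv_cancel₀ hN', one_smul]

theorem exists_congruent_form (p : ℕ) [Fact p.Prime] (m : ℤ)
    (hm : ∀ P : HeckeAlg, heckeEvalForms p 2 P = 0 → m ∣ chi p P) :
    ∃ (f : CuspForm (Gamma0 p) 2) (a : ℕ → ℤ), (∀ k, (qExpansion 1 f).coeff k = (a k : ℂ)) ∧
      ∀ k, 1 ≤ k → m ∣ a k - sigP p k := by
  have _ := intLattice.moduleFinite p
  have _ := intLattice.moduleFree p
  choose! Pn hPn hχn using dual_exists_P p
  obtain ⟨f, hf⟩ := dual_abstract (dualPsi p)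
    (fun f h => dual_eq_zero p f fun n hn => by
      rw [← hPn n hn, ← dualPsi_apply]
      exact h _)
    (fun f N hN h => dual_exists_smul p f N hN fun n hn => by
      rw [← hPn n hn, ← dualPsi_apply]
      exact h _)
    (chi p).toLinearMap m
    (fun P hP => by
      apply hm
      apply latticeRestrict_injective p ∅ (Fermat.Agent.S23.result p)
      ext1 f
      apply dual_eq_zero
      intro n hn
      change dualC p n (dualAct p P f) = 0
      rw [← hPn n hn, ← Module.End.mul_apply, ← map_mul, mul_comm, map_mul, Module.End.mul_apply,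
        ← dualPsi_apply, hP, LinearMap.zero_apply])
  refine ⟨(f : CuspForm (Gamma0 p) 2), fun k => dualC p k f, fun k => dualC_spec p f k, ?_⟩
  intro k hk
  have := hf (Pn k)
  rwa [dualPsi_apply, hPn k hk, AlgHom.toLinearMap_apply, hχn k hk] at this

end Fermat.Agent.S16
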