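import Mathlib
import Fermat.Agent.S21.Shapiro

/-!
# S16 (M11), abstract part: surjectivity onto the Scott cocycles, cocycles with general coefficients
-/

set_option autoImplicit false
set_option linter.unusedSectionVars false

namespace Fermat.Agent.S16

open Fermat.Agent.X0 Fermat.Agent.S21 Module

section Surj

variable {G : Type*} [Group G] (H : Subgroup G) (K : Type*) [Field K]
variable [Finite (G ⧸ H)] (a b : G) (hgen : Subgroup.closure ({a, b} : Set G) = ⊤)

include hgen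

/-- if the dimension bound of `sh_finrank_le` is an equality, every Scott cocycle comes from `W` -/
theorem lift_surj {W : Type*} [AddCommGroup W] [Module K W] (ι : W →ₗ[K] (Additive H →+ K))
    (hι : ∀ w, ι w = 0 → w = 0)
    (ha : ∀ w, shC H K a (ι w) ∈ LinearMap.range (1 - shP H K a))
    (hb : ∀ w, shC H K b (ι w) ∈ LinearMap.range (1 - shP H K b))
    (hab : ∀ w, shC H K (a * b) (ι w) ∈ LinearMap.range (1 - shP H K (a * b)))
    (hdim : Nat.card (G ⧸ H) + 2 ≤
      finrank K W + Nat.card (MulAction.orbitRel.Quotient (Subgroup.zpowers a) (G ⧸ H)) +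
        Nat.card (MulAction.orbitRel.Quotient (Subgroup.zpowers b) (G ⧸ H)) +
        Nat.card (MulAction.orbitRel.Quotient (Subgroup.zpowers (a * b)) (G ⧸ H)))
    (x y : (G ⧸ H) → K) (hx : x ∈ LinearMap.range (1 - shP H K a))
    (hy : y ∈ LinearMap.range (1 - shP H K b))
    (hxy : x + shP H K a y ∈ LinearMap.range (1 - shP H K (a * b))) :
    ∃ (w : W) (m : (G ⧸ H) → K), shC' H K a (ι w, m) = x ∧ shC' H K b (ι w, m) = y := by
  classical
  have : Fintype (G ⧸ H) := Fintype.ofFinite _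
  have hfd : FiniteDimensional K W := (sh_finrank_le H K a b hgen ι hι ha hb hab).1
  let Ψ : (W × ((G ⧸ H) → K)) →ₗ[K] (((G ⧸ H) → K) × ((G ⧸ H) → K) × ((G ⧸ H) → K)) :=
    (LinearMap.prod (shC' H K a) (LinearMap.prod (shC' H K b) (shC' H K (a * b)))) ∘ₗ
      (LinearMap.prodMap ι LinearMap.id)
  have hΨ : ∀ p : W × ((G ⧸ H) → K), Ψ p = (shC' H K a (ι p.1, p.2),
      shC' H K b (ι p.1, p.2), shC' H K (a * b) (ι p.1, p.2)) :=
    fun p => rfl
  have hmem : ∀ (g : G) (p : W × ((G ⧸ H) → K)),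
      shC H K g (ι p.1) ∈ LinearMap.range (1 - shP H K g) →
      shC' H K g (ι p.1, p.2) ∈ LinearMap.range (1 - shP H K g) := by
    intro g p h
    rw [shC'_apply]
    exact Submodule.add_mem _ h ⟨p.2, rfl⟩
  have hran : LinearMap.range Ψ ≤ reeZ (shP H K a) (shP H K b) := by
    rintro _ ⟨p, rfl⟩
    rw [hΨ]
    refine ⟨hmem a p (ha _), hmem b p (hb _), ?_, ?_⟩
    · rw [← shP_mul]
      exact hmem (a * b) p (hab _)
    · exact (shC'_mul H K a b _).symm
  have hker : LinearMap.ker Ψ ≤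
      (LinearMap.ker (1 - shP H K a) ⊓ LinearMap.ker (1 - shP H K b)).map
        (LinearMap.inr K W ((G ⧸ H) → K)) := by
    intro p hp
    rw [LinearMap.mem_ker, hΨ] at hp
    have h1 := congrArg Prod.fst hp
    have h2 := congrArg (fun q => q.2.1) hp
    obtain ⟨h3, h4⟩ := sh_ker H K a b hgen (ι p.1, p.2) h1 h2
    refine ⟨p.2, h4, ?_⟩
    apply Prod.ext
    · exact (hι _ h3).symm
    · rfl
  have hle : finrank K (reeZ (shP H K a) (shP H K b)) ≤ finrank K (LinearMap.range Ψ) := by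
    have e1 := LinearMap.finrank_range_add_finrank_ker Ψ
    have e3 := Submodule.finrank_mono hker
    have e4 := Submodule.finrank_map_le (LinearMap.inr K W ((G ⧸ H) → K))
      (LinearMap.ker (1 - shP H K a) ⊓ LinearMap.ker (1 - shP H K b))
    have e5 := ree_finrank_inv_le K _ _ (sh_trans H a b hgen)
    have e6 := ree_card_le_finrank_sup K _ _ (sh_trans H a b hgen)
    have e7 := ree_finrank_Z_le (shP H K a) (shP H K b)
    rw [← shP_mul] at e7
    have e8 := ree_finrank_range K (MulAction.toPerm a : Equiv.Perm (G ⧸ H))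
    have e9 := ree_finrank_range K (MulAction.toPerm b : Equiv.Perm (G ⧸ H))
    have e10 := ree_finrank_range K (MulAction.toPerm (a * b) : Equiv.Perm (G ⧸ H))
    rw [Module.finrank_prod, Module.finrank_fintype_fun_eq_card] at e1
    have o1 : Nat.card (MulAction.orbitRel.Quotient (Subgroup.zpowers a) (G ⧸ H)) =
        reeOrb (MulAction.toPerm a : Equiv.Perm (G ⧸ H)) := ree_card_orbits_eq a
    have o2 : Nat.card (MulAction.orbitRel.Quotient (Subgroup.zpowers b) (G ⧸ H)) =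
        reeOrb (MulAction.toPerm b : Equiv.Perm (G ⧸ H)) := ree_card_orbits_eq b
    have o3 : Nat.card (MulAction.orbitRel.Quotient (Subgroup.zpowers (a * b)) (G ⧸ H)) =
        reeOrb (MulAction.toPerm (a * b) : Equiv.Perm (G ⧸ H)) := ree_card_orbits_eq (a * b)
    have o4 : Nat.card (G ⧸ H) = Fintype.card (G ⧸ H) := Nat.card_eq_fintype_card
    unfold shP at e3 e4 e7 ⊢
    omega
  have heq : LinearMap.range Ψ = reeZ (shP H K a) (shP H K b) :=
    Submodule.eq_of_le_of_finrank_le hran hle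
  have hmemZ : (x, y, x + shP H K a y) ∈ reeZ (shP H K a) (shP H K b) := by
    refine ⟨hx, hy, ?_, rfl⟩
    rw [← shP_mul]
    exact hxy
  rw [← heq] at hmemZ
  obtain ⟨p, hp⟩ := hmemZ
  rw [hΨ] at hp
  exact ⟨p.1, p.2, congrArg Prod.fst hp, congrArg (fun q => q.2.1) hp⟩

end Surj

section Cycle

/-- a function whose sums over all cycles of `σ` vanish is of the form `m - m ∘ σ` -/
theorem lift_cycle {X M : Type*} [Finite X] [AddCommGroup M] (σ : Equiv.Perm X) (f : X → M)
    (h : ∀ (x : X) (k : ℕ), (σ ^ k) x = x → ∑ i ∈ Finset.range k, f ((σ ^ i) x) = 0) :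
    ∃ m : X → M, ∀ x, m x - m (σ x) = f x := by
  classical
  let F : X → ℕ → M := fun x₀ j => ∑ i ∈ Finset.range j, f ((σ ^ i) x₀)
  have hinv0 : ∀ (x₀ : X) (j d : ℕ), (σ ^ j) x₀ = (σ ^ (j + d)) x₀ → F x₀ j = F x₀ (j + d) := by
    intro x₀ j d hjd
    have h1 : (σ ^ d) ((σ ^ j) x₀) = (σ ^ j) x₀ := by
      rw [← Equiv.Perm.mul_apply, ← pow_add, add_comm d j, ← hjd]
    have h2 := h _ d h1
    show F x₀ j = ∑ i ∈ Finset.range (j + d), f ((σ ^ i) x₀)
    rw [Finset.sum_range_add]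
    have h3 : ∑ i ∈ Finset.range d, f ((σ ^ (j + i)) x₀) = 0 := by
      rw [← h2]
      refine Finset.sum_congr rfl fun i _ => ?_
      rw [← Equiv.Perm.mul_apply, ← pow_add, add_comm i j]
    rw [h3, add_zero]
  have hinv : ∀ (x₀ : X) (j j' : ℕ), (σ ^ j) x₀ = (σ ^ j') x₀ → F x₀ j = F x₀ j' := by
    intro x₀ j j' hjj
    rcases le_total j j' with hle | hle
    · obtain ⟨d, rfl⟩ := Nat.exists_eq_add_of_le hle
      exact hinv0 x₀ j d hjj
    · obtain ⟨d, rfl⟩ := Nat.exists_eq_add_of_le hle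
      exact (hinv0 x₀ j' d hjj.symm).symm
  let r : X → X := fun x => Quotient.out (Quotient.mk (Equiv.Perm.SameCycle.setoid σ) x)
  have hr : ∀ x, σ.SameCycle (r x) x := fun x =>
    Quotient.exact (s := Equiv.Perm.SameCycle.setoid σ) (Quotient.out_eq _)
  have hrσ : ∀ x, r (σ x) = r x := by
    intro x
    have : Quotient.mk (Equiv.Perm.SameCycle.setoid σ) (σ x) =
        Quotient.mk (Equiv.Perm.SameCycle.setoid σ) x :=
      Quotient.sound (s := Equiv.Perm.SameCycle.setoid σ)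
        (Equiv.Perm.sameCycle_apply_left.mpr (Equiv.Perm.SameCycle.refl σ x))
    show Quotient.out _ = Quotient.out _
    rw [this]
  have hj : ∀ x, ∃ j : ℕ, (σ ^ j) (r x) = x := fun x => (hr x).exists_nat_pow_eq
  choose j hj using hj
  refine ⟨fun x => -F (r x) (j x), fun x => ?_⟩
  have h1 : (σ ^ (j (σ x))) (r x) = (σ ^ (j x + 1)) (r x) := by
    have := hj (σ x)
    rw [hrσ] at this
    rw [this, pow_succ', Equiv.Perm.mul_apply, hj]
  have h2 := hinv (r x) _ _ h1
  have h3 : F (r x) (j x + 1) = F (r x) (j x) + f x := by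
    show ∑ i ∈ Finset.range (j x + 1), f ((σ ^ i) (r x)) = _
    rw [Finset.sum_range_succ, hj]
  show -F (r x) (j x) - -F (r (σ x)) (j (σ x)) = f x
  rw [hrσ, h2, h3]
  abel

end Cycle

section Coeff

variable {G : Type*} [Group G] (H : Subgroup G) {A : Type*} [AddCommGroup A]

/-- the Shapiro cocycle with values in an arbitrary abelian group -/
noncomputable def liftC (ψ : Additive H →+ A) (g : G) (x : G ⧸ H) : A :=
  ψ (Additive.ofMul ⟨shK H g x, shK_mem H g x⟩)

lemma liftC_mul (ψ : Additive H →+ A) (g h : G) (x : G ⧸ H) :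
    liftC H ψ (g * h) x = liftC H ψ g x + liftC H ψ h (g⁻¹ • x) := by
  unfold liftC
  rw [← map_add, ← ofMul_mul]
  congr 2
  exact Subtype.ext (shK_mul H g h x)

lemma liftC_one (ψ : Additive H →+ A) (x : G ⧸ H) : liftC H ψ 1 x = 0 := by
  have h := liftC_mul H ψ 1 1 x
  rw [mul_one, inv_one, one_smul] at h
  exact left_eq_add.mp h

lemma liftC_inv (ψ : Additive H →+ A) (g : G) (x : G ⧸ H) :
    liftC H ψ g⁻¹ x = -liftC H ψ g (g • x) := by
  have h := liftC_mul H ψ g⁻¹ g x
  rw [inv_mul_cancel, liftC_one, inv_inv] at h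
  exact eq_neg_of_add_eq_zero_left h.symm

lemma liftC_base (ψ : Additive H →+ A) (h : H) :
    liftC H ψ (h : G) ((1 : G) : G ⧸ H) = ψ (Additive.ofMul h) := by
  have hfix : (h : G)⁻¹ • ((1 : G) : G ⧸ H) = ((1 : G) : G ⧸ H) := by
    have : (h : G)⁻¹ • ((1 : G) : G ⧸ H) = (((h : G)⁻¹ * 1 : G) : G ⧸ H) := rfl
    rw [this, QuotientGroup.eq]
    simp
  have hr : shRep H ((1 : G) : G ⧸ H) ∈ H := by
    have := shRep_mk H ((1 : G) : G ⧸ H)
    rw [QuotientGroup.eq] at this
    simpa using H.inv_mem this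
  unfold liftC
  have : (⟨shK H (h : G) ((1 : G) : G ⧸ H), shK_mem H _ _⟩ : H) =
      (⟨_, hr⟩ : H)⁻¹ * h * ⟨_, hr⟩ := by
    apply Subtype.ext
    simp only [shK, hfix, Subgroup.coe_mul, InvMemClass.coe_inv]
  rw [this, ofMul_mul, ofMul_mul, map_add, map_add, ofMul_inv, map_neg]
  abel

lemma liftC_pow (ψ : Additive H →+ A) (g : G) (k : ℕ) (x : G ⧸ H) :
    liftC H ψ (g ^ k) x = ∑ i ∈ Finset.range k, liftC H ψ g ((g⁻¹) ^ i • x) := by
  induction k with
  | zero => rw [pow_zero, liftC_one, Finset.range_zero, Finset.sum_empty]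
  | succ k ih => rw [pow_succ, liftC_mul, ih, Finset.sum_range_succ, inv_pow]

/-- if `ψ` kills all conjugates of powers of `g` lying in `H`, then `c_ψ(g) ∈ (1 - g) A^X` -/
theorem liftC_exists [Finite (G ⧸ H)] (ψ : Additive H →+ A) (g : G)
    (hkill : ∀ (a : G) (k : ℕ) (hm : a⁻¹ * g ^ k * a ∈ H), ψ (Additive.ofMul ⟨_, hm⟩) = 0) :
    ∃ m : G ⧸ H → A, ∀ x, m x - m (g⁻¹ • x) = liftC H ψ g x := by
  have hpow : ∀ (i : ℕ) (x : G ⧸ H),
      ((MulAction.toPerm g⁻¹ : Equiv.Perm (G ⧸ H)) ^ i) x = (g⁻¹) ^ i • x := by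
    intro i x
    induction i generalizing x with
    | zero => simp
    | succ i ih => rw [pow_succ, Equiv.Perm.mul_apply, ih, MulAction.toPerm_apply, pow_succ, mul_smul]
  refine lift_cycle (MulAction.toPerm g⁻¹ : Equiv.Perm (G ⧸ H)) (liftC H ψ g) fun x k hk => ?_
  simp only [hpow] at hk ⊢
  rw [← liftC_pow]
  have hfix : (g ^ k)⁻¹ • x = x := by rw [← inv_pow]; exact hk
  have hm : (shRep H x)⁻¹ * g ^ k * shRep H x ∈ H := by
    have := shK_mem H (g ^ k) x
    unfold shK at this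
    rwa [hfix] at this
  rw [← hkill (shRep H x) k hm]
  unfold liftC
  congr 2
  apply Subtype.ext
  simp only [shK, hfix]

end Coeff

section Aug

variable {G : Type*} [Group G] (H : Subgroup G) [Fintype (G ⧸ H)] (a b : G)
  (hgen : Subgroup.closure ({a, b} : Set G) = ⊤)

include hgen

/-- the augmentation ideal of `ℤ[X]` is `(1 - a) ℤ[X] + (1 - b) ℤ[X]` -/
theorem lift_aug (e : G ⧸ H → ℤ) (he : ∑ x, e x = 0) :
    ∃ u v : G ⧸ H → ℤ, ∀ x, e x = (u x - u (a⁻¹ • x)) + (v x - v (b⁻¹ • x)) := by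
  classical
  let W : AddSubgroup (G ⧸ H → ℤ) :=
    { carrier := {e | ∃ u v : G ⧸ H → ℤ, ∀ x, e x = (u x - u (a⁻¹ • x)) + (v x - v (b⁻¹ • x))}
      add_mem' := by
        rintro e e' ⟨u, v, h⟩ ⟨u', v', h'⟩
        refine ⟨u + u', v + v', fun x => ?_⟩
        simp only [Pi.add_apply, h, h']
        ring
      zero_mem' := ⟨0, 0, fun x => by simp⟩
      neg_mem' := by
        rintro e ⟨u, v, h⟩
        refine ⟨-u, -v, fun x => ?_⟩
        simp only [Pi.neg_apply, h]
        ring }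
  have hsingle : ∀ (g : G) (x y : G ⧸ H),
      (Pi.single x (1 : ℤ) : G ⧸ H → ℤ) (g⁻¹ • y) = (Pi.single (g • x) (1 : ℤ) : G ⧸ H → ℤ) y := by
    intro g x y
    rw [Pi.single_apply, Pi.single_apply]
    congr 1
    rw [eq_iff_iff, inv_smul_eq_iff]
  have hgen' : ∀ g ∈ ({a, b} : Set G), ∀ x : G ⧸ H,
      (Pi.single x 1 - Pi.single (g • x) 1 : G ⧸ H → ℤ) ∈ W := by
    rintro g (rfl | rfl) x
    · exact ⟨Pi.single x 1, 0, fun y => by simp [hsingle]⟩
    · exact ⟨0, Pi.single x 1, fun y => by simp [hsingle]⟩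
  have hall : ∀ g : G, ∀ x : G ⧸ H, (Pi.single x 1 - Pi.single (g • x) 1 : G ⧸ H → ℤ) ∈ W := by
    intro g
    have hg : g ∈ Subgroup.closure ({a, b} : Set G) := by rw [hgen]; trivial
    induction hg using Subgroup.closure_induction with
    | mem g hg => exact hgen' g hg
    | one => intro x; simp
    | mul g g' _ _ h1 h2 =>
      intro x
      have := W.add_mem (h2 x) (h1 (g' • x))
      rw [mul_smul]
      convert this using 1
      abel
    | inv g _ h1 =>
      intro x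
      have := W.neg_mem (h1 (g⁻¹ • x))
      rw [smul_inv_smul] at this
      convert this using 1
      abel
  have hx₀ : ∀ x : G ⧸ H,
      (Pi.single x 1 - Pi.single ((1 : G) : G ⧸ H) 1 : G ⧸ H → ℤ) ∈ W := by
    intro x
    obtain ⟨g, hg⟩ := MulAction.exists_smul_eq G x ((1 : G) : G ⧸ H)
    rw [← hg]
    exact hall g x
  have hdecomp : e = ∑ x, e x • (Pi.single x 1 - Pi.single ((1 : G) : G ⧸ H) 1 : G ⧸ H → ℤ) := by
    funext y
    simp only [Finset.sum_apply, Pi.smul_apply, Pi.sub_apply, smul_eq_mul, mul_sub,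
      Finset.sum_sub_distrib]
    rw [← Finset.sum_mul, he, zero_mul, sub_zero]
    simp only [Pi.single_apply, mul_ite, mul_one, mul_zero, Finset.sum_ite_eq, Finset.mem_univ,
      if_true]
  have : e ∈ W := by
    rw [hdecomp]
    exact W.sum_mem fun x _ => W.zsmul_mem (hx₀ x) _
  exact this

end Aug

section Main

variable {G : Type*} [Group G] (H : Subgroup G) (K : Type*) [Field K]
variable [Finite (G ⧸ H)] (a b : G) (hgen : Subgroup.closure ({a, b} : Set G) = ⊤)

include hgen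

theorem lift_main {W : Type*} [AddCommGroup W] [Module K W] (ι : W →ₗ[K] (Additive H →+ K))
    (hι : ∀ w, ι w = 0 → w = 0)
    (ha : ∀ w, shC H K a (ι w) ∈ LinearMap.range (1 - shP H K a))
    (hb : ∀ w, shC H K b (ι w) ∈ LinearMap.range (1 - shP H K b))
    (hab : ∀ w, shC H K (a * b) (ι w) ∈ LinearMap.range (1 - shP H K (a * b)))
    (hdim : Nat.card (G ⧸ H) + 2 ≤
      finrank K W + Nat.card (MulAction.orbitRel.Quotient (Subgroup.zpowers a) (G ⧸ H)) +
        Nat.card (MulAction.orbitRel.Quotient (Subgroup.zpowers b) (G ⧸ H)) +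
        Nat.card (MulAction.orbitRel.Quotient (Subgroup.zpowers (a * b)) (G ⧸ H)))
    (n : ℕ) [NeZero n] (ψ : Additive H →+ ZMod n)
    (hkill : ∀ g ∈ ({a, b, a * b} : Set G), ∀ (c : G) (k : ℕ) (hm : c⁻¹ * g ^ k * c ∈ H),
      ψ (Additive.ofMul ⟨_, hm⟩) = 0) :
    ∃ w : W, ∀ h : H, ∃ k : ℤ, ι w (Additive.ofMul h) = (k : K) ∧
      ((k : ℤ) : ZMod n) = ψ (Additive.ofMul h) := by
  classical
  have : Fintype (G ⧸ H) := Fintype.ofFinite _
  obtain ⟨mA, hmA⟩ := liftC_exists H ψ a (hkill a (by simp))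
  obtain ⟨mB, hmB⟩ := liftC_exists H ψ b (hkill b (by simp))
  obtain ⟨mC, hmC⟩ := liftC_exists H ψ (a * b) (hkill (a * b) (by simp))
  choose tA htA using fun x => ZMod.intCast_surjective (mA x)
  choose tB htB using fun x => ZMod.intCast_surjective (mB x)
  choose tC htC using fun x => ZMod.intCast_surjective (mC x)
  let E : G ⧸ H → ℤ := fun x => (tC x - tC ((a * b)⁻¹ • x)) - (tA x - tA (a⁻¹ • x)) -
    (tB (a⁻¹ • x) - tB (b⁻¹ • a⁻¹ • x))
  have hE0 : ∀ x, ((E x : ℤ) : ZMod n) = 0 := by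
    intro x
    simp only [E, Int.cast_sub, htA, htB, htC, hmA, hmB, hmC]
    rw [liftC_mul]
    abel
  have hEdvd : ∀ x, ∃ e : ℤ, E x = n * e := fun x =>
    (ZMod.intCast_zmod_eq_zero_iff_dvd (E x) n).mp (hE0 x)
  choose e he using hEdvd
  have hsumshift : ∀ (g : G) (f : G ⧸ H → ℤ), ∑ x, f (g • x) = ∑ x, f x := fun g f =>
    Equiv.sum_comp (MulAction.toPerm g) f
  have hEsum : ∑ x, E x = 0 := by
    simp only [E, Finset.sum_sub_distrib]
    rw [hsumshift (a * b)⁻¹ tC, hsumshift a⁻¹ tA, hsumshift a⁻¹ tB,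
      hsumshift a⁻¹ (fun x => tB (b⁻¹ • x)), hsumshift b⁻¹ tB]
    ring
  have hesum : ∑ x, e x = 0 := by
    have h1 : (n : ℤ) * ∑ x, e x = 0 := by
      rw [Finset.mul_sum, ← hEsum]
      exact Finset.sum_congr rfl fun x _ => (he x).symm
    rcases mul_eq_zero.mp h1 with h2 | h2
    · exact absurd (by exact_mod_cast h2) (NeZero.ne n)
    · exact h2
  obtain ⟨u, v, huv⟩ := lift_aug H a b hgen e hesum
  let sA : G ⧸ H → ℤ := fun x => tA x + n * (u x + (v x - v (b⁻¹ • x)))
  let sB : G ⧸ H → ℤ := fun x => tB x + n * v x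
  let X : G ⧸ H → ℤ := fun x => sA x - sA (a⁻¹ • x)
  let Y : G ⧸ H → ℤ := fun x => sB x - sB (b⁻¹ • x)
  have hXY : ∀ x, X x + Y (a⁻¹ • x) = tC x - tC ((a * b)⁻¹ • x) := by
    intro x
    have h1 := he x
    have h2 := huv x
    simp only [X, Y, sA, sB]
    simp only [E] at h1
    rw [h2] at h1
    linarith
  obtain ⟨w, m, h1, h2⟩ := lift_surj H K a b hgen ι hι ha hb hab hdim
    (fun x => (X x : K)) (fun x => (Y x : K))
    ⟨fun x => (sA x : K), by
      funext x
      simp only [LinearMap.sub_apply, Module.End.one_apply, Pi.sub_apply, shP_apply, X]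
      push_cast
      ring⟩
    ⟨fun x => (sB x : K), by
      funext x
      simp only [LinearMap.sub_apply, Module.End.one_apply, Pi.sub_apply, shP_apply, Y]
      push_cast
      ring⟩
    ⟨fun x => (tC x : K), by
      funext x
      simp only [LinearMap.sub_apply, Module.End.one_apply, Pi.sub_apply, Pi.add_apply, shP_apply]
      have := hXY x
      have h3 : ((X x + Y (a⁻¹ • x) : ℤ) : K) = ((tC x - tC ((a * b)⁻¹ • x) : ℤ) : K) := by
        rw [this]
      push_cast at h3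
      exact h3.symm⟩
  have hncast : ((n : ℤ) : ZMod n) = 0 := by simp
  have hall : ∀ g : G, ∃ z : G ⧸ H → ℤ, (∀ t, shC' H K g (ι w, m) t = (z t : K)) ∧
      ∀ t, ((z t : ℤ) : ZMod n) = liftC H ψ g t := by
    intro g
    have hg : g ∈ Subgroup.closure ({a, b} : Set G) := by rw [hgen]; trivial
    induction hg using Subgroup.closure_induction with
    | mem g hg =>
      rcases hg with rfl | rfl
      · refine ⟨X, fun t => congrFun h1 t, fun t => ?_⟩
        simp only [X, sA, Int.cast_sub, Int.cast_add, Int.cast_mul, hncast, zero_mul, add_zero, htA,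
          hmA]
      · refine ⟨Y, fun t => congrFun h2 t, fun t => ?_⟩
        simp only [Y, sB, Int.cast_sub, Int.cast_add, Int.cast_mul, hncast, zero_mul, add_zero, htB,
          hmB]
    | one =>
      refine ⟨0, fun t => ?_, fun t => ?_⟩
      · rw [shC'_one]; simp
      · rw [liftC_one]; simp
    | mul g g' _ _ ih1 ih2 =>
      obtain ⟨z1, hz1, hz1'⟩ := ih1
      obtain ⟨z2, hz2, hz2'⟩ := ih2
      refine ⟨fun t => z1 t + z2 (g⁻¹ • t), fun t => ?_, fun t => ?_⟩
      · rw [shC'_mul, Pi.add_apply, shP_apply, hz1, hz2]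
        push_cast
        rfl
      · rw [liftC_mul, Int.cast_add, hz1', hz2']
    | inv g _ ih =>
      obtain ⟨z1, hz1, hz1'⟩ := ih
      refine ⟨fun t => -z1 (g • t), fun t => ?_, fun t => ?_⟩
      · have h3 := shC'_mul H K g⁻¹ g (ι w, m)
        rw [inv_mul_cancel, shC'_one] at h3
        have h4 := congrFun h3 t
        rw [Pi.add_apply, shP_apply, inv_inv, hz1, Pi.zero_apply] at h4
        push_cast
        exact eq_neg_of_add_eq_zero_left h4.symm
      · rw [liftC_inv, Int.cast_neg, hz1']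
  refine ⟨w, fun h => ?_⟩
  obtain ⟨z, hz, hz'⟩ := hall (h : G)
  refine ⟨z ((1 : G) : G ⧸ H), ?_, ?_⟩
  · rw [← hz, shC'_apply, Pi.add_apply, shC_base, Pi.sub_apply, shP_apply]
    have hfix : (h : G)⁻¹ • ((1 : G) : G ⧸ H) = ((1 : G) : G ⧸ H) := by
      have : (h : G)⁻¹ • ((1 : G) : G ⧸ H) = (((h : G)⁻¹ * 1 : G) : G ⧸ H) := rfl
      rw [this, QuotientGroup.eq]
      simp
    rw [hfix, sub_self, add_zero]
  · rw [hz', liftC_base]

end Main

end Fermat.Agent.S16
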