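import Mathlib
import Fermat.Agent.S16.LiftAbs
import Fermat.Agent.S21

/-!
# S16 (M11): integral parabolic lifts of homomorphisms mod `n`
-/

set_option autoImplicit false

namespace Fermat.Agent.S16

open Fermat.Agent.X0 Fermat.Agent.S21 Module CongruenceSubgroup ModularCurve.Period ModularGroup
open Matrix.SpecialLinearGroup ModularCurve
open scoped MatrixGroups

theorem lift_dim (N : ℕ) [NeZero N] :
    Nat.card (SL(2, ℤ) ⧸ Gamma0 N) + 2 ≤
      finrank ℂ (parabolicHoms ℂ (Gamma0 N) ℂ) +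
        Nat.card (MulAction.orbitRel.Quotient (Subgroup.zpowers S) (SL(2, ℤ) ⧸ Gamma0 N)) +
        Nat.card (MulAction.orbitRel.Quotient (Subgroup.zpowers T) (SL(2, ℤ) ⧸ Gamma0 N)) +
        Nat.card (MulAction.orbitRel.Quotient (Subgroup.zpowers (S * T)) (SL(2, ℤ) ⧸ Gamma0 N)) := by
  obtain ⟨g, hg, hcount⟩ := Fermat.Agent.X0.genusNat_of_counts N
    (Fermat.Agent.X0.card_cos N) (Fermat.Agent.X0.two_mul_card_orbits_S N)
    (Fermat.Agent.X0.three_mul_card_orbits_U N) (Fermat.Agent.X0.card_orbits_T N)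
  have h1 := two_mul_finrank_le N
  have h2 := Fermat.Agent.S20.result N
  rw [← hg] at h2
  have h3 : finrank ℂ (CuspForm (Gamma0 N) 2) = g := by exact_mod_cast h2
  omega

theorem exists_parabolic_lift (N : ℕ) [NeZero N] (n : ℕ) [NeZero n]
    (ψ : Additive (Gamma0 N) →+ ZMod n)
    (hψ : ∀ (γ : Gamma0 N) (a g : SL(2, ℤ)) (k : ℕ),
      g ∈ ({ModularGroup.S, ModularGroup.T, ModularGroup.S * ModularGroup.T} : Set SL(2, ℤ)) →
      (γ : SL(2, ℤ)) = a⁻¹ * g ^ k * a → ψ (Additive.ofMul γ) = 0) :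
    ∃ φ ∈ parabolicHoms ℂ (Gamma0 N) ℂ, ∀ γ : Additive (Gamma0 N),
      ∃ k : ℤ, φ γ = (k : ℂ) ∧ ((k : ℤ) : ZMod n) = ψ γ := by
  have hfin : Finite (SL(2, ℤ) ⧸ Gamma0 N) := Subgroup.finite_quotient_of_finiteIndex
  have hneg : ∀ a : SL(2, ℤ), a⁻¹ * (-1) * a ∈ Gamma0 N := fun a => by
    rw [parDim_neg_one_conj]; exact parDim_neg_one_mem N
  have htrneg : ((-1 : SL(2, ℤ)) : Matrix (Fin 2) (Fin 2) ℤ).trace ^ 2 = 4 := by
    simp
  have hTN : ∀ a : SL(2, ℤ), a⁻¹ * T ^ N * a ∈ Gamma0 N := fun a => by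
    apply parDim_Gamma_le
    have := (Gamma_normal N).conj_mem _ (parDim_T_pow_mem N) a⁻¹
    rwa [inv_inv] at this
  have htrT : ((T ^ N : SL(2, ℤ)) : Matrix (Fin 2) (Fin 2) ℤ).trace ^ 2 = 4 := by
    rw [← zpow_natCast]
    have h := coe_T_zpow (N : ℤ)
    have h2 : ((T ^ (N : ℤ) : SL(2, ℤ)) : Matrix (Fin 2) (Fin 2) ℤ) = !![1, (N : ℤ); 0, 1] := h
    rw [h2, Matrix.trace_fin_two_of]
    norm_num
  obtain ⟨w, hw⟩ := lift_main (Gamma0 N) ℂ S T SpecialLinearGroup.SL2Z_generators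
    (W := parabolicHoms ℂ (Gamma0 N) ℂ) (parabolicHoms ℂ (Gamma0 N) ℂ).subtype
    (fun w hw => Subtype.ext hw)
    (by
      intro w
      apply shC_mem_range (Gamma0 N) ℂ S 2 (by norm_num)
      rw [parDim_S_sq]
      exact parDim_kill N _ w.2 _ hneg htrneg)
    (by
      intro w
      apply shC_mem_range (Gamma0 N) ℂ T N (Nat.cast_ne_zero.mpr (NeZero.ne N))
      exact parDim_kill N _ w.2 _ hTN htrT)
    (by
      intro w
      apply shC_mem_range (Gamma0 N) ℂ (S * T) 3 (by norm_num)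
      rw [parDim_ST_cube]
      exact parDim_kill N _ w.2 _ hneg htrneg)
    (lift_dim N) n ψ
    (fun g hg c k hm => hψ ⟨_, hm⟩ c g k hg rfl)
  exact ⟨w.1, w.2, fun γ => hw (Additive.toMul γ)⟩

end Fermat.Agent.S16
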