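import Mathlib
import Fermat.Agent.S16.Defs

/-!
# S16 (M9): the coset combinatorics of `T_ℓ` and `U_p`
-/

set_option autoImplicit false

namespace Fermat.Agent.S16

open CongruenceSubgroup Matrix
open scoped MatrixGroups

lemma hk_mat_eta (M : Matrix (Fin 2) (Fin 2) ℤ) : M = !![M 0 0, M 0 1; M 1 0, M 1 1] :=
  Matrix.eta_fin_two M

/-- factorisation through `(1 j; 0 ℓ)` -/
lemma hk_factor_some (ℓ : ℕ) [Fact ℓ.Prime] (M : Matrix (Fin 2) (Fin 2) ℤ) (hdet : M.det = ℓ)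
    (h : ¬ ((ℓ : ℤ) ∣ M 0 0 ∧ (ℓ : ℤ) ∣ M 1 0)) :
    ∃ (j : Fin ℓ) (g : SL(2, ℤ)), g 1 0 = M 1 0 ∧
      M = (g : Matrix (Fin 2) (Fin 2) ℤ) * hkMat ℓ (some j) := by
  have hℓ0 : (ℓ : ℤ) ≠ 0 := by exact_mod_cast (Fact.out : ℓ.Prime).ne_zero
  rw [Matrix.det_fin_two] at hdet
  set A := M 0 0 with hA
  set B := M 0 1 with hB
  set C := M 1 0 with hC
  set D := M 1 1 with hD
  have hz : ((A : ZMod ℓ)) * D - B * C = 0 := by
    have := congrArg (fun x : ℤ => (x : ZMod ℓ)) hdet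
    simpa using this
  -- the residue `j`
  obtain ⟨t, ht1, ht2⟩ : ∃ t : ZMod ℓ, (B : ZMod ℓ) = A * t ∧ (D : ZMod ℓ) = C * t := by
    by_cases hA0 : (A : ZMod ℓ) = 0
    · have hC0 : (C : ZMod ℓ) ≠ 0 := by
        intro hC0
        apply h
        exact ⟨(ZMod.intCast_zmod_eq_zero_iff_dvd A ℓ).1 hA0,
          (ZMod.intCast_zmod_eq_zero_iff_dvd C ℓ).1 hC0⟩
      refine ⟨D / C, ?_, by field_simp⟩
      rw [hA0, zero_mul, zero_sub, neg_eq_zero] at hz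
      rcases mul_eq_zero.1 hz with h1 | h1
      · rw [h1, hA0, zero_mul]
      · exact absurd h1 hC0
    · refine ⟨B / A, by field_simp, ?_⟩
      field_simp
      linear_combination hz
  obtain ⟨n, hlt, hcast⟩ : ∃ n : ℕ, n < ℓ ∧ (n : ZMod ℓ) = t :=
    ⟨t.val, ZMod.val_lt t, by rw [ZMod.natCast_val, ZMod.cast_id', id]⟩
  obtain ⟨x, hx⟩ : (ℓ : ℤ) ∣ B - A * n := by
    rw [← ZMod.intCast_zmod_eq_zero_iff_dvd]
    push_cast
    rw [hcast, ht1, sub_self]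
  obtain ⟨y, hy⟩ : (ℓ : ℤ) ∣ D - C * n := by
    rw [← ZMod.intCast_zmod_eq_zero_iff_dvd]
    push_cast
    rw [hcast, ht2, sub_self]
  have hdet' : A * y - x * C = 1 := by
    have : (ℓ : ℤ) * (A * y - x * C) = ℓ * 1 := by
      have e1 : (ℓ : ℤ) * y = D - C * n := hy.symm
      have e2 : (ℓ : ℤ) * x = B - A * n := hx.symm
      linear_combination A * e1 - C * e2 + hdet
    exact mul_left_cancel₀ hℓ0 this
  refine ⟨⟨n, hlt⟩, ⟨!![A, x; C, y], by rw [Matrix.det_fin_two_of]; exact hdet'⟩, rfl, ?_⟩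
  rw [hk_mat_eta M]
  simp only [hkMat, Matrix.mul_fin_two]
  ext i k
  fin_cases i <;> fin_cases k <;> simp <;> linarith

/-- factorisation through `(ℓ 0; 0 1)` -/
lemma hk_factor_none (ℓ : ℕ) [Fact ℓ.Prime] (M : Matrix (Fin 2) (Fin 2) ℤ) (hdet : M.det = ℓ)
    (h1 : (ℓ : ℤ) ∣ M 0 0) (h2 : (ℓ : ℤ) ∣ M 1 0) :
    ∃ g : SL(2, ℤ), (ℓ : ℤ) * g 1 0 = M 1 0 ∧
      M = (g : Matrix (Fin 2) (Fin 2) ℤ) * hkMat ℓ none := by
  have hℓ0 : (ℓ : ℤ) ≠ 0 := by exact_mod_cast (Fact.out : ℓ.Prime).ne_zero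
  rw [Matrix.det_fin_two] at hdet
  obtain ⟨x, hx⟩ := h1
  obtain ⟨y, hy⟩ := h2
  have hdet' : x * M 1 1 - M 0 1 * y = 1 := by
    have : (ℓ : ℤ) * (x * M 1 1 - M 0 1 * y) = ℓ * 1 := by
      rw [hx, hy] at hdet
      linear_combination hdet
    exact mul_left_cancel₀ hℓ0 this
  refine ⟨⟨!![x, M 0 1; y, M 1 1], by rw [Matrix.det_fin_two_of]; exact hdet'⟩, hy.symm, ?_⟩
  conv_lhs => rw [hk_mat_eta M]
  simp only [hkMat, Matrix.mul_fin_two]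
  ext i k
  fin_cases i <;> fin_cases k <;> simp [hx, hy, mul_comm]

/-- the representatives are pairwise inequivalent -/
lemma hk_unique (ℓ : ℕ) [Fact ℓ.Prime] (i i' : Option (Fin ℓ)) (h : SL(2, ℤ))
    (e : hkMat ℓ i = (h : Matrix (Fin 2) (Fin 2) ℤ) * hkMat ℓ i') : i = i' := by
  have hℓ1 : (1 : ℤ) < ℓ := by exact_mod_cast (Fact.out : ℓ.Prime).one_lt
  have hdet : h 0 0 * h 1 1 - h 0 1 * h 1 0 = 1 := by
    have := h.2
    rwa [Matrix.det_fin_two] at this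
  have e00 := congrFun (congrFun e 0) 0
  have e01 := congrFun (congrFun e 0) 1
  have e10 := congrFun (congrFun e 1) 0
  have e11 := congrFun (congrFun e 1) 1
  rcases i with _ | j <;> rcases i' with _ | j'
  · rfl
  · exfalso
    simp [hkMat, Matrix.mul_apply, Fin.sum_univ_two] at e00 e01 e10 e11
    -- ℓ = h00, 0 = h00 j' + h01 ℓ, 0 = h10, 1 = h10 j' + h11 ℓ
    rw [← e10] at e11
    have : (ℓ : ℤ) ∣ 1 := ⟨h 1 1, by linarith⟩
    have := Int.le_of_dvd one_pos this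
    omega
  · exfalso
    simp [hkMat, Matrix.mul_apply, Fin.sum_univ_two] at e00 e01 e10 e11
    -- 1 = h00 ℓ
    have : (ℓ : ℤ) ∣ 1 := ⟨h 0 0, by linarith⟩
    have := Int.le_of_dvd one_pos this
    omega
  · simp [hkMat, Matrix.mul_apply, Fin.sum_univ_two] at e00 e01 e10 e11
    -- 1 = h00, j = h00 j' + h01 ℓ
    rw [← e00] at e01
    have hj := j.2
    have hj' := j'.2
    have h1 : ((j : ℕ) : ℤ) - (j' : ℕ) = h 0 1 * ℓ := by linarith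
    have h2 : (ℓ : ℤ) ∣ ((j : ℕ) : ℤ) - (j' : ℕ) := ⟨h 0 1, by linarith⟩
    have h3 : ((j : ℕ) : ℤ) - (j' : ℕ) = 0 := by
      apply Int.eq_zero_of_abs_lt_dvd h2
      rw [abs_lt]
      constructor <;> omega
    congr 1
    apply Fin.ext
    omega

lemma hk_det (ℓ : ℕ) (i : Option (Fin ℓ)) : (hkMat ℓ i).det = ℓ := by
  rcases i with _ | j <;> simp [hkMat, Matrix.det_fin_two_of]

lemma hk_coe_mem (p : ℕ) (γ : Gamma0 p) : (p : ℤ) ∣ (γ : SL(2, ℤ)) 1 0 := by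
  have := Gamma0_mem.1 γ.2
  exact (ZMod.intCast_zmod_eq_zero_iff_dvd _ p).1 this

lemma hk_mem_of_dvd (p : ℕ) (g : SL(2, ℤ)) (h : (p : ℤ) ∣ g 1 0) : g ∈ Gamma0 p := by
  rw [Gamma0_mem]
  exact (ZMod.intCast_zmod_eq_zero_iff_dvd _ p).2 h

/-- injectivity of the induced map on indices -/
lemma hk_inj (ℓ : ℕ) [Fact ℓ.Prime] (γ g g' : SL(2, ℤ)) (i i' k : Option (Fin ℓ))
    (e : hkMat ℓ i * (γ : Matrix (Fin 2) (Fin 2) ℤ) = (g : Matrix (Fin 2) (Fin 2) ℤ) * hkMat ℓ k)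
    (e' : hkMat ℓ i' * (γ : Matrix (Fin 2) (Fin 2) ℤ) =
      (g' : Matrix (Fin 2) (Fin 2) ℤ) * hkMat ℓ k) : i = i' := by
  apply hk_unique ℓ i i' (g * g'⁻¹)
  have h1 : hkMat ℓ k = ((g'⁻¹ : SL(2, ℤ)) : Matrix (Fin 2) (Fin 2) ℤ) * hkMat ℓ i' *
      (γ : Matrix (Fin 2) (Fin 2) ℤ) := by
    rw [Matrix.mul_assoc, e', ← Matrix.mul_assoc, ← Matrix.SpecialLinearGroup.coe_mul,
      inv_mul_cancel, Matrix.SpecialLinearGroup.coe_one, Matrix.one_mul]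
  have h2 : hkMat ℓ i * (γ : Matrix (Fin 2) (Fin 2) ℤ) =
      ((g * g'⁻¹ : SL(2, ℤ)) : Matrix (Fin 2) (Fin 2) ℤ) * hkMat ℓ i' *
        (γ : Matrix (Fin 2) (Fin 2) ℤ) := by
    rw [e, h1, Matrix.SpecialLinearGroup.coe_mul]
    simp only [Matrix.mul_assoc]
  have h3 := congrArg (fun X => X * ((γ⁻¹ : SL(2, ℤ)) : Matrix (Fin 2) (Fin 2) ℤ)) h2
  simp only [Matrix.mul_assoc, ← Matrix.SpecialLinearGroup.coe_mul, mul_inv_cancel,
    Matrix.SpecialLinearGroup.coe_one, Matrix.mul_one] at h3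
  rw [h3, Matrix.SpecialLinearGroup.coe_mul, Matrix.mul_assoc]

theorem hk_T (p ℓ : ℕ) [Fact p.Prime] [Fact ℓ.Prime] (hℓp : ℓ ≠ p) (γ : Gamma0 p) :
    ∃ (σ : Equiv.Perm (Option (Fin ℓ))) (g : Option (Fin ℓ) → Gamma0 p),
      ∀ i, hkMat ℓ i * ((γ : SL(2, ℤ)) : Matrix (Fin 2) (Fin 2) ℤ) =
        ((g i : SL(2, ℤ)) : Matrix (Fin 2) (Fin 2) ℤ) * hkMat ℓ (σ i) := by
  classical
  have hγ := hk_coe_mem p γ
  have key : ∀ i : Option (Fin ℓ), ∃ (k : Option (Fin ℓ)) (g : Gamma0 p),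
      hkMat ℓ i * ((γ : SL(2, ℤ)) : Matrix (Fin 2) (Fin 2) ℤ) =
        ((g : SL(2, ℤ)) : Matrix (Fin 2) (Fin 2) ℤ) * hkMat ℓ k := by
    intro i
    set M := hkMat ℓ i * ((γ : SL(2, ℤ)) : Matrix (Fin 2) (Fin 2) ℤ) with hM
    have hdet : M.det = ℓ := by
      rw [hM, Matrix.det_mul, hk_det, (γ : SL(2, ℤ)).2, mul_one]
    have hM10 : (p : ℤ) ∣ M 1 0 := by
      rw [hM, Matrix.mul_apply, Fin.sum_univ_two]
      rcases i with _ | j
      · simpa [hkMat] using hγ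
      · simpa [hkMat] using Dvd.dvd.mul_left hγ _
    by_cases h : (ℓ : ℤ) ∣ M 0 0 ∧ (ℓ : ℤ) ∣ M 1 0
    · obtain ⟨g, hg1, hg2⟩ := hk_factor_none ℓ M hdet h.1 h.2
      refine ⟨none, ⟨g, hk_mem_of_dvd p g ?_⟩, hg2⟩
      rw [← hg1] at hM10
      have hcop : IsCoprime (p : ℤ) (ℓ : ℤ) := by
        rw [Int.isCoprime_iff_gcd_eq_one]
        exact_mod_cast (Nat.coprime_primes (Fact.out : p.Prime) (Fact.out : ℓ.Prime)).2 hℓp.symm
      exact hcop.dvd_of_dvd_mul_left hM10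
    · obtain ⟨j, g, hg1, hg2⟩ := hk_factor_some ℓ M hdet h
      exact ⟨some j, ⟨g, hk_mem_of_dvd p g (hg1 ▸ hM10)⟩, hg2⟩
  choose σ₀ g hg using key
  have hinj : Function.Injective σ₀ := by
    intro i i' hii
    have e := hg i
    have e' := hg i'
    rw [← hii] at e'
    exact hk_inj ℓ γ _ _ i i' _ e e'
  exact ⟨Equiv.ofBijective σ₀ (Finite.injective_iff_bijective.1 hinj), g, hg⟩

theorem hk_U (p : ℕ) [Fact p.Prime] (γ : Gamma0 p) :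
    ∃ (σ : Equiv.Perm (Fin p)) (g : Fin p → Gamma0 p),
      ∀ j, hkMat p (some j) * ((γ : SL(2, ℤ)) : Matrix (Fin 2) (Fin 2) ℤ) =
        ((g j : SL(2, ℤ)) : Matrix (Fin 2) (Fin 2) ℤ) * hkMat p (some (σ j)) := by
  classical
  have hγ := hk_coe_mem p γ
  have hp : Prime (p : ℤ) := Nat.prime_iff_prime_int.1 (Fact.out : p.Prime)
  have hdetγ : (γ : SL(2, ℤ)) 0 0 * (γ : SL(2, ℤ)) 1 1 - (γ : SL(2, ℤ)) 0 1 * (γ : SL(2, ℤ)) 1 0 = 1 := by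
    have := (γ : SL(2, ℤ)).2
    rwa [Matrix.det_fin_two] at this
  have ha : ¬ (p : ℤ) ∣ (γ : SL(2, ℤ)) 0 0 := by
    intro h
    have : (p : ℤ) ∣ 1 := by
      rw [← hdetγ]
      exact dvd_sub (Dvd.dvd.mul_right h _) (Dvd.dvd.mul_left hγ _)
    exact hp.not_isUnit (isUnit_of_dvd_one this)
  have key : ∀ j : Fin p, ∃ (k : Fin p) (g : Gamma0 p),
      hkMat p (some j) * ((γ : SL(2, ℤ)) : Matrix (Fin 2) (Fin 2) ℤ) =
        ((g : SL(2, ℤ)) : Matrix (Fin 2) (Fin 2) ℤ) * hkMat p (some k) := by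
    intro j
    set M := hkMat p (some j) * ((γ : SL(2, ℤ)) : Matrix (Fin 2) (Fin 2) ℤ) with hM
    have hdet : M.det = p := by
      rw [hM, Matrix.det_mul, hk_det, (γ : SL(2, ℤ)).2, mul_one]
    have hM10 : (p : ℤ) ∣ M 1 0 := by
      rw [hM, Matrix.mul_apply, Fin.sum_univ_two]
      simp [hkMat]
    have hM00 : ¬ (p : ℤ) ∣ M 0 0 := by
      have e : M 0 0 = (γ : SL(2, ℤ)) 0 0 + (j : ℕ) * (γ : SL(2, ℤ)) 1 0 := by
        rw [hM, Matrix.mul_apply, Fin.sum_univ_two]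
        simp [hkMat]
      rw [e]
      intro h
      exact ha ((dvd_add_left (Dvd.dvd.mul_left hγ _)).1 h)
    obtain ⟨k, g, hg1, hg2⟩ := hk_factor_some p M hdet (fun h => hM00 h.1)
    exact ⟨k, ⟨g, hk_mem_of_dvd p g (hg1 ▸ hM10)⟩, hg2⟩
  choose σ₀ g hg using key
  have hinj : Function.Injective σ₀ := by
    intro i i' hii
    have e := hg i
    have e' := hg i'
    rw [← hii] at e'
    exact Option.some_injective _ (hk_inj p γ _ _ (some i) (some i') _ e e')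
  exact ⟨Equiv.ofBijective σ₀ (Finite.injective_iff_bijective.1 hinj), g, hg⟩

end Fermat.Agent.S16
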