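import Mathlib
import Fermat.Agent.S16.Defs
import Fermat.Agent.S21.Inj
import Fermat.Agent.S21.Parab

/-!
# S16 (M10): the Hecke operators on period homomorphisms
-/

set_option autoImplicit false

namespace Fermat.Agent.S16

open UpperHalfPlane hiding I
open ModularForm ModularCurve CuspForm CongruenceSubgroup ModularCurve.Period
open Matrix.SpecialLinearGroup ComplexConjugate
open Fermat.Agent.S21 Fermat.Agent.S22
open scoped MatrixGroups Manifold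

/-- the representatives as elements of `GL₂(ℝ)` -/
noncomputable def hkGL (ℓ : ℕ) : Option (Fin ℓ) → GL (Fin 2) ℝ
  | none => heckeDiagMatrix ℓ
  | some j => heckeMatrix ℓ j

lemma val_hkGL (ℓ : ℕ) (hℓ : ℓ ≠ 0) (i : Option (Fin ℓ)) :
    ((hkGL ℓ i : GL (Fin 2) ℝ) : Matrix (Fin 2) (Fin 2) ℝ) =
      (hkMat ℓ i).map (Int.cast : ℤ → ℝ) := by
  rcases i with _ | j
  · rw [hkGL, val_heckeDiagMatrix hℓ, hkMat]
    ext a b
    fin_cases a <;> fin_cases b <;> simp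
  · rw [hkGL, val_heckeMatrix hℓ, hkMat]
    ext a b
    fin_cases a <;> fin_cases b <;> simp

lemma hkGL_mul (ℓ : ℕ) (hℓ : ℓ ≠ 0) (γ g : SL(2, ℤ)) (i k : Option (Fin ℓ))
    (h : hkMat ℓ i * (γ : Matrix (Fin 2) (Fin 2) ℤ) =
      (g : Matrix (Fin 2) (Fin 2) ℤ) * hkMat ℓ k) :
    hkGL ℓ i * mapGL ℝ γ = mapGL ℝ g * hkGL ℓ k := by
  apply Units.ext
  rw [Units.val_mul, Units.val_mul, val_mapGL, val_mapGL, val_hkGL ℓ hℓ, val_hkGL ℓ hℓ]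
  have h2 := congrArg (fun M : Matrix (Fin 2) (Fin 2) ℤ => M.map (Int.castRingHom ℝ)) h
  simp only [Matrix.map_mul] at h2
  have e : ∀ δ : SL(2, ℤ), !![((δ 0 0 : ℤ) : ℝ), ((δ 0 1 : ℤ) : ℝ); ((δ 1 0 : ℤ) : ℝ),
      ((δ 1 1 : ℤ) : ℝ)] = (δ : Matrix (Fin 2) (Fin 2) ℤ).map (Int.castRingHom ℝ) := by
    intro δ
    ext a b
    fin_cases a <;> fin_cases b <;> simp
  rw [e, e]
  exact h2

lemma hkGL_smul (ℓ : ℕ) (hℓ : ℓ ≠ 0) (γ g : SL(2, ℤ)) (i k : Option (Fin ℓ))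
    (h : hkMat ℓ i * (γ : Matrix (Fin 2) (Fin 2) ℤ) =
      (g : Matrix (Fin 2) (Fin 2) ℤ) * hkMat ℓ k) (z : ℍ) :
    hkGL ℓ i • (γ • z) = g • (hkGL ℓ k • z) := by
  show hkGL ℓ i • ((mapGL ℝ γ : GL (Fin 2) ℝ) • z) = (mapGL ℝ g : GL (Fin 2) ℝ) • (hkGL ℓ k • z)
  rw [← mul_smul, hkGL_mul ℓ hℓ γ g i k h, mul_smul]

/-- telescoping -/
lemma per_telescope {ι : Type*} [Fintype ι] (p : ℕ) (Φ : ℍ → ℂ) (φ : Gamma0 p → ℂ)
    (hΦ : ∀ (δ : Gamma0 p) (w : ℍ), Φ ((δ : SL(2, ℤ)) • w) - Φ w = φ δ)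
    (A : ι → GL (Fin 2) ℝ) (γ : Gamma0 p) (σ : Equiv.Perm ι) (gg : ι → Gamma0 p)
    (h : ∀ (i : ι) (z : ℍ), A i • ((γ : SL(2, ℤ)) • z) = (gg i : SL(2, ℤ)) • (A (σ i) • z))
    (z : ℍ) :
    ∑ i, Φ (A i • ((γ : SL(2, ℤ)) • z)) - ∑ i, Φ (A i • z) = ∑ i, φ (gg i) := by
  have h1 : ∑ i, Φ (A i • z) = ∑ i, Φ (A (σ i) • z) :=
    (Equiv.sum_comp σ fun i => Φ (A i • z)).symm
  rw [h1, ← Finset.sum_sub_distrib]
  refine Finset.sum_congr rfl fun i _ => ?_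
  rw [h i z, hΦ]

variable {p : ℕ} [NeZero p]

lemma prim_heckeT {ℓ : ℕ} (hℓ : ℓ.Prime) (hℓp : ¬ ℓ ∣ p) (f : CuspForm (Gamma0 p) 2) (z : ℍ) :
    prim (CuspForm.heckeTLin 2 hℓ hℓp f) z = ∑ i : Option (Fin ℓ), prim f (hkGL ℓ i • z) := by
  have hℓ0 : (ℓ : ℂ) ≠ 0 := by exact_mod_cast hℓ.ne_zero
  have h := congrFun (EI_heckeT (w := 0) hℓ hℓp f) z
  rw [heckeT_apply _ hℓ.ne_zero] at h
  simp only [Pi.smul_apply, smul_eq_mul] at h
  have e1 : EI 0 ⇑f = prim f := rfl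
  have e2 : EI 0 ⇑(CuspForm.heckeTLin (((0 : ℕ) : ℤ) + 2) hℓ hℓp f) =
      prim (CuspForm.heckeTLin 2 hℓ hℓp f) := rfl
  rw [e1, e2] at h
  rw [Fintype.sum_option]
  simp only [hkGL]
  rw [Fin.sum_univ_eq_sum_range (fun j => prim f (heckeMatrix ℓ j • z))]
  have e3 : ((ℓ : ℂ) ^ (-((0 : ℕ) : ℤ) - 1)) = (ℓ : ℂ)⁻¹ := by
    simp
  rw [e3] at h
  have e4 : ((ℓ : ℂ) ^ (0 + 1))⁻¹ = (ℓ : ℂ)⁻¹ := by simp
  rw [e4] at h
  have := mul_left_cancel₀ (inv_ne_zero hℓ0) (by rw [mul_add]; exact h :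
    (ℓ : ℂ)⁻¹ * (∑ j ∈ Finset.range ℓ, prim f (heckeMatrix ℓ j • z) +
      prim f (heckeDiagMatrix ℓ • z)) = (ℓ : ℂ)⁻¹ * prim (CuspForm.heckeTLin 2 hℓ hℓp f) z)
  rw [← this]
  ring

lemma prim_heckeU (hp : p.Prime) (f : CuspForm (Gamma0 p) 2) (z : ℍ) :
    prim (CuspForm.heckeULin (N := p) (p := p) 2 (dvd_refl p) f) z =
      ∑ j : Fin p, prim f (hkGL p (some j) • z) := by
  have hℓ0 : (p : ℂ) ≠ 0 := by exact_mod_cast hp.ne_zero
  have h := congrFun (EI_heckeU (w := 0) hp (dvd_refl p) f) z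
  rw [heckeU_apply _ hp.ne_zero] at h
  simp only [Pi.smul_apply, smul_eq_mul] at h
  have e1 : EI 0 ⇑f = prim f := rfl
  have e2 : EI 0 ⇑(CuspForm.heckeULin (N := p) (p := p) (((0 : ℕ) : ℤ) + 2) (dvd_refl p) f) =
      prim (CuspForm.heckeULin (N := p) (p := p) 2 (dvd_refl p) f) := rfl
  rw [e1, e2] at h
  simp only [hkGL]
  rw [Fin.sum_univ_eq_sum_range (fun j => prim f (heckeMatrix p j • z))]
  have e4 : ((p : ℂ) ^ (0 + 1))⁻¹ = (p : ℂ)⁻¹ := by simp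
  rw [e4] at h
  exact (mul_left_cancel₀ (inv_ne_zero hℓ0) h).symm

/-- periodicity of the primitive -/
lemma prim_periodic (f : CuspForm (Gamma0 p) 2) (u u' : ℍ) (n : ℤ) (h : (u' : ℂ) = u + n) :
    prim f u' = prim f u := by
  have hper := eichlerH_per (cuspLike f) 1
  have h1 := (hper.int_mul n) (u : ℂ)
  simp only [Function.comp_apply, Complex.ofReal_one, mul_one] at h1
  rw [← h, ofComplex_apply, ofComplex_apply] at h1
  exact h1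

lemma fin_add_neg (ℓ : ℕ) [NeZero ℓ] (j : Fin ℓ) :
    ∃ ε : ℤ, ((j : ℕ) : ℤ) + (((-j : Fin ℓ) : ℕ) : ℤ) = ε * ℓ := by
  rw [Fin.val_neg']
  rcases Nat.eq_zero_or_pos (j : ℕ) with h | h
  · refine ⟨0, ?_⟩
    rw [h]
    simp
  · refine ⟨1, ?_⟩
    have hj := j.2
    rw [Nat.mod_eq_of_lt (by omega)]
    push_cast [Nat.cast_sub hj.le]
    ring

lemma prim_reflect_some (ℓ : ℕ) [NeZero ℓ] (f : CuspForm (Gamma0 p) 2) (w : ℍ) (j : Fin ℓ) :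
    prim f (J • (hkGL ℓ (some j) • w)) = prim f (hkGL ℓ (some (-j)) • (J • w)) := by
  have hℓ : ℓ ≠ 0 := NeZero.ne ℓ
  have hℓ0 : (ℓ : ℂ) ≠ 0 := by exact_mod_cast hℓ
  obtain ⟨ε, hε⟩ := fin_add_neg ℓ j
  apply prim_periodic f _ _ (-ε)
  simp only [hkGL]
  rw [coe_J_smul, coe_heckeMatrix_smul hℓ, coe_heckeMatrix_smul hℓ, coe_J_smul]
  have hε' : ((j : ℕ) : ℂ) + (((-j : Fin ℓ) : ℕ) : ℂ) = ε * ℓ := by exact_mod_cast hε
  simp only [map_div₀, map_add, Complex.conj_natCast]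
  push_cast
  field_simp
  linear_combination -hε'

lemma prim_reflect_none (ℓ : ℕ) [NeZero ℓ] (f : CuspForm (Gamma0 p) 2) (w : ℍ) :
    prim f (J • (hkGL ℓ none • w)) = prim f (hkGL ℓ none • (J • w)) := by
  have hℓ : ℓ ≠ 0 := NeZero.ne ℓ
  congr 1
  apply UpperHalfPlane.ext
  simp only [hkGL]
  rw [coe_J_smul, coe_heckeDiagMatrix_smul hℓ, coe_heckeDiagMatrix_smul hℓ, coe_J_smul]
  simp

lemma prim_reflect_U (ℓ : ℕ) [NeZero ℓ] (f : CuspForm (Gamma0 p) 2) (w : ℍ) :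
    ∑ j : Fin ℓ, prim f (J • (hkGL ℓ (some j) • w)) =
      ∑ j : Fin ℓ, prim f (hkGL ℓ (some j) • (J • w)) := by
  simp only [prim_reflect_some]
  exact Equiv.sum_comp (Equiv.neg (Fin ℓ)) fun j => prim f (hkGL ℓ (some j) • (J • w))

lemma prim_reflect_T (ℓ : ℕ) [NeZero ℓ] (f : CuspForm (Gamma0 p) 2) (w : ℍ) :
    ∑ i : Option (Fin ℓ), prim f (J • (hkGL ℓ i • w)) =
      ∑ i : Option (Fin ℓ), prim f (hkGL ℓ i • (J • w)) := by
  rw [Fintype.sum_option, Fintype.sum_option, prim_reflect_none, prim_reflect_U]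

/-- the core computation -/
lemma per_core {ι : Type*} [Fintype ι] (A : ι → GL (Fin 2) ℝ) (f f' : CuspForm (Gamma0 p) 2)
    (hprim : ∀ z, prim f' z = ∑ i, prim f (A i • z))
    (hrefl : ∀ w, ∑ i, prim f (J • (A i • w)) = ∑ i, prim f (A i • (J • w)))
    (γ : Gamma0 p) (σ : Equiv.Perm ι) (gg : ι → Gamma0 p)
    (h : ∀ (i : ι) (z : ℍ), A i • ((γ : SL(2, ℤ)) • z) = (gg i : SL(2, ℤ)) • (A (σ i) • z)) :
    periodMap p f' (Additive.ofMul γ) = ∑ i, periodMap p f (Additive.ofMul (gg i)) ∧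
    periodMap p f' (Additive.ofMul (jConjGamma0 p γ)) =
      ∑ i, periodMap p f (Additive.ofMul (jConjGamma0 p (gg i))) := by
  constructor
  · rw [periodMap_eq f' γ UpperHalfPlane.I, hprim, hprim]
    exact per_telescope p (prim f) (fun δ => periodMap p f (Additive.ofMul δ))
      (fun δ w => (periodMap_eq f δ w).symm) A γ σ gg h _
  · rw [periodMap_eq f' (jConjGamma0 p γ) (J • UpperHalfPlane.I), jConjGamma0_coe, inj_J_smul,
      hprim, hprim, ← hrefl, ← hrefl]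
    refine per_telescope p (fun w => prim f (J • w))
      (fun δ => periodMap p f (Additive.ofMul (jConjGamma0 p δ))) (fun δ w => ?_) A γ σ gg h _
    rw [periodMap_eq f (jConjGamma0 p δ) (J • w), jConjGamma0_coe, inj_J_smul]

lemma per_pair {ι : Type*} [Fintype ι] (f f' g g' : CuspForm (Gamma0 p) 2) (γ : Gamma0 p)
    (gg : ι → Gamma0 p)
    (hf : periodMap p f' (Additive.ofMul γ) = ∑ i, periodMap p f (Additive.ofMul (gg i)) ∧
      periodMap p f' (Additive.ofMul (jConjGamma0 p γ)) =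
        ∑ i, periodMap p f (Additive.ofMul (jConjGamma0 p (gg i))))
    (hg : periodMap p g' (Additive.ofMul γ) = ∑ i, periodMap p g (Additive.ofMul (gg i)) ∧
      periodMap p g' (Additive.ofMul (jConjGamma0 p γ)) =
        ∑ i, periodMap p g (Additive.ofMul (jConjGamma0 p (gg i)))) :
    periodHomPair p (f', g') (Additive.ofMul γ) =
      ∑ i, periodHomPair p (f, g) (Additive.ofMul (gg i)) := by
  simp only [periodHomPair_apply]
  rw [hf.1, hf.2, hg.1, hg.2, Finset.sum_add_distrib, Finset.sum_add_distrib,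
    Finset.sum_sub_distrib]

theorem per_T (p ℓ : ℕ) [Fact p.Prime] (hℓ : ℓ.Prime) (hℓp : ¬ ℓ ∣ p)
    (f g : CuspForm (Gamma0 p) 2) (γ : Gamma0 p)
    (σ : Equiv.Perm (Option (Fin ℓ))) (gg : Option (Fin ℓ) → Gamma0 p)
    (h : ∀ i, hkMat ℓ i * ((γ : SL(2, ℤ)) : Matrix (Fin 2) (Fin 2) ℤ) =
        ((gg i : SL(2, ℤ)) : Matrix (Fin 2) (Fin 2) ℤ) * hkMat ℓ (σ i)) :
    periodHomPair p (CuspForm.heckeTLin 2 hℓ hℓp f, CuspForm.heckeTLin 2 hℓ hℓp g)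
        (Additive.ofMul γ) =
      ∑ i, periodHomPair p (f, g) (Additive.ofMul (gg i)) := by
  have : NeZero ℓ := ⟨hℓ.ne_zero⟩
  have h' : ∀ (i : Option (Fin ℓ)) (z : ℍ), hkGL ℓ i • ((γ : SL(2, ℤ)) • z) = (gg i : SL(2, ℤ)) • (hkGL ℓ (σ i) • z) :=
    fun i z => hkGL_smul ℓ hℓ.ne_zero _ _ _ _ (h i) z
  exact per_pair f _ g _ γ gg
    (per_core (hkGL ℓ) f _ (prim_heckeT hℓ hℓp f) (prim_reflect_T ℓ f) γ σ gg h')
    (per_core (hkGL ℓ) g _ (prim_heckeT hℓ hℓp g) (prim_reflect_T ℓ g) γ σ gg h')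

theorem per_U (p : ℕ) [Fact p.Prime]
    (f g : CuspForm (Gamma0 p) 2) (γ : Gamma0 p)
    (σ : Equiv.Perm (Fin p)) (gg : Fin p → Gamma0 p)
    (h : ∀ j, hkMat p (some j) * ((γ : SL(2, ℤ)) : Matrix (Fin 2) (Fin 2) ℤ) =
        ((gg j : SL(2, ℤ)) : Matrix (Fin 2) (Fin 2) ℤ) * hkMat p (some (σ j))) :
    periodHomPair p (CuspForm.heckeULin (N := p) (p := p) 2 (dvd_refl p) f,
        CuspForm.heckeULin (N := p) (p := p) 2 (dvd_refl p) g) (Additive.ofMul γ) =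
      ∑ j, periodHomPair p (f, g) (Additive.ofMul (gg j)) := by
  have hp : p.Prime := Fact.out
  have h' : ∀ (j : Fin p) (z : ℍ), hkGL p (some j) • ((γ : SL(2, ℤ)) • z) =
      (gg j : SL(2, ℤ)) • (hkGL p (some (σ j)) • z) :=
    fun j z => hkGL_smul p hp.ne_zero _ _ _ _ (h j) z
  exact per_pair f _ g _ γ gg
    (per_core (fun j => hkGL p (some j)) f _ (prim_heckeU hp f) (prim_reflect_U p f) γ σ gg h')
    (per_core (fun j => hkGL p (some j)) g _ (prim_heckeU hp g) (prim_reflect_U p g) γ σ gg h')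

end Fermat.Agent.S16
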