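import Mathlib
import Fermat.Agent.S16.Defs
import Fermat.Agent.S16.HK
import Fermat.Agent.S16.PerHecke
import Fermat.Agent.S21

/-!
# S16 (M12): the Shimura character and the lower bound `n ∣ χ(P)`
-/

set_option autoImplicit false

namespace Fermat.Agent.S16

open UpperHalfPlane ModularForm ModularCurve CuspForm CongruenceSubgroup
open ModularCurve.Period
open scoped MatrixGroups Manifold

variable (p : ℕ) [Fact p.Prime]

/-- `γ ↦ d mod p` -/
noncomputable def shimD : Gamma0 p →* (ZMod p)ˣ := (Gamma0Map p).toHomUnits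

lemma shimD_coe (γ : Gamma0 p) : ((shimD p γ : (ZMod p)ˣ) : ZMod p) = (((γ : SL(2, ℤ)) 1 1 : ℤ) : ZMod p) :=
  rfl

lemma shim_card : Nat.card (Additive (ZMod p)ˣ) = Nat.card (ZMod (p - 1)) := by
  rw [Nat.card_zmod]
  have : Nat.card (Additive (ZMod p)ˣ) = Nat.card (ZMod p)ˣ := rfl
  rw [this, Nat.card_eq_fintype_card, ZMod.card_units]

/-- a discrete logarithm -/
noncomputable def shimLog : Additive (ZMod p)ˣ ≃+ ZMod (p - 1) :=
  addEquivOfAddCyclicCardEq (shim_card p)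

/-- the Shimura character `γ ↦ 12 log d` -/
noncomputable def shimPsi : Additive (Gamma0 p) →+ ZMod (p - 1) :=
  ((12 : ℕ) • (shimLog p).toAddMonoidHom).comp (MonoidHom.toAdditive (shimD p))

lemma shimPsi_apply (γ : Gamma0 p) :
    shimPsi p (Additive.ofMul γ) = (12 : ℕ) • shimLog p (Additive.ofMul (shimD p γ)) := rfl

lemma shimPsi_eq_zero_of_pow (γ : Gamma0 p) (h : shimD p γ ^ 12 = 1) :
    shimPsi p (Additive.ofMul γ) = 0 := by
  rw [shimPsi_apply, ← map_nsmul, ← ofMul_pow, h, ofMul_one, map_zero]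

/-- products of `d`'s give sums of `ψ`'s -/
lemma shimPsi_sum {ι : Type*} [Fintype ι] (g : ι → Gamma0 p) (γ : Gamma0 p) (k : ℕ)
    (h : ∏ i, shimD p (g i) = shimD p γ ^ k) :
    ∑ i, shimPsi p (Additive.ofMul (g i)) = k • shimPsi p (Additive.ofMul γ) := by
  simp only [shimPsi_apply]
  rw [← Finset.smul_sum, ← map_sum, ← ofMul_prod, h, ofMul_pow, map_nsmul, smul_comm]

/-! ### the hypotheses of the lifting lemma -/

lemma shim_conj_pow (a g : SL(2, ℤ)) (k n : ℕ) : (a⁻¹ * g ^ k * a) ^ n = a⁻¹ * (g ^ n) ^ k * a := by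
  have : a⁻¹ * g ^ k * a = a⁻¹ * g ^ k * a⁻¹⁻¹ := by rw [inv_inv]
  rw [this, conj_pow, inv_inv, ← pow_mul, ← pow_mul, mul_comm k n]

lemma shim_S_pow : (ModularGroup.S : SL(2, ℤ)) ^ 12 = 1 := by
  have h : (ModularGroup.S : SL(2, ℤ)) ^ 2 = -1 := Fermat.Agent.S21.parDim_S_sq
  calc (ModularGroup.S : SL(2, ℤ)) ^ 12 = ((ModularGroup.S : SL(2, ℤ)) ^ 2) ^ 6 := by rw [← pow_mul]
    _ = 1 := by rw [h]; exact Even.neg_one_pow (by decide)

lemma shim_ST_pow : (ModularGroup.S * ModularGroup.T : SL(2, ℤ)) ^ 12 = 1 := by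
  have h : (ModularGroup.S * ModularGroup.T : SL(2, ℤ)) ^ 3 = -1 := Fermat.Agent.S21.parDim_ST_cube
  calc (ModularGroup.S * ModularGroup.T : SL(2, ℤ)) ^ 12 =
      ((ModularGroup.S * ModularGroup.T : SL(2, ℤ)) ^ 3) ^ 4 := by rw [← pow_mul]
    _ = 1 := by rw [h]; exact Even.neg_one_pow (by decide)

lemma shimD_of_pow_eq_one (γ : Gamma0 p) (h : (γ : SL(2, ℤ)) ^ 12 = 1) : shimD p γ ^ 12 = 1 := by
  rw [← map_pow]
  have : γ ^ 12 = 1 := Subtype.ext h
  rw [this, map_one]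

lemma shimD_of_trace (γ : Gamma0 p)
    (h : ((γ : SL(2, ℤ)) : Matrix (Fin 2) (Fin 2) ℤ).trace = 2) : shimD p γ = 1 := by
  apply Units.ext
  rw [shimD_coe, Units.val_one]
  have hdet : (γ : SL(2, ℤ)) 0 0 * (γ : SL(2, ℤ)) 1 1 - (γ : SL(2, ℤ)) 0 1 * (γ : SL(2, ℤ)) 1 0 = 1 := by
    have := (γ : SL(2, ℤ)).2
    rwa [Matrix.det_fin_two] at this
  rw [Matrix.trace_fin_two] at h
  have hc : (((γ : SL(2, ℤ)) 1 0 : ℤ) : ZMod p) = 0 := Gamma0_mem.1 γ.2
  have h1 := congrArg (fun x : ℤ => (x : ZMod p)) hdet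
  have h2 := congrArg (fun x : ℤ => (x : ZMod p)) h
  simp only [Int.cast_sub, Int.cast_mul, Int.cast_add, Int.cast_one, Int.cast_ofNat, hc, mul_zero,
    sub_zero] at h1 h2
  set D := (((γ : SL(2, ℤ)) 1 1 : ℤ) : ZMod p)
  set A := (((γ : SL(2, ℤ)) 0 0 : ℤ) : ZMod p)
  have h3 : (D - 1) ^ 2 = 0 := by
    have : A = 2 - D := by linear_combination h2
    rw [this] at h1
    linear_combination -h1
  have := pow_eq_zero_iff (two_ne_zero) |>.1 h3
  exact sub_eq_zero.1 this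

lemma shim_trace_T_pow (k : ℕ) :
    ((ModularGroup.T ^ k : SL(2, ℤ)) : Matrix (Fin 2) (Fin 2) ℤ).trace = 2 := by
  rw [← zpow_natCast]
  have h2 : ((ModularGroup.T ^ (k : ℤ) : SL(2, ℤ)) : Matrix (Fin 2) (Fin 2) ℤ) =
      !![1, (k : ℤ); 0, 1] := ModularGroup.coe_T_zpow (k : ℤ)
  rw [h2, Matrix.trace_fin_two_of]
  norm_num

theorem shimPsi_kill (γ : Gamma0 p) (a g : SL(2, ℤ)) (k : ℕ)
    (hg : g ∈ ({ModularGroup.S, ModularGroup.T, ModularGroup.S * ModularGroup.T} :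
      Set SL(2, ℤ)))
    (h : (γ : SL(2, ℤ)) = a⁻¹ * g ^ k * a) : shimPsi p (Additive.ofMul γ) = 0 := by
  apply shimPsi_eq_zero_of_pow
  rcases hg with rfl | rfl | rfl
  · apply shimD_of_pow_eq_one
    rw [h, shim_conj_pow, shim_S_pow, one_pow, mul_one, inv_mul_cancel]
  · rw [shimD_of_trace p γ, one_pow]
    rw [h, Fermat.Agent.S21.parDim_trace_conj, shim_trace_T_pow]
  · apply shimD_of_pow_eq_one
    rw [h, shim_conj_pow, shim_ST_pow, one_pow, mul_one, inv_mul_cancel]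

/-! ### surjectivity of `d` -/

lemma shimD_surjective : Function.Surjective (shimD p) := by
  intro u
  have hp : p.Prime := Fact.out
  have hcop : IsCoprime (((u : ZMod p).val : ℤ)) (p : ℤ) := by
    rw [Int.isCoprime_iff_gcd_eq_one]
    have h1 : Nat.Coprime (u : ZMod p).val p := ZMod.val_coe_unit_coprime u
    exact_mod_cast h1
  obtain ⟨a, b, hab⟩ := hcop
  refine ⟨⟨⟨!![a, -b; (p : ℤ), ((u : ZMod p).val : ℤ)], ?_⟩, ?_⟩, ?_⟩
  · rw [Matrix.det_fin_two_of]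
    linear_combination hab
  · rw [Gamma0_mem]
    simp
  · apply Units.ext
    rw [shimD_coe]
    simp

/-! ### the Hecke relations -/

lemma shim_entry (M M' : Matrix (Fin 2) (Fin 2) ℤ) (γ g : SL(2, ℤ))
    (h : M * (γ : Matrix (Fin 2) (Fin 2) ℤ) = (g : Matrix (Fin 2) (Fin 2) ℤ) * M') (a b : Fin 2) :
    M a 0 * γ 0 b + M a 1 * γ 1 b = g a 0 * M' 0 b + g a 1 * M' 1 b := by
  have := congrFun (congrFun h a) b
  rwa [Matrix.mul_apply, Matrix.mul_apply, Fin.sum_univ_two, Fin.sum_univ_two] at this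

/-- the lower right entries of the representatives, as units mod `p` -/
noncomputable def shimDD (ℓ : ℕ) (u : (ZMod p)ˣ) : Option (Fin ℓ) → (ZMod p)ˣ
  | none => 1
  | some _ => u

theorem shim_prod_T (ℓ : ℕ) [Fact ℓ.Prime] (hℓp : ℓ ≠ p) (γ : Gamma0 p)
    (σ : Equiv.Perm (Option (Fin ℓ))) (g : Option (Fin ℓ) → Gamma0 p)
    (h : ∀ i, hkMat ℓ i * ((γ : SL(2, ℤ)) : Matrix (Fin 2) (Fin 2) ℤ) =
        ((g i : SL(2, ℤ)) : Matrix (Fin 2) (Fin 2) ℤ) * hkMat ℓ (σ i)) :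
    ∏ i, shimD p (g i) = shimD p γ ^ (ℓ + 1) := by
  have hcop : Nat.Coprime ℓ p :=
    (Nat.coprime_primes (Fact.out : ℓ.Prime) (Fact.out : p.Prime)).2 hℓp
  set u : (ZMod p)ˣ := ZMod.unitOfCoprime ℓ hcop with hu
  have hu' : ((u : (ZMod p)ˣ) : ZMod p) = (ℓ : ZMod p) := ZMod.coe_unitOfCoprime ℓ hcop
  have hDD : ∀ i, ((shimDD p ℓ u i : (ZMod p)ˣ) : ZMod p) = ((hkMat ℓ i 1 1 : ℤ) : ZMod p) := by
    intro i
    rcases i with _ | j
    · simp [shimDD, hkMat]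
    · simp [shimDD, hkMat, hu']
  have h10 : ∀ i, hkMat ℓ i 1 0 = 0 := by
    intro i
    rcases i with _ | j <;> simp [hkMat]
  have key : ∀ i, shimD p (g i) = shimDD p ℓ u i * shimD p γ * (shimDD p ℓ u (σ i))⁻¹ := by
    intro i
    rw [eq_mul_inv_iff_mul_eq]
    apply Units.ext
    rw [Units.val_mul, Units.val_mul, shimD_coe, shimD_coe, hDD, hDD]
    have e := shim_entry _ _ _ _ (h i) 1 1
    rw [h10, zero_mul, zero_add] at e
    have hc : ((((g i : Gamma0 p) : SL(2, ℤ)) 1 0 : ℤ) : ZMod p) = 0 := Gamma0_mem.1 (g i).2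
    have e2 := congrArg (fun x : ℤ => (x : ZMod p)) e
    simp only [Int.cast_add, Int.cast_mul, hc, zero_mul, zero_add] at e2
    exact e2.symm
  simp only [key]
  rw [Finset.prod_mul_distrib, Finset.prod_mul_distrib, Finset.prod_const, Finset.prod_inv_distrib,
    Equiv.prod_comp σ (fun i => shimDD p ℓ u i), Finset.card_univ, Fintype.card_option,
    Fintype.card_fin]
  rw [mul_comm (∏ i, shimDD p ℓ u i), mul_assoc, mul_inv_cancel, mul_one]

theorem shim_prod_U (γ : Gamma0 p)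
    (σ : Equiv.Perm (Fin p)) (g : Fin p → Gamma0 p)
    (h : ∀ j, hkMat p (some j) * ((γ : SL(2, ℤ)) : Matrix (Fin 2) (Fin 2) ℤ) =
        ((g j : SL(2, ℤ)) : Matrix (Fin 2) (Fin 2) ℤ) * hkMat p (some (σ j))) :
    ∏ j, shimD p (g j) = shimD p γ ^ 1 := by
  have hp : p.Prime := Fact.out
  have hp0 : (p : ℤ) ≠ 0 := by exact_mod_cast hp.ne_zero
  have key : ∀ j, shimD p (g j) = shimD p γ := by
    intro j
    apply Units.ext
    rw [shimD_coe, shimD_coe]
    have e10 := shim_entry _ _ _ _ (h j) 1 0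
    have e11 := shim_entry _ _ _ _ (h j) 1 1
    simp only [hkMat, Matrix.of_apply, Matrix.cons_val', Matrix.cons_val_zero, Matrix.cons_val_one,
      Matrix.cons_val_fin_one, zero_mul, zero_add, mul_one, mul_zero, add_zero] at e10 e11
    have e : ((γ : SL(2, ℤ)) 1 1 : ℤ) =
        (γ : SL(2, ℤ)) 1 0 * ((σ j : ℕ) : ℤ) + ((g j : Gamma0 p) : SL(2, ℤ)) 1 1 := by
      apply mul_left_cancel₀ hp0
      rw [e11, ← e10]
      ring
    have hc : (((γ : SL(2, ℤ)) 1 0 : ℤ) : ZMod p) = 0 := Gamma0_mem.1 γ.2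
    rw [e]
    push_cast
    rw [hc, zero_mul, zero_add]
  simp only [key]
  rw [Finset.prod_const, Finset.card_univ, Fintype.card_fin, pow_one]
  have h1 : shimD p γ ^ (p - 1) = 1 := ZMod.units_pow_card_sub_one_eq_one p _
  have h2 : (p - 1) + 1 = p := by have := hp.one_lt; omega
  calc shimD p γ ^ p = shimD p γ ^ ((p - 1) + 1) := by rw [h2]
    _ = shimD p γ := by rw [pow_succ, h1, one_mul]

/-! ### the induction over Hecke polynomials -/

/-- `periodHomPair (f, g)` is integral and congruent to `c ψ` -/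
def ShimCong (f g : CuspForm (Gamma0 p) 2) (c : ℤ) : Prop :=
  ∀ γ : Gamma0 p, ∃ k : ℤ, periodHomPair p (f, g) (Additive.ofMul γ) = (k : ℂ) ∧
    ((k : ℤ) : ZMod (p - 1)) = c • shimPsi p (Additive.ofMul γ)

lemma shimCong_sum {ι : Type*} [Fintype ι] (f g f' g' : CuspForm (Gamma0 p) 2) (c : ℤ) (m : ℕ)
    (h : ShimCong p f g c)
    (hex : ∀ γ : Gamma0 p, ∃ gg : ι → Gamma0 p,
      periodHomPair p (f', g') (Additive.ofMul γ) =
        ∑ i, periodHomPair p (f, g) (Additive.ofMul (gg i)) ∧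
      ∏ i, shimD p (gg i) = shimD p γ ^ m) :
    ShimCong p f' g' ((m : ℤ) * c) := by
  intro γ
  obtain ⟨gg, h1, h2⟩ := hex γ
  choose k hk1 hk2 using fun i => h (gg i)
  refine ⟨∑ i, k i, ?_, ?_⟩
  · rw [h1]
    push_cast
    exact Finset.sum_congr rfl fun i _ => hk1 i
  · push_cast
    simp only [hk2]
    rw [← Finset.smul_sum, shimPsi_sum p gg γ m h2, mul_comm, mul_smul, natCast_zsmul]

lemma evP_X_of_ne (ℓ : Nat.Primes) (h : ¬ (ℓ : ℕ) ∣ p) :
    evP p (MvPolynomial.X ℓ) = CuspForm.heckeTLin 2 ℓ.2 h := by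
  have := heckeEvalForms_heckeGen_of_not_dvd (N := p) (k := 2) h
  rw [evP]
  have e : (MvPolynomial.X ℓ : HeckeAlg) = heckeGen ℓ := rfl
  rw [e, this, heckeAlgebra.coe_T]

lemma evP_X_of_dvd (ℓ : Nat.Primes) (h : (ℓ : ℕ) ∣ p) :
    evP p (MvPolynomial.X ℓ) = CuspForm.heckeULin 2 h := by
  have := heckeEvalForms_heckeGen_of_dvd (N := p) (k := 2) h
  rw [evP]
  have e : (MvPolynomial.X ℓ : HeckeAlg) = heckeGen ℓ := rfl
  rw [e, this, heckeAlgebra.coe_U]

lemma shimCong_X (ℓ : Nat.Primes) (f g : CuspForm (Gamma0 p) 2) (c : ℤ) (h : ShimCong p f g c) :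
    ShimCong p (evP p (MvPolynomial.X ℓ) f) (evP p (MvPolynomial.X ℓ) g)
      (chi p (MvPolynomial.X ℓ) * c) := by
  have hp : p.Prime := Fact.out
  have hchi : chi p (MvPolynomial.X ℓ) = eisensteinSystem p ℓ := MvPolynomial.aeval_X _ _
  by_cases hd : (ℓ : ℕ) ∣ p
  · have hℓp : (ℓ : ℕ) = p := (Nat.prime_dvd_prime_iff_eq ℓ.2 hp).1 hd
    rw [hchi, eisensteinSystem_of_dvd hd, evP_X_of_dvd p ℓ hd]
    have e0 : CuspForm.heckeULin (N := p) (p := (ℓ : ℕ)) 2 hd =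
        CuspForm.heckeULin (N := p) (p := p) 2 (dvd_refl p) := by
      obtain ⟨ℓ, hℓ⟩ := ℓ
      simp only at hℓp hd
      subst hℓp
      rfl
    rw [e0]
    have := shimCong_sum p (ι := Fin p) f g _ _ c 1 h (fun γ => by
      obtain ⟨σ, gg, hgg⟩ := hk_U p γ
      exact ⟨gg, per_U p f g γ σ gg hgg, shim_prod_U p γ σ gg hgg⟩)
    simpa using this
  · have hℓp : (ℓ : ℕ) ≠ p := fun e => hd (e ▸ dvd_rfl)
    rw [hchi, eisensteinSystem_of_not_dvd hd, evP_X_of_ne p ℓ hd]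
    have : Fact (ℓ : ℕ).Prime := ⟨ℓ.2⟩
    have := shimCong_sum p (ι := Option (Fin ℓ)) f g _ _ c ((ℓ : ℕ) + 1) h (fun γ => by
      obtain ⟨σ, gg, hgg⟩ := hk_T p ℓ hℓp γ
      exact ⟨gg, per_T p ℓ ℓ.2 hd f g γ σ gg hgg, shim_prod_T p ℓ hℓp γ σ gg hgg⟩)
    have e : (((ℓ : ℕ) + 1 : ℕ) : ℤ) = 1 + ((ℓ : ℕ) : ℤ) := by push_cast; ring
    rwa [e] at this

lemma evP_add (P Q : HeckeAlg) : evP p (P + Q) = evP p P + evP p Q := by
  simp only [evP, map_add]
  rfl

lemma evP_mul (P Q : HeckeAlg) : evP p (P * Q) = evP p P * evP p Q := by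
  simp only [evP, map_mul]
  rfl

lemma evP_C (a : ℤ) : evP p (MvPolynomial.C a) = algebraMap ℤ _ a := by
  rw [evP, heckeEvalForms_C]
  rfl

theorem shimCong_evP (P : HeckeAlg) : ∀ (f g : CuspForm (Gamma0 p) 2) (c : ℤ),
    ShimCong p f g c → ShimCong p (evP p P f) (evP p P g) (chi p P * c) := by
  induction P using MvPolynomial.induction_on with
  | C a =>
    intro f g c h γ
    obtain ⟨k, hk1, hk2⟩ := h γ
    refine ⟨a * k, ?_, ?_⟩
    · rw [evP_C]
      have e : ∀ x : CuspForm (Gamma0 p) 2,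
          (algebraMap ℤ (Module.End ℂ (CuspForm (Gamma0 p) 2)) a) x = (a : ℂ) • x := by
        intro x
        rw [Module.algebraMap_end_apply]
        exact (Int.cast_smul_eq_zsmul ℂ a x).symm
      rw [e, e]
      have e2 : ((a : ℂ) • f, (a : ℂ) • g) = (a : ℂ) • (f, g) := rfl
      rw [e2, map_smul, AddMonoidHom.smul_apply, hk1]
      push_cast
      rfl
    · have hchi : chi p (MvPolynomial.C a) = a := by
        rw [chi, MvPolynomial.aeval_C]; rfl
      rw [hchi, mul_smul, ← hk2]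
      push_cast
      simp
  | add P Q hP hQ =>
    intro f g c h γ
    obtain ⟨k1, h11, h12⟩ := hP f g c h γ
    obtain ⟨k2, h21, h22⟩ := hQ f g c h γ
    refine ⟨k1 + k2, ?_, ?_⟩
    · rw [evP_add, LinearMap.add_apply, LinearMap.add_apply]
      have e2 : (evP p P f + evP p Q f, evP p P g + evP p Q g) =
          (evP p P f, evP p P g) + (evP p Q f, evP p Q g) := rfl
      rw [e2, map_add, AddMonoidHom.add_apply, h11, h21]
      push_cast
      rfl
    · push_cast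
      rw [h12, h22, map_add, add_mul, add_smul]
  | mul_X P ℓ hP =>
    intro f g c h
    have h1 := shimCong_X p ℓ f g c h
    have h2 := hP _ _ _ h1
    rw [evP_mul, map_mul, mul_assoc]
    exact h2

/-! ### the conclusion -/

lemma shim_arith (c : ℤ) (h : ((p - 1 : ℕ) : ℤ) ∣ 12 * c) :
    ((eisensteinNumerator p : ℕ) : ℤ) ∣ c := by
  have hp : p.Prime := Fact.out
  set M := p - 1 with hM
  have hM0 : 0 < M := by have := hp.one_lt; omega
  set g := Nat.gcd M 12 with hg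
  have hg0 : 0 < g := Nat.gcd_pos_of_pos_left _ hM0
  have h1 : M = eisensteinNumerator p * g := by
    rw [eisensteinNumerator]
    exact (Nat.div_mul_cancel (Nat.gcd_dvd_left M 12)).symm
  obtain ⟨t, ht⟩ : g ∣ 12 := Nat.gcd_dvd_right M 12
  have hcop : Nat.Coprime (eisensteinNumerator p) t := by
    have := Nat.coprime_div_gcd_div_gcd (m := M) (n := 12) hg0
    rw [eisensteinNumerator]
    have e : 12 / g = t := by
      rw [ht]; exact Nat.mul_div_cancel_left _ hg0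
    rwa [← hg, e] at this
  have h2 : ((eisensteinNumerator p : ℕ) : ℤ) * g ∣ (g : ℤ) * (t * c) := by
    have e1 : ((M : ℕ) : ℤ) = ((eisensteinNumerator p : ℕ) : ℤ) * g := by exact_mod_cast h1
    have e2 : (12 : ℤ) = (g : ℤ) * t := by exact_mod_cast ht
    rw [e1, e2] at h
    rwa [mul_assoc] at h
  rw [mul_comm ((eisensteinNumerator p : ℕ) : ℤ)] at h2
  have h3 := (mul_dvd_mul_iff_left (by exact_mod_cast hg0.ne' : (g : ℤ) ≠ 0)).1 h2
  have hcop' : IsCoprime ((eisensteinNumerator p : ℕ) : ℤ) (t : ℤ) := by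
    rw [Int.isCoprime_iff_gcd_eq_one]
    exact_mod_cast hcop
  exact hcop'.dvd_of_dvd_mul_left h3

/-- part (A), from the lifting lemma -/
theorem dvd_chi_of_lift
    (hlift : ∃ φ ∈ parabolicHoms ℂ (Gamma0 p) ℂ, ∀ γ : Additive (Gamma0 p),
      ∃ k : ℤ, φ γ = (k : ℂ) ∧ ((k : ℤ) : ZMod (p - 1)) = shimPsi p γ)
    (P : HeckeAlg) (hP : heckeEvalForms p 2 P = 0) :
    ((eisensteinNumerator p : ℕ) : ℤ) ∣ chi p P := by
  obtain ⟨φ, hφ, hint⟩ := hlift
  rw [← (Fermat.Agent.S21.result p).2] at hφ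
  obtain ⟨⟨f, g⟩, rfl⟩ := hφ
  have h0 : ShimCong p f g 1 := by
    intro γ
    obtain ⟨k, hk1, hk2⟩ := hint (Additive.ofMul γ)
    exact ⟨k, hk1, by rw [hk2, one_smul]⟩
  have h1 := shimCong_evP p P f g 1 h0
  have hev : evP p P = 0 := by
    rw [evP, hP]
    rfl
  rw [hev, mul_one] at h1
  obtain ⟨γ, hγ⟩ := shimD_surjective p (Additive.toMul ((shimLog p).symm 1))
  obtain ⟨k, hk1, hk2⟩ := h1 γ
  have hz : periodHomPair p ((0 : Module.End ℂ (CuspForm (Gamma0 p) 2)) f,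
      (0 : Module.End ℂ (CuspForm (Gamma0 p) 2)) g) = 0 := by
    have : ((0 : Module.End ℂ (CuspForm (Gamma0 p) 2)) f,
      (0 : Module.End ℂ (CuspForm (Gamma0 p) 2)) g) = 0 := rfl
    rw [this, map_zero]
  rw [hz, AddMonoidHom.zero_apply] at hk1
  have hk0 : k = 0 := by exact_mod_cast hk1.symm
  rw [hk0, Int.cast_zero, shimPsi_apply, hγ, ofMul_toMul, AddEquiv.apply_symm_apply] at hk2
  apply shim_arith
  rw [← ZMod.intCast_zmod_eq_zero_iff_dvd]
  push_cast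
  rw [hk2]
  simp [mul_comm]

end Fermat.Agent.S16
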