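import Mathlib

/-!
# S16 (M7c): a polynomial in a Laurent series with a pole has no zero
-/

set_option autoImplicit false

namespace Fermat.Agent.S16

open Polynomial

theorem ord_orderTop_aeval {k : Type*} [Field k] (J : LaurentSeries k) (hJ : J.order < 0)
    (P : Polynomial k) (hP : P ≠ 0) :
    (aeval J P).orderTop = ((P.natDegree * J.order : ℤ) : WithTop ℤ) := by
  have hJ0 : J ≠ 0 := by
    rintro rfl
    simp at hJ
  induction hn : P.natDegree using Nat.strong_induction_on generalizing P with
  | _ n ih =>
    have hlead : (aeval J (C P.leadingCoeff * X ^ n)).orderTop = ((n * J.order : ℤ) : WithTop ℤ) := by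
      have h1 : aeval J (C P.leadingCoeff * X ^ n) = HahnSeries.C P.leadingCoeff * J ^ n := by
        have h0 : algebraMap k (PowerSeries k) P.leadingCoeff = PowerSeries.C P.leadingCoeff := by
          simp
        rw [map_mul, aeval_C, map_pow, aeval_X, HahnSeries.algebraMap_apply', h0,
          HahnSeries.ofPowerSeries_C]
      have h2 : HahnSeries.C P.leadingCoeff * J ^ n ≠ 0 :=
        mul_ne_zero (by simpa using hP) (pow_ne_zero _ hJ0)
      rw [h1, ← HahnSeries.order_eq_orderTop_of_ne_zero h2,
        HahnSeries.order_mul (by simpa using hP) (pow_ne_zero _ hJ0), HahnSeries.order_C,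
        HahnSeries.order_pow]
      simp
    have hdec : aeval J P = aeval J P.eraseLead + aeval J (C P.leadingCoeff * X ^ n) := by
      rw [← map_add, ← hn, eraseLead_add_C_mul_X_pow]
    rcases eraseLead_natDegree_lt_or_eraseLead_eq_zero P with h | h
    · by_cases h0 : P.eraseLead = 0
      · rw [hdec, h0, map_zero, zero_add, hlead]
      · have := ih _ (hn ▸ h) P.eraseLead h0 rfl
        rw [hdec, HahnSeries.orderTop_add_eq_right, hlead]
        rw [hlead, this, WithTop.coe_lt_coe]
        have h' : (P.eraseLead.natDegree : ℤ) < n := by exact_mod_cast hn ▸ h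
        nlinarith
    · rw [hdec, h, map_zero, zero_add, hlead]

theorem ord_false {k : Type*} [Field k] {I : Type*} (s : Finset I) (f : I → LaurentSeries k)
    (hf : ∀ i ∈ s, f i ≠ 0) (hpos : 0 < ∑ i ∈ s, (f i).order) (J : LaurentSeries k)
    (hJ : J.order < 0) (P : Polynomial k) (h : ∏ i ∈ s, f i = aeval J P) : False := by
  classical
  have key : ∀ t : Finset I, (∀ i ∈ t, f i ≠ 0) →
      (∏ i ∈ t, f i) ≠ 0 ∧ (∏ i ∈ t, f i).order = ∑ i ∈ t, (f i).order := by
    intro t
    induction t using Finset.induction_on with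
    | empty => simp
    | insert a t ha ih =>
      intro h
      obtain ⟨h1, h2⟩ := ih fun i hi => h i (Finset.mem_insert_of_mem hi)
      have h0 := h a (Finset.mem_insert_self a t)
      rw [Finset.prod_insert ha, Finset.sum_insert ha]
      exact ⟨mul_ne_zero h0 h1, by rw [HahnSeries.order_mul h0 h1, h2]⟩
  obtain ⟨h1, h2⟩ := key s hf
  have hP : P ≠ 0 := by
    rintro rfl
    rw [map_zero] at h
    exact h1 h
  have h3 := ord_orderTop_aeval J hJ P hP
  rw [← h, ← HahnSeries.order_eq_orderTop_of_ne_zero h1, h2, WithTop.coe_eq_coe] at h3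
  have : (0 : ℤ) ≤ P.natDegree := Int.natCast_nonneg _
  nlinarith

end Fermat.Agent.S16
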