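import Mathlib
import Fermat.Agent.S16.Defs
import Fermat.Agent.S16.Trace
import Fermat.Agent.S28.Unit

/-!
# S16 (M7a): the conjugates of a weight `k` function on `Γ₀(p)` and the "resultant" of two
weight `2` functions of levels `p`, `r`
-/

set_option autoImplicit false

namespace Fermat.Agent.S16

open UpperHalfPlane ModularForm ModularCurve CongruenceSubgroup EisensteinSeries
open Fermat.Agent.S24 Fermat.Agent.S28 Fermat.Agent.X0
open scoped MatrixGroups Manifold

/-- all the conjugates of `G` -/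
noncomputable def trC (k : ℤ) (G : ℍ → ℂ) (p : ℕ) : Option (ZMod p) → ℍ → ℂ
  | none => G
  | some x => trG k G p x

theorem trC_mdiff (k : ℤ) (G : ℍ → ℂ) (hG : MDiff G) (p : ℕ) (i : Option (ZMod p)) :
    MDiff (trC k G p i) := by
  cases i with
  | none => exact hG
  | some x => exact MDifferentiable.slash hG k _

theorem trC_slash_T (p : ℕ) [NeZero p] (k : ℤ) (G : ℍ → ℂ)
    (hinv : ∀ γ ∈ Gamma0 p, G ∣[k] γ = G) :
    ∃ σ : Equiv.Perm (Option (ZMod p)), ∀ i,
      trC k G p i ∣[k] ModularGroup.T = trC k G p (σ i) := by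
  refine ⟨Equiv.optionCongr (Equiv.addRight (1 : ZMod p)), fun i => ?_⟩
  cases i with
  | none =>
    have hT : ModularGroup.T ∈ Gamma0 p := by
      rw [Gamma0_mem]; simp [ModularGroup.coe_T]
    exact hinv _ hT
  | some x => exact trG_slash_T p k G hinv x

theorem trC_slash_S (p : ℕ) [Fact p.Prime] (k : ℤ) (G : ℍ → ℂ)
    (hinv : ∀ γ ∈ Gamma0 p, G ∣[k] γ = G) :
    ∃ σ : Equiv.Perm (Option (ZMod p)), ∀ i,
      trC k G p i ∣[k] ModularGroup.S = trC k G p (σ i) := by
  classical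
  let f : Option (ZMod p) → Option (ZMod p) := fun i =>
    match i with
    | none => some 0
    | some x => if x = 0 then none else some (-x⁻¹)
  have hf : Function.Involutive f := by
    intro i
    cases i with
    | none => simp [f]
    | some x =>
      by_cases hx : x = 0
      · simp [f, hx]
      · simp [f, hx]
  refine ⟨Function.Involutive.toPerm f hf, fun i => ?_⟩
  change _ = trC k G p (f i)
  cases i with
  | none => exact (trG_zero p k G).symm
  | some x =>
    by_cases hx : x = 0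
    · subst hx
      have e : f (some 0) = none := by simp [f]
      rw [e]
      exact trG_zero_slash_S p k G hinv
    · have e : f (some x) = some (-x⁻¹) := by simp [f, hx]
      rw [e]
      exact trG_slash_S p k G hinv x hx

/-- one factor of the resultant -/
noncomputable def resFac (F G : ℍ → ℂ) (a b : ℂ) (z : ℍ) : ℂ :=
  (a * F z + b * G z) ^ 6 * (discriminant z)⁻¹

theorem resFac_mdiff (F G : ℍ → ℂ) (hF : MDiff F) (hG : MDiff G) (a b : ℂ) :
    MDiff (resFac F G a b) := by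
  have h1 : MDiff (fun _ : ℍ => a) := mdifferentiable_const
  have h2 : MDiff (fun _ : ℍ => b) := mdifferentiable_const
  have h3 : MDiff (fun _ : ℍ => (1 : ℂ)) := mdifferentiable_const
  have h := (((h1.mul hF).add (h2.mul hG)).pow 6).mul (h3.div jf_disc_mdiff discriminant_ne_zero)
  have e : resFac F G a b = (((fun _ : ℍ => a) * F + (fun _ : ℍ => b) * G) ^ 6) *
      ((fun _ : ℍ => (1 : ℂ)) / discriminant) := by
    ext z
    simp [resFac]
  rw [e]
  exact h

theorem resFac_alg (a b f g f' g' D D' d : ℂ) (hd : d ≠ 0) (hD : D ≠ 0)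
    (h1 : f * d ^ (-(2 : ℤ)) = f') (h2 : g * d ^ (-(2 : ℤ)) = g')
    (h3 : D * d ^ (-(12 : ℤ)) = D') :
    (a * f + b * g) ^ 6 * D⁻¹ = (a * f' + b * g') ^ 6 * D'⁻¹ := by
  subst h1 h2 h3
  rw [zpow_neg, zpow_neg, zpow_ofNat, zpow_ofNat]
  field_simp

theorem resFac_smul (F G F' G' : ℍ → ℂ) (a b : ℂ) (γ : SL(2, ℤ))
    (hF : F ∣[(2 : ℤ)] γ = F') (hG : G ∣[(2 : ℤ)] γ = G')
    (hΔ : discriminant ∣[(12 : ℤ)] γ = discriminant) (z : ℍ) :
    resFac F G a b (γ • z) = resFac F' G' a b z := by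
  have h1 := congrFun hF z
  have h2 := congrFun hG z
  have h3 := congrFun hΔ z
  rw [SL_slash_apply] at h1 h2 h3
  exact resFac_alg a b _ _ _ _ _ _ _ (denom_ne_zero _ z) (discriminant_ne_zero (γ • z)) h1 h2 h3

/-- the resultant -/
noncomputable def resTheta (p r : ℕ) [NeZero p] [NeZero r] (F G : ℍ → ℂ) (a b : ℂ) (z : ℍ) : ℂ :=
  ∏ i : Option (ZMod p), ∏ j : Option (ZMod r), resFac (trC 2 F p i) (trC 2 G r j) a b z

theorem resTheta_mdiff (p r : ℕ) [NeZero p] [NeZero r] (F G : ℍ → ℂ) (hF : MDiff F)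
    (hG : MDiff G) (a b : ℂ) : MDiff (resTheta p r F G a b) :=
  unit_prod_mdiff _ _ fun i _ => unit_prod_mdiff _ _ fun j _ =>
    resFac_mdiff _ _ (trC_mdiff 2 F hF p i) (trC_mdiff 2 G hG r j) a b

theorem resTheta_smul_aux (p r : ℕ) [NeZero p] [NeZero r] (F G : ℍ → ℂ) (a b : ℂ) (γ : SL(2, ℤ))
    (hF : ∃ σ : Equiv.Perm (Option (ZMod p)), ∀ i, trC 2 F p i ∣[(2 : ℤ)] γ = trC 2 F p (σ i))
    (hG : ∃ σ : Equiv.Perm (Option (ZMod r)), ∀ i, trC 2 G r i ∣[(2 : ℤ)] γ = trC 2 G r (σ i))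
    (hΔ : discriminant ∣[(12 : ℤ)] γ = discriminant) :
    resTheta p r F G a b ∣[(0 : ℤ)] γ = resTheta p r F G a b := by
  obtain ⟨σ, hσ⟩ := hF
  obtain ⟨τ, hτ⟩ := hG
  ext z
  rw [SL_slash_apply, neg_zero, zpow_zero, mul_one, resTheta, resTheta]
  simp only [resFac_smul _ _ _ _ a b γ (hσ _) (hτ _) hΔ z]
  rw [Equiv.prod_comp σ fun i => ∏ j : Option (ZMod r),
    resFac (trC 2 F p i) (trC 2 G r (τ j)) a b z]
  refine Finset.prod_congr rfl fun i _ => ?_
  exact Equiv.prod_comp τ fun j => resFac (trC 2 F p i) (trC 2 G r j) a b z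

theorem resTheta_smul (p r : ℕ) [Fact p.Prime] [Fact r.Prime] (F G : ℍ → ℂ) (a b : ℂ)
    (hF : ∀ γ ∈ Gamma0 p, F ∣[(2 : ℤ)] γ = F) (hG : ∀ γ ∈ Gamma0 r, G ∣[(2 : ℤ)] γ = G)
    (γ : SL(2, ℤ)) (z : ℍ) : resTheta p r F G a b (γ • z) = resTheta p r F G a b z := by
  have h := SlashInvariantForm.slash_action_generators_SL2Z
    (resTheta_smul_aux p r F G a b ModularGroup.S (trC_slash_S p 2 F hF) (trC_slash_S r 2 G hG)
      discriminant_S_invariant)
    (resTheta_smul_aux p r F G a b ModularGroup.T (trC_slash_T p 2 F hF) (trC_slash_T r 2 G hG)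
      discriminant_T_invariant) γ
  have h2 := congrFun h z
  rwa [SL_slash_apply, neg_zero, zpow_zero, mul_one] at h2

end Fermat.Agent.S16
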