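import Mathlib
import Fermat.Agent.S28.Defs
import Fermat.Agent.S28.Tw
import Fermat.Agent.S28.Heart

/-!
# S16 (M7c): a polynomial in `j` has no zero at `i∞`
-/

set_option autoImplicit false

namespace Fermat.Agent.S16

open ModularCurve HahnSeries Polynomial
open Fermat.Agent.S24 Fermat.Agent.S28

theorem res_order_false {k : Type*} [Field k] (N : ℕ) [NeZero N] (s : LaurentSeries k)
    (hs : s ≠ 0) (hpos : 0 < s.order) (P : k[X]) (h : s = aeval (JJ k N) P) : False := by
  have hN : (0 : ℤ) < N := by exact_mod_cast Nat.pos_of_ne_zero (NeZero.ne N)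
  have hJ0 : JJ k N ≠ 0 := by
    intro h1
    have := order_JJ (k := k) N
    rw [h1, HahnSeries.order_zero] at this
    omega
  have hP : P ≠ 0 := by
    rintro rfl
    rw [map_zero] at h
    exact hs h
  have hJ : HahnSeries.addVal ℤ k (JJ k N) < 0 := by
    rw [HahnSeries.addVal_apply, ← HahnSeries.order_eq_orderTop_of_ne_zero hJ0, order_JJ]
    exact_mod_cast (by omega : -(N : ℤ) < 0)
  have h1 := heart_val_aeval (HahnSeries.addVal ℤ k) (fun c hc => by
    rw [HahnSeries.addVal_apply, algebraMap_laurentSeries_eq_single,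
      HahnSeries.orderTop_single hc]
    rfl) (JJ k N) hJ P hP
  have h2 := heart_nsmul_nonpos hJ P.natDegree
  rw [← h1, ← h, HahnSeries.addVal_apply] at h2
  exact absurd (HahnSeries.zero_lt_orderTop_of_order hpos) (not_lt.2 h2)

end Fermat.Agent.S16
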