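import Mathlib
import Fermat.Agent.S16.Defs
import Fermat.Agent.S24.RelInf
import Fermat.Agent.S28.Defs
import Fermat.Agent.S28.Tw

/-!
# S16 (M7, R1): the Laurent series of an integer sequence
-/

set_option autoImplicit false

namespace Fermat.Agent.S16

open UpperHalfPlane ModularForm ModularCurve HahnSeries
open Fermat.Agent.S24 Fermat.Agent.S28

/-- the series `∑ c k q^k` -/
noncomputable def zser (R : Type*) [CommRing R] (c : ℕ → ℤ) : LaurentSeries R :=
  HahnSeries.ofPowerSeries ℤ R (PowerSeries.mk fun k => ((c k : ℤ) : R))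

theorem coeffMap_zser {R S : Type*} [CommRing R] [CommRing S] (f : R →+* S) (c : ℕ → ℤ) :
    coeffMap f (zser R c) = zser S c := by
  rw [zser, coeffMap_ofPowerSeries, zser]
  congr 1
  ext k
  simp

theorem zser_qL (f : ℍ → ℂ) (c : ℕ → ℤ) (hc : ∀ k, (qExpansion 1 f).coeff k = (c k : ℂ)) :
    qL 1 f = iotaZ (zser Zb c) := by
  rw [iotaZ, coeffMap_zser, qL, zser]
  congr 1
  ext k
  rw [hc]
  simp

theorem zser_coeff_nat (R : Type*) [CommRing R] (c : ℕ → ℤ) (n : ℕ) :
    (zser R c).coeff (n : ℤ) = ((c n : ℤ) : R) := by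
  rw [zser, HahnSeries.ofPowerSeries_apply_coeff]
  simp

theorem zser_coeff_neg (R : Type*) [CommRing R] (c : ℕ → ℤ) {n : ℤ} (hn : n < 0) :
    (zser R c).coeff n = 0 := by
  rw [zser, HahnSeries.ofPowerSeries_apply]
  apply HahnSeries.embDomain_of_notMem_range
  rintro ⟨m, hm⟩
  simp at hm
  omega

end Fermat.Agent.S16
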